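import Fermat.Agent.S59.Lim.H2_Tate

/-!
# S59, package LIM, leaf LIM-TATE (helper2), part 2: functoriality of the Tate module

* `map ϖ f : tate ϖ W →ₗ[𝒪] tate ϖ W'` for `f : W →ₗ[𝒪] W'`; `ev_map`, `map_id`, `map_comp`.
* `mapEnd ϖ W : Module.End 𝒪 W →ₐ[𝒪] Module.End 𝒪 (tate ϖ W)`; `mapEnd_injective`
  (`W` torsion and divisible).
* `map_injective` (`f` injective on the torsion), `map_surjective` (`f` onto on the `ϖ`-torsion,
  `T_ϖ W'` finite, `𝒪` local with `ϖ ∈ 𝔪`).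
* `mapEnd_mem_smul` : an endomorphism killing `W[ϖ]` maps `T` into `ϖ T`.
* `range_map_sub_one_le_ker` etc.: bookkeeping for kernels.

This file contains no `sorry`.
-/

set_option autoImplicit false
set_option linter.style.haveILetI false
set_option linter.unusedSectionVars false
set_option linter.unusedVariables false

noncomputable section

open IsLocalRing

namespace Fermat.Agent.S59.Lim.H2

section Map

variable {𝒪 : Type*} [CommRing 𝒪] (ϖ : 𝒪) {W : Type*} [AddCommGroup W] [Module 𝒪 W]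
  {W' : Type*} [AddCommGroup W'] [Module 𝒪 W'] {W'' : Type*} [AddCommGroup W''] [Module 𝒪 W'']

/-- Functoriality of the Tate module. -/
def map (f : W →ₗ[𝒪] W') : tate ϖ W →ₗ[𝒪] tate ϖ W' where
  toFun x := ⟨fun k => f (x.1 k), by
    refine ⟨?_, fun k => ?_⟩
    · show f (x.1 0) = 0
      rw [x.2.1, map_zero]
    · show ϖ • f (x.1 (k + 1)) = f (x.1 k)
      rw [← map_smul, x.2.2 k]⟩
  map_add' x y := by
    apply Subtype.ext
    funext k
    show f ((x + y).1 k) = f (x.1 k) + f (y.1 k)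
    rw [← map_add]
    rfl
  map_smul' c x := by
    apply Subtype.ext
    funext k
    show f ((c • x).1 k) = c • f (x.1 k)
    rw [← map_smul]
    rfl

variable {ϖ}

@[simp] theorem ev_map (f : W →ₗ[𝒪] W') (k : ℕ) (x : tate ϖ W) :
    ev ϖ W' k (map ϖ f x) = f (ev ϖ W k x) := rfl

@[simp] theorem map_id : map ϖ (LinearMap.id : W →ₗ[𝒪] W) = LinearMap.id := by
  ext x
  rfl

theorem map_comp (g : W' →ₗ[𝒪] W'') (f : W →ₗ[𝒪] W') :
    map ϖ (g ∘ₗ f) = map ϖ g ∘ₗ map ϖ f := by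
  ext x
  rfl

theorem map_comp_apply (g : W' →ₗ[𝒪] W'') (f : W →ₗ[𝒪] W') (x : tate ϖ W) :
    map ϖ (g ∘ₗ f) x = map ϖ g (map ϖ f x) := rfl

theorem map_add' (f g : W →ₗ[𝒪] W') : map ϖ (f + g) = map ϖ f + map ϖ g := by
  ext x
  rfl

theorem map_sub' (f g : W →ₗ[𝒪] W') : map ϖ (f - g) = map ϖ f - map ϖ g := by
  ext x
  rfl

theorem map_smul' (c : 𝒪) (f : W →ₗ[𝒪] W') : map ϖ (c • f) = c • map ϖ f := by
  ext x
  rfl

theorem map_zero' : map ϖ (0 : W →ₗ[𝒪] W') = 0 := by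
  ext x
  rfl

variable (ϖ W)

/-- The induced map on endomorphism algebras. -/
def mapEnd : Module.End 𝒪 W →ₐ[𝒪] Module.End 𝒪 (tate ϖ W) where
  toFun f := map ϖ f
  map_one' := map_id
  map_mul' f g := map_comp f g
  map_zero' := map_zero'
  map_add' f g := map_add' f g
  commutes' c := by
    ext x
    rfl

variable {ϖ W}

@[simp] theorem mapEnd_apply (f : Module.End 𝒪 W) : mapEnd ϖ W f = map ϖ f := rfl

@[simp] theorem ev_mapEnd (f : Module.End 𝒪 W) (k : ℕ) (x : tate ϖ W) :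
    ev ϖ W k (mapEnd ϖ W f x) = f (ev ϖ W k x) := rfl

/-- `T_ϖ` is faithful on divisible torsion modules. -/
theorem map_eq_zero_iff (hdiv : ∀ w : W, ∃ v : W, ϖ • v = w)
    (htors : ∀ w : W, ∃ k : ℕ, ϖ ^ k • w = 0) (f : W →ₗ[𝒪] W') :
    map ϖ f = 0 ↔ f = 0 := by
  constructor
  · intro h
    ext w
    obtain ⟨k, x, rfl⟩ := exists_ev_eq_of_torsion hdiv htors w
    rw [← ev_map, h]
    rfl
  · rintro rfl
    exact map_zero'

theorem map_injective_of (hdiv : ∀ w : W, ∃ v : W, ϖ • v = w)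
    (htors : ∀ w : W, ∃ k : ℕ, ϖ ^ k • w = 0) :
    Function.Injective (map ϖ : (W →ₗ[𝒪] W') → _) := by
  intro f g hfg
  have : map ϖ (f - g) = 0 := by
    rw [map_sub']
    exact sub_eq_zero.mpr hfg
  exact sub_eq_zero.mp ((map_eq_zero_iff hdiv htors _).mp this)

theorem mapEnd_injective (hdiv : ∀ w : W, ∃ v : W, ϖ • v = w)
    (htors : ∀ w : W, ∃ k : ℕ, ϖ ^ k • w = 0) : Function.Injective (mapEnd ϖ W) :=
  map_injective_of hdiv htors

/-- `T_ϖ f` is injective if `f` is. -/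
theorem map_injective (f : W →ₗ[𝒪] W') (hf : Function.Injective f) :
    Function.Injective (map ϖ f) := by
  intro x y hxy
  apply tate_ext
  intro k
  apply hf
  rw [← ev_map, ← ev_map, hxy]

/-- The kernel of `T_ϖ f` is the Tate module of the kernel. -/
theorem map_apply_eq_zero_iff (f : W →ₗ[𝒪] W') (x : tate ϖ W) :
    map ϖ f x = 0 ↔ ∀ k, f (ev ϖ W k x) = 0 := by
  constructor
  · intro h k
    rw [← ev_map, h]
    rfl
  · intro h
    apply tate_ext
    intro k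
    rw [ev_map, h k]
    rfl

/-- An endomorphism killing the `ϖ`-torsion maps `T` into `ϖ T`. -/
theorem exists_smul_eq_map (f : W →ₗ[𝒪] W') (hf : ∀ w : W, ϖ • w = 0 → f w = 0)
    (x : tate ϖ W) : ∃ y : tate ϖ W', map ϖ f x = ϖ • y := by
  have h : ev ϖ W' 1 (map ϖ f x) = 0 := by
    rw [ev_map]
    apply hf
    have := pow_smul_ev 1 x
    rwa [pow_one] at this
  obtain ⟨y, hy⟩ := (ev_eq_zero_iff 1 _).mp h
  exact ⟨y, by rw [hy, pow_one]⟩

end Map

section Local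

variable {𝒪 : Type*} [CommRing 𝒪] [IsLocalRing 𝒪] {ϖ : 𝒪}
  {W : Type*} [AddCommGroup W] [Module 𝒪 W] {W' : Type*} [AddCommGroup W'] [Module 𝒪 W']

theorem map_mem_maximalIdeal_smul (hϖ : ϖ ∈ maximalIdeal 𝒪) (f : W →ₗ[𝒪] W')
    (hf : ∀ w : W, ϖ • w = 0 → f w = 0) (x : tate ϖ W) :
    map ϖ f x ∈ (maximalIdeal 𝒪 • ⊤ : Submodule 𝒪 (tate ϖ W')) := by
  obtain ⟨y, hy⟩ := exists_smul_eq_map f hf x
  rw [hy]
  exact Submodule.smul_mem_smul hϖ Submodule.mem_top

/-- `T_ϖ f` is onto if `f` maps `W[ϖ]` onto `W'[ϖ]`, `W` is divisible and `T_ϖ W'` is finite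
(Nakayama). -/
theorem map_surjective (hϖ : ϖ ∈ maximalIdeal 𝒪) [Module.Finite 𝒪 (tate ϖ W')]
    (hdiv : ∀ w : W, ∃ v : W, ϖ • v = w) (f : W →ₗ[𝒪] W')
    (hf : ∀ w' : W', ϖ • w' = 0 → ∃ w : W, ϖ • w = 0 ∧ f w = w') :
    Function.Surjective (map ϖ f) := by
  rw [← LinearMap.range_eq_top, eq_top_iff]
  refine Submodule.le_of_le_smul_of_le_jacobson_bot (I := maximalIdeal 𝒪) Module.Finite.fg_top
    (IsLocalRing.jacobson_eq_maximalIdeal ⊥ bot_ne_top).ge ?_
  rintro y -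
  have hy1 : ϖ • ev ϖ W' 1 y = 0 := by
    have := pow_smul_ev 1 y
    rwa [pow_one] at this
  obtain ⟨w, hw, hfw⟩ := hf _ hy1
  obtain ⟨x, hx⟩ := exists_ev_eq hdiv 1 w (by rwa [pow_one])
  have h0 : ev ϖ W' 1 (y - map ϖ f x) = 0 := by
    rw [_root_.map_sub, ev_map, hx, hfw, sub_self]
  obtain ⟨z, hz⟩ := (ev_eq_zero_iff 1 _).mp h0
  rw [pow_one] at hz
  have : y = map ϖ f x + ϖ • z := by
    rw [← hz]
    abel
  rw [this]
  exact Submodule.add_mem_sup (LinearMap.mem_range_self _ x)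
    (Submodule.smul_mem_smul hϖ Submodule.mem_top)

/-- Pointwise form: if `f` kills the first component of `x` then `T_ϖ f x ∈ 𝔪 T`. -/
theorem map_mem_maximalIdeal_smul_of_ev_one (hϖ : ϖ ∈ maximalIdeal 𝒪) (f : W →ₗ[𝒪] W')
    (x : tate ϖ W) (h : f (ev ϖ W 1 x) = 0) :
    map ϖ f x ∈ (maximalIdeal 𝒪 • ⊤ : Submodule 𝒪 (tate ϖ W')) := by
  have h1 : ev ϖ W' 1 (map ϖ f x) = 0 := h
  obtain ⟨y, hy⟩ := (ev_eq_zero_iff 1 _).mp h1
  rw [hy, pow_one]
  exact Submodule.smul_mem_smul hϖ Submodule.mem_top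

end Local

/-! ### Submodules -/

section Sub

variable {𝒪 : Type*} [CommRing 𝒪] (ϖ : 𝒪) {W : Type*} [AddCommGroup W] [Module 𝒪 W]

/-- The Tate module of a submodule `U ≤ W`, inside `T_ϖ W`. -/
def tateSub (U : Submodule 𝒪 W) : Submodule 𝒪 (tate ϖ W) := ⨅ k, U.comap (ev ϖ W k)

variable {ϖ}

theorem mem_tateSub {U : Submodule 𝒪 W} {x : tate ϖ W} :
    x ∈ tateSub ϖ U ↔ ∀ k, ev ϖ W k x ∈ U := by
  simp only [tateSub, Submodule.mem_iInf, Submodule.mem_comap]

theorem tateSub_mono {U U' : Submodule 𝒪 W} (h : U ≤ U') : tateSub ϖ U ≤ tateSub ϖ U' :=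
  fun _ hx => mem_tateSub.mpr fun k => h (mem_tateSub.mp hx k)

/-- An endomorphism preserving `U` preserves `T_ϖ U`. -/
theorem map_mem_tateSub {U : Submodule 𝒪 W} (f : W →ₗ[𝒪] W) (hf : ∀ w ∈ U, f w ∈ U)
    {x : tate ϖ W} (hx : x ∈ tateSub ϖ U) : map ϖ f x ∈ tateSub ϖ U :=
  mem_tateSub.mpr fun k => hf _ (mem_tateSub.mp hx k)

/-- `T_ϖ` commutes with direct sums. -/
theorem isCompl_tateSub {U U' : Submodule 𝒪 W} (h : IsCompl U U') :
    IsCompl (tateSub ϖ U) (tateSub ϖ U') := by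
  constructor
  · rw [Submodule.disjoint_def]
    intro x hx hx'
    apply tate_ext
    intro k
    have h1 := mem_tateSub.mp hx k
    have h2 := mem_tateSub.mp hx' k
    have : ev ϖ W k x ∈ U ⊓ U' := ⟨h1, h2⟩
    rw [h.inf_eq_bot, Submodule.mem_bot] at this
    rw [this, _root_.map_zero]
  · rw [codisjoint_iff, eq_top_iff]
    rintro x -
    let p : W →ₗ[𝒪] W := U.subtype ∘ₗ Submodule.linearProjOfIsCompl U U' h
    have hp : ∀ w, p w ∈ U := fun w => (Submodule.linearProjOfIsCompl U U' h w).2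
    have hp' : ∀ w, w - p w ∈ U' := by
      intro w
      have h1 : Submodule.linearProjOfIsCompl U U' h (w - p w) = 0 := by
        rw [_root_.map_sub]
        have : Submodule.linearProjOfIsCompl U U' h (p w) =
            Submodule.linearProjOfIsCompl U U' h w :=
          Submodule.linearProjOfIsCompl_apply_left h _
        rw [this, sub_self]
      exact (Submodule.linearProjOfIsCompl_apply_eq_zero_iff h).mp h1
    have hx : x = map ϖ p x + (x - map ϖ p x) := by abel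
    rw [hx]
    refine Submodule.add_mem_sup (mem_tateSub.mpr fun k => hp _) (mem_tateSub.mpr fun k => ?_)
    rw [_root_.map_sub, ev_map]
    exact hp' _

end Sub

end Fermat.Agent.S59.Lim.H2
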