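import Mathlib
import Fermat.Agent.S59.Asm.Defs
import Fermat.Agent.S59.Lim.H2_TateMap

/-!
# S59, package LIM (helper94): from the torsion levels to `TWGeom` — definitions and leaves

Layer A (pure algebra): the MIRROR of `Asm.TWGeom` at the divisible level.

* the `ϖ`-adic Tate module is helper2's `H2.tate ϖ W` (`S59/Lim/H2_Tate.lean`, LIM-TATE DONE).
* `IsDiv ϖ W`  : `W` is `ϖ`-power torsion, `ϖ`-divisible, and `W[ϖ]` is finite.
* `gk B`       : the generalised kernel `⋃_N ker B^N`.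
* `HDiv`       : mirror of `Asm.HMod` (a divisible module with a Hecke action, local at `θ`).
* `TWDiv`      : mirror of `Asm.TWGeom`.

Leaves (exact statements): `Stmt_DEC_W` (LIM-DEC, torsion form; the Tate part is
`H2.isCompl_tateSub`), `Stmt_KERNM` (kernel of the total norm on a free `𝒪[Δ]`-module),
`Stmt_LIM_A` (assembly).

No `sorry`; definitions only.
-/

set_option autoImplicit false

open Polynomial CuspForm IsLocalRing

namespace Fermat.Agent.S59.Lim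

open Fermat.Agent.S59.Asm

/-! ## 1. Divisible modules, generalised kernels

The Tate module `H2.tate ϖ W`, `H2.ev`, `H2.map`, `H2.mapEnd`, `H2.tateSub` and their properties
are helper2's (`S59/Lim/H2_Tate.lean`, `H2_TateMap.lean`). -/

section Tate

variable {𝒪 : Type*} [CommRing 𝒪]

variable {ϖ : 𝒪} {W : Type*} [AddCommGroup W] [Module 𝒪 W]

/-- `W` is `ϖ`-power torsion, `ϖ`-divisible, and `W[ϖ]` is finite. -/
structure IsDiv (ϖ : 𝒪) (W : Type*) [AddCommGroup W] [Module 𝒪 W] : Prop where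
  tors : ∀ x : W, ∃ k : ℕ, ϖ ^ k • x = 0
  div : ∀ x : W, ∃ y : W, ϖ • y = x
  fin : Finite (Submodule.torsionBy 𝒪 W ϖ)

/-- The generalised kernel `⋃_N ker B^N`. -/
def gk (B : Module.End 𝒪 W) : Submodule 𝒪 W where
  carrier := {x | ∃ N : ℕ, (B ^ N) x = 0}
  zero_mem' := ⟨0, map_zero _⟩
  add_mem' := by
    rintro x y ⟨N, hN⟩ ⟨N', hN'⟩
    refine ⟨N + N', ?_⟩
    rw [map_add]
    have h1 : (B ^ (N + N')) x = 0 := by
      rw [add_comm, pow_add, Module.End.mul_apply, hN, map_zero]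
    have h2 : (B ^ (N + N')) y = 0 := by
      rw [pow_add, Module.End.mul_apply, hN', map_zero]
    rw [h1, h2, add_zero]
  smul_mem' := by
    rintro c x ⟨N, hN⟩
    exact ⟨N, by rw [map_smul, hN, smul_zero]⟩

theorem mem_gk {B : Module.End 𝒪 W} {x : W} : x ∈ gk B ↔ ∃ N : ℕ, (B ^ N) x = 0 := Iff.rfl

end Tate

/-! ## 2. The mirror of `HMod` and `TWGeom` at the divisible level -/

/-- A divisible module with a Hecke action, local at `θ` (mirror of `Asm.HMod`). -/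
structure HDiv (𝒪 : Type) [CommRing 𝒪] [IsLocalRing 𝒪] (ϖ : 𝒪) (N : ℕ) [NeZero N] (S : Set ℕ)
    (θ : CuspForm.heckeAlgebra N 2 S →+* ResidueField 𝒪) : Type 1 where
  /-- the module -/
  W : Type
  [instAddCommGroup : AddCommGroup W]
  [instModule : Module 𝒪 W]
  isDiv : IsDiv ϖ W
  /-- the Hecke action -/
  η : CuspForm.heckeAlgebra N 2 S →+* Module.End 𝒪 W
  η_local : ∀ (t : CuspForm.heckeAlgebra N 2 S) (a : 𝒪), residue 𝒪 a = θ t →
    ∀ x : W, ϖ • x = 0 → ∃ m : ℕ, ((η t - a • (1 : Module.End 𝒪 W)) ^ m) x = 0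

attribute [instance] HDiv.instAddCommGroup HDiv.instModule

/-- The data at a Taylor–Wiles family at the divisible level (mirror of `Asm.TWGeom`).
`gal` is the TWISTED Galois action. -/
structure TWDiv (𝒪 : Type) [CommRing 𝒪] [IsLocalRing 𝒪] (ϖ : 𝒪) (p : ℕ)
    (ρbar : ResidualGaloisRep (ResidueField 𝒪))
    (N : ℕ) [NeZero N] (S : Finset ℕ)
    (θ : CuspForm.heckeAlgebra N 2 (↑S : Set ℕ) →+* ResidueField 𝒪)
    (MD : HDiv 𝒪 ϖ N (↑S : Set ℕ) θ) {r : ℕ} (n : ℕ) (qv : Fin r → ℕ)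
    [NeZero (twLevel N qv)] : Type 1 where
  /-- restriction of Hecke operators (package REST) -/
  rest : CuspForm.heckeAlgebra (twLevel N qv) 2 (↑(twSet S qv) : Set ℕ) →+*
    CuspForm.heckeAlgebra N 2 (↑S : Set ℕ)
  rest_T : ∀ (ℓ : ℕ) (hℓ : ℓ.Prime) (hℓN' : ¬ ℓ ∣ twLevel N qv)
    (hℓS' : ℓ ∉ (↑(twSet S qv) : Set ℕ)) (hℓN : ¬ ℓ ∣ N) (hℓS : ℓ ∉ (↑S : Set ℕ)),
    rest (CuspForm.heckeAlgebra.T hℓ hℓN' hℓS') = CuspForm.heckeAlgebra.T hℓ hℓN hℓS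
  /-- the divisible Hecke module at the level `N · ∏ q_j²` -/
  WD : HDiv 𝒪 ϖ (twLevel N qv) (↑(twSet S qv) : Set ℕ) (θ.comp rest)
  /-- the twisted Galois action -/
  gal : GalQ →* Module.End 𝒪 WD.W
  /-- every element is fixed by an open subgroup -/
  gal_cont : ∀ x : WD.W, ∃ L : IntermediateField ℚ (AlgebraicClosure ℚ),
    FiniteDimensional ℚ L ∧ ∀ σ : GalQ, (∀ y ∈ L, σ y = y) → gal σ x = x
  gal_η : ∀ (g : GalQ) (t : CuspForm.heckeAlgebra (twLevel N qv) 2 (↑(twSet S qv) : Set ℕ)),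
    Commute (gal g) (WD.η t)
  /-- Eichler–Shimura -/
  es : ∀ (ℓ : ℕ) (hℓ : ℓ.Prime) (hℓN : ¬ ℓ ∣ twLevel N qv)
    (hℓS : ℓ ∉ (↑(twSet S qv) : Set ℕ)),
    ∀ A : ValuationSubring (AlgebraicClosure ℚ), A.LiesOverPrime ℓ →
      ∀ σ : GalQ, A.IsFrobeniusAt σ ℓ →
        gal σ * gal σ - WD.η (CuspForm.heckeAlgebra.T hℓ hℓN hℓS) * gal σ
          + (ℓ : 𝒪) • (1 : Module.End 𝒪 WD.W) = 0
  /-- the diamond operators -/
  d : Fin r → Module.End 𝒪 WD.W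
  d_pow : ∀ j, d j ^ (p ^ n) = 1
  d_comm : ∀ i j, Commute (d i) (d j)
  d_η : ∀ (j : Fin r) (t : CuspForm.heckeAlgebra (twLevel N qv) 2 (↑(twSet S qv) : Set ℕ)),
    Commute (d j) (WD.η t)
  d_gal : ∀ (j : Fin r) (g : GalQ), Commute (d j) (gal g)
  /-- norm surjectivity along the tower, on `W[ϖ]` (hypothesis `hstep` of `H90.tower_basis`) -/
  hstep : ∀ (j : Fin r) (v : WD.W), ϖ • v = 0 → (∀ i, i ≤ j → d i v = v) →
    ∃ w : WD.W, ϖ • w = 0 ∧ (∀ i, i < j → d i w = w) ∧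
      Fermat.Agent.S59.TWH.H90.nm (p ^ n) (d j) w = v
  /-- the projection to the minimal level (`π_*` followed by the identification with level `N`) -/
  π : WD.W →ₗ[𝒪] MD.W
  /-- the pull-back (`π^*`) -/
  πup : MD.W →ₗ[𝒪] WD.W
  πup_injective : Function.Injective πup
  /-- `π^* π_* = ∑_δ δ` -/
  πup_π : ∀ x : WD.W, πup (π x) = Fermat.Agent.S59.TWH.H90.nmTot (p ^ n) d x
  d_πup : ∀ (j : Fin r) (y : MD.W), d j (πup y) = πup y
  /-- (INV) on `W[ϖ]`: invariants are pull-backs -/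
  inv : ∀ v : WD.W, ϖ • v = 0 → (∀ j, d j v = v) → ∃ y : MD.W, πup y = v
  π_η : ∀ (t : CuspForm.heckeAlgebra (twLevel N qv) 2 (↑(twSet S qv) : Set ℕ)) (v : WD.W),
    π (WD.η t v) = MD.η (rest t) (π v)
  /-- local–global compatibility at `q_j`, geometric form -/
  P : Fin r → ValuationSubring (AlgebraicClosure ℚ)
  P_over : ∀ j, (P j).LiesOverPrime (qv j)
  frob : Fin r → GalQ
  frob_spec : ∀ j, (P j).IsFrobeniusAt (frob j) (qv j)
  σ : Fin r → GalQ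
  σ_mem : ∀ j, σ j ∈ (P j).inertiaSubgroupIn ℚ
  a : Fin r → 𝒪
  a' : Fin r → 𝒪
  a_ne : ∀ j, residue 𝒪 (a j) ≠ residue 𝒪 (a' j)
  charpoly_frob : ∀ j, LinearMap.charpoly (ρbar.ρ (frob j)) =
    (X - C (residue 𝒪 (a j))) * (X - C (residue 𝒪 (a' j)))
  /-- `(F - a)(F - a')` is nilpotent on `W[ϖ]` (all Jordan–Hölder factors are `ρbar`) -/
  frob_nil : ∀ (j : Fin r) (x : WD.W), ϖ • x = 0 → ∃ m : ℕ,
    (((gal (frob j) - a j • (1 : Module.End 𝒪 WD.W)) *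
      (gal (frob j) - a' j • (1 : Module.End 𝒪 WD.W))) ^ m) x = 0
  /-- the inertia element `σ_j` acts on the generalised `a_j`-eigenspace of `frob_j` as `d_j` -/
  lg : ∀ (j : Fin r) (x : WD.W), x ∈ gk (gal (frob j) - a j • (1 : Module.End 𝒪 WD.W)) →
    gal (σ j) x = d j x

/-! ## 3. Leaves -/

/-- **LIM-DEC, torsion form (W)**: on a `ϖ`-power torsion module, if `(F - a)(F - a')` is
nilpotent on every element of `W[ϖ]` and `a - a'` is a unit, then `W` is the direct sum of the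
generalised kernels of `F - a` and `F - a'`. -/
def Stmt_DEC_W : Prop :=
  ∀ (𝒪 : Type) [CommRing 𝒪] (ϖ : 𝒪) (W : Type) [AddCommGroup W] [Module 𝒪 W],
    (∀ x : W, ∃ k : ℕ, ϖ ^ k • x = 0) →
    ∀ (F : Module.End 𝒪 W) (a a' : 𝒪), IsUnit (a - a') →
    (∀ x : W, ϖ • x = 0 → ∃ m : ℕ,
      (((F - a • (1 : Module.End 𝒪 W)) * (F - a' • (1 : Module.End 𝒪 W))) ^ m) x = 0) →
    IsCompl (gk (F - a • (1 : Module.End 𝒪 W))) (gk (F - a' • (1 : Module.End 𝒪 W)))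

/-- **KERNM**: on a module which is free over `𝒪[Δ]` in the `mon`-shape, the kernel of the total
norm is `∑_j (d_j - 1) V`, and the invariants are the total norms. -/
def Stmt_KERNM : Prop :=
  ∀ (𝒪 : Type) [CommRing 𝒪] (V : Type) [AddCommGroup V] [Module 𝒪 V] (m r : ℕ), 0 < m →
    ∀ (d : Fin r → Module.End 𝒪 V), (∀ i j, Commute (d i) (d j)) → (∀ j, d j ^ m = 1) →
    ∀ (rk : ℕ) (b : Fin rk → V),
    Function.Bijective (fun f : Fin rk × (Fin r → Fin m) → 𝒪 =>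
      ∑ x : Fin rk × (Fin r → Fin m),
        f x • Fermat.Agent.S59.TWH.H90.mon d (fun j => (x.2 j : ℕ)) (b x.1)) →
    (LinearMap.ker (Fermat.Agent.S59.TWH.H90.nmTot m d) = ⨆ j, LinearMap.range (d j - 1)) ∧
    (∀ v : V, (∀ j, d j v = v) → ∃ w : V, Fermat.Agent.S59.TWH.H90.nmTot m d w = v)

/-- **LIM-A**: the assembly `TWDiv ⟹ TWGeom`.  The minimal-level module is
`M.V = H2.tate ϖ MD.W`. -/
def Stmt_LIM_A : Prop :=
  ∀ (𝒪 : Type) [CommRing 𝒪] [IsDomain 𝒪] [IsDiscreteValuationRing 𝒪]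
    [IsAdicComplete (maximalIdeal 𝒪) 𝒪] (ϖ : 𝒪), Irreducible ϖ →
    ∀ (p : ℕ) [Fact p.Prime], (p : 𝒪) ∈ maximalIdeal 𝒪 →
    ∀ (ρbar : ResidualGaloisRep (ResidueField 𝒪)) (N : ℕ) [NeZero N] (S : Finset ℕ)
      (θ : CuspForm.heckeAlgebra N 2 (↑S : Set ℕ) →+* ResidueField 𝒪)
      (MD : HDiv 𝒪 ϖ N (↑S : Set ℕ) θ),
    ∃ M : HMod 𝒪 N (↑S : Set ℕ) θ, (Nontrivial MD.W → Nontrivial M.V) ∧
      ∀ (r n : ℕ) (qv : Fin r → ℕ) [NeZero (twLevel N qv)],
        TWDiv 𝒪 ϖ p ρbar N S θ MD n qv → Nonempty (TWGeom 𝒪 p ρbar N S θ M n qv)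

end Fermat.Agent.S59.Lim
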