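import Fermat.Agent.S59.Lim.Defs

/-!
# S59, package LIM, leaf KERNM (helper2): kernel of the total norm on a free `𝒪[Δ]`-module

`V` an `𝒪`-module with commuting operators `d j` (`j : Fin r`), `d j ^ m = 1`, and an `𝒪`-basis
of the shape `mon d x (b i)` (`i : Fin rk`, `x : Fin r → Fin m`).  Then
`ker (nmTot m d) = ⨆ j, range (d j - 1)` and every invariant vector is a total norm.

* `mul_nmTot`, `range_sub_one_le_ker_nmTot`, `mon_apply_sub_mem`, `mon_mod`, `mul_mon`,
  `const_of_update_invariant`, `stmt_KERNM : Lim.Stmt_KERNM`.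

This file contains no `sorry`.
-/

set_option autoImplicit false
set_option linter.style.haveILetI false
set_option linter.unusedSectionVars false
set_option linter.unusedVariables false
set_option maxHeartbeats 1000000

noncomputable section

open Module

namespace Fermat.Agent.S59.Lim.H2

open Fermat.Agent.S59.TWH.H90

section Abs

variable {𝒪 : Type*} [CommRing 𝒪] {V : Type*} [AddCommGroup V] [Module 𝒪 V] {m : ℕ}

theorem mul_nm_self {c : End 𝒪 V} (hc : c ^ m = 1) : c * nm m c = nm m c := by
  have h := sub_one_mul_nm m c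
  rw [hc, sub_self, sub_mul, one_mul] at h
  exact sub_eq_zero.mp h

/-- `d j * nmTot = nmTot`. -/
theorem mul_nmTot : ∀ {r : ℕ} (d : Fin r → End 𝒪 V), (∀ i j, Commute (d i) (d j)) →
    (∀ j, d j ^ m = 1) → ∀ j, d j * nmTot m d = nmTot m d := by
  intro r
  induction r with
  | zero => intro d _ _ j; exact j.elim0
  | succ r ih =>
    intro d hcomm hpow j
    rw [nmTot_succ]
    refine Fin.cases ?_ (fun j' => ?_) j
    · rw [← mul_assoc, mul_nm_self (hpow 0)]
    · rw [← mul_assoc, ← (commute_nm m (hcomm 0 j'.succ)).eq, mul_assoc,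
        ih (fun k => d k.succ) (fun i k => hcomm i.succ k.succ) (fun k => hpow k.succ) j']

theorem range_sub_one_le_ker_nmTot {r : ℕ} (d : Fin r → End 𝒪 V)
    (hcomm : ∀ i j, Commute (d i) (d j)) (hpow : ∀ j, d j ^ m = 1) (j : Fin r) :
    LinearMap.range (d j - 1) ≤ LinearMap.ker (nmTot m d) := by
  rintro _ ⟨w, rfl⟩
  rw [LinearMap.mem_ker, ← Module.End.mul_apply, mul_sub, mul_one,
    ← (commute_nmTot m d (fun k => hcomm j k)).eq, mul_nmTot d hcomm hpow j, sub_self]
  rfl

theorem iSup_range_le_ker_nmTot {r : ℕ} (d : Fin r → End 𝒪 V)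
    (hcomm : ∀ i j, Commute (d i) (d j)) (hpow : ∀ j, d j ^ m = 1) :
    (⨆ j, LinearMap.range (d j - 1)) ≤ LinearMap.ker (nmTot m d) :=
  iSup_le fun j => range_sub_one_le_ker_nmTot d hcomm hpow j

/-- A product of operators congruent to `1` modulo `S` is congruent to `1` modulo `S`. -/
theorem list_prod_apply_sub_mem (S : Submodule 𝒪 V) (l : List (End 𝒪 V))
    (hl : ∀ e ∈ l, ∀ w : V, e w - w ∈ S) (w : V) : l.prod w - w ∈ S := by
  induction l generalizing w with
  | nil => simp
  | cons e l ih =>
    rw [List.prod_cons, Module.End.mul_apply]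
    have h1 : e (l.prod w) - l.prod w ∈ S := hl e (List.mem_cons_self) _
    have h2 : l.prod w - w ∈ S := ih (fun e' he' => hl e' (List.mem_cons_of_mem _ he')) w
    have : e (l.prod w) - w = (e (l.prod w) - l.prod w) + (l.prod w - w) := by abel
    rw [this]
    exact S.add_mem h1 h2

theorem pow_apply_sub_mem (S : Submodule 𝒪 V) (e : End 𝒪 V) (he : ∀ w : V, e w - w ∈ S)
    (k : ℕ) (w : V) : (e ^ k) w - w ∈ S := by
  induction k generalizing w with
  | zero => simp
  | succ k ih =>
    rw [pow_succ, Module.End.mul_apply]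
    have : (e ^ k) (e w) - w = ((e ^ k) (e w) - e w) + (e w - w) := by abel
    rw [this]
    exact S.add_mem (ih _) (he w)

/-- `mon d x w ≡ w` modulo `∑ range (d j - 1)`. -/
theorem mon_apply_sub_mem {r : ℕ} (d : Fin r → End 𝒪 V) (x : Fin r → ℕ) (w : V) :
    mon d x w - w ∈ (⨆ j, LinearMap.range (d j - 1)) := by
  rw [mon]
  apply list_prod_apply_sub_mem
  intro e he
  obtain ⟨j, rfl⟩ := (List.mem_ofFn' _ _).mp he
  apply pow_apply_sub_mem
  intro w
  have : d j w - w = (d j - 1) w := by simp
  rw [this]
  exact (le_iSup (fun j => LinearMap.range (d j - 1)) j) (LinearMap.mem_range_self _ w)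

theorem mon_mod {r : ℕ} (d : Fin r → End 𝒪 V) (hpow : ∀ j, d j ^ m = 1) (x : Fin r → ℕ) :
    mon d x = mon d (fun j => x j % m) := by
  have h : (fun j => d j ^ x j) = fun j => d j ^ (x j % m) :=
    funext fun j => pow_eq_pow_mod (x j) (hpow j)
  rw [mon, mon, h]

/-- `d j * mon d x = mon d (x + e_j)`. -/
theorem mul_mon : ∀ {r : ℕ} (d : Fin r → End 𝒪 V), (∀ i j, Commute (d i) (d j)) →
    ∀ (j : Fin r) (x : Fin r → ℕ), d j * mon d x = mon d (Function.update x j (x j + 1)) := by
  intro r
  induction r with
  | zero => intro d _ j; exact j.elim0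
  | succ r ih =>
    intro d hcomm j x
    rw [mon_succ, mon_succ]
    refine Fin.cases ?_ (fun j' => ?_) j
    · have h1 : (fun k : Fin r => Function.update x 0 (x 0 + 1) k.succ) = fun k => x k.succ := by
        funext k
        rw [Function.update_of_ne (Fin.succ_ne_zero k)]
      rw [Function.update_self, ← mul_assoc, ← pow_succ', h1]
    · rw [Function.update_of_ne (Fin.succ_ne_zero j').symm, ← mul_assoc,
        ((hcomm j'.succ 0).pow_right (x 0)).eq, mul_assoc,
        ih (fun k => d k.succ) (fun i k => hcomm i.succ k.succ) j' (fun k => x k.succ)]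
      have h2 : (Function.update (fun k : Fin r => x k.succ) j' (x j'.succ + 1))
          = fun k => Function.update x j'.succ (x j'.succ + 1) k.succ := by
        funext k
        by_cases hk : k = j'
        · subst hk
          rw [Function.update_self, Function.update_self]
        · rw [Function.update_of_ne hk, Function.update_of_ne (fun h => hk (Fin.succ_inj.mp h))]
      rw [h2]

/-- A function on a box which is invariant under changing one coordinate is constant. -/
theorem const_of_update_invariant {r : ℕ} {α β : Type*} [DecidableEq (Fin r)]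
    (g : (Fin r → α) → β)
    (hg : ∀ (x : Fin r → α) (j : Fin r) (a : α), g (Function.update x j a) = g x)
    (x y : Fin r → α) : g x = g y := by
  classical
  have key : ∀ s : Finset (Fin r), ∀ x y : Fin r → α, (∀ j, j ∉ s → x j = y j) → g x = g y := by
    intro s
    induction s using Finset.induction with
    | empty =>
      intro x y h
      have : x = y := funext fun j => h j (Finset.notMem_empty j)
      rw [this]
    | insert a s ha ih =>
      intro x y h
      rw [← hg x a (y a)]
      apply ih
      intro j hj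
      by_cases hja : j = a
      · subst hja
        rw [Function.update_self]
      · rw [Function.update_of_ne hja]
        exact h j (by simp [hja, hj])
  exact key Finset.univ x y (fun j hj => absurd (Finset.mem_univ j) hj)

end Abs

section Main

variable {𝒪 : Type*} [CommRing 𝒪] {V : Type*} [AddCommGroup V] [Module 𝒪 V] {m r rk : ℕ}

/-- the shift of the `j`-th coordinate of the box. -/
def sh (hm : 0 < m) (j : Fin r) (x : Fin r → Fin m) : Fin r → Fin m :=
  Function.update x j ⟨((x j : ℕ) + 1) % m, Nat.mod_lt _ hm⟩

theorem sh_injective (hm : 0 < m) (j : Fin r) : Function.Injective (sh (r := r) hm j) := by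
  intro x y hxy
  funext k
  have h := congrFun hxy k
  by_cases hk : k = j
  · subst hk
    rw [sh, sh, Function.update_self, Function.update_self, Fin.mk.injEq] at h
    have h1 : ((x k : ℕ) + 1) ≡ ((y k : ℕ) + 1) [MOD m] := h
    have h2 : (x k : ℕ) ≡ (y k : ℕ) [MOD m] := Nat.ModEq.add_right_cancel' 1 h1
    have h3 : (x k : ℕ) % m = (y k : ℕ) % m := h2
    rw [Nat.mod_eq_of_lt (x k).2, Nat.mod_eq_of_lt (y k).2] at h3
    exact Fin.ext h3
  · rw [sh, sh, Function.update_of_ne hk, Function.update_of_ne hk] at h
    exact h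

/-- the shift as a permutation of the box. -/
def shE (hm : 0 < m) (j : Fin r) : (Fin r → Fin m) ≃ (Fin r → Fin m) :=
  Equiv.ofBijective (sh hm j) (Finite.injective_iff_bijective.mp (sh_injective hm j))

theorem shE_apply (hm : 0 < m) (j : Fin r) (x : Fin r → Fin m) : shE hm j x = sh hm j x := rfl

theorem apply_mon_box (d : Fin r → End 𝒪 V) (hcomm : ∀ i j, Commute (d i) (d j))
    (hpow : ∀ j, d j ^ m = 1) (hm : 0 < m) (j : Fin r) (x : Fin r → Fin m) (w : V) :
    d j (mon d (fun k => (x k : ℕ)) w) = mon d (fun k => ((sh hm j x) k : ℕ)) w := by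
  rw [← Module.End.mul_apply, mul_mon d hcomm j, mon_mod d hpow]
  congr 2
  funext k
  by_cases hk : k = j
  · subst hk
    rw [Function.update_self, sh, Function.update_self]
  · rw [Function.update_of_ne hk, sh, Function.update_of_ne hk]
    exact Nat.mod_eq_of_lt (x k).2

/-- **KERNM**. -/
theorem kernm (hm : 0 < m) (d : Fin r → End 𝒪 V) (hcomm : ∀ i j, Commute (d i) (d j))
    (hpow : ∀ j, d j ^ m = 1) (b : Fin rk → V)
    (hb : Function.Bijective (fun f : Fin rk × (Fin r → Fin m) → 𝒪 =>
      ∑ x : Fin rk × (Fin r → Fin m), f x • mon d (fun j => (x.2 j : ℕ)) (b x.1))) :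
    (LinearMap.ker (nmTot m d) = ⨆ j, LinearMap.range (d j - 1)) ∧
    (∀ v : V, (∀ j, d j v = v) → ∃ w : V, nmTot m d w = v) := by
  classical
  set S : Submodule 𝒪 V := ⨆ j, LinearMap.range (d j - 1) with hS
  -- the total norm of a combination of the `b i`
  have hnm : ∀ g : Fin rk → 𝒪, nmTot m d (∑ i, g i • b i)
      = ∑ x : Fin rk × (Fin r → Fin m), g x.1 • mon d (fun j => (x.2 j : ℕ)) (b x.1) := by
    intro g
    rw [map_sum, Fintype.sum_prod_type]
    refine Finset.sum_congr rfl fun i _ => ?_
    rw [map_smul, nmTot_apply_eq_sum, Finset.smul_sum]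
  have x₀ : Fin r → Fin m := fun _ => ⟨0, hm⟩
  refine ⟨le_antisymm ?_ (iSup_range_le_ker_nmTot d hcomm hpow), ?_⟩
  · -- ker ≤ S
    intro v hv
    obtain ⟨f, hf⟩ := hb.2 v
    simp only at hf
    set g : Fin rk → 𝒪 := fun i => ∑ x : Fin r → Fin m, f (i, x) with hg
    set u : V := ∑ i, g i • b i with hu
    have hvu : v - u ∈ S := by
      have h1 : v - u = ∑ x : Fin rk × (Fin r → Fin m),
          f x • (mon d (fun j => (x.2 j : ℕ)) (b x.1) - b x.1) := by
        rw [← hf, hu]
        simp only [smul_sub, Finset.sum_sub_distrib]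
        congr 1
        rw [Fintype.sum_prod_type]
        refine Finset.sum_congr rfl fun i _ => ?_
        rw [hg, Finset.sum_smul]
      rw [h1]
      exact S.sum_mem fun x _ => S.smul_mem _ (mon_apply_sub_mem d _ _)
    have hu0 : nmTot m d u = 0 := by
      have h1 : nmTot m d (v - u) = 0 := iSup_range_le_ker_nmTot d hcomm hpow hvu
      rw [map_sub, LinearMap.mem_ker.mp hv, zero_sub, neg_eq_zero] at h1
      exact h1
    rw [hu, hnm] at hu0
    have hg0 : (fun x : Fin rk × (Fin r → Fin m) => g x.1) = 0 := by
      apply hb.1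
      simp only
      rw [hu0]
      simp
    have hgi : ∀ i, g i = 0 := fun i => congrFun hg0 (i, x₀)
    have hu' : u = 0 := by
      rw [hu]
      exact Finset.sum_eq_zero fun i _ => by rw [hgi i, zero_smul]
    rw [hu', sub_zero] at hvu
    exact hvu
  · -- invariants are norms
    intro v hv
    obtain ⟨f, hf⟩ := hb.2 v
    simp only at hf
    -- invariance of the coordinates under the shifts
    have hsh : ∀ (j : Fin r) (i : Fin rk) (x : Fin r → Fin m), f (i, sh hm j x) = f (i, x) := by
      intro j i x
      have h1 : d j v = ∑ x : Fin rk × (Fin r → Fin m),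
          f (x.1, (shE hm j).symm x.2) • mon d (fun k => (x.2 k : ℕ)) (b x.1) := by
        rw [← hf, map_sum]
        rw [← ((Equiv.refl (Fin rk)).prodCongr (shE hm j)).sum_comp
          (fun x : Fin rk × (Fin r → Fin m) =>
            f (x.1, (shE hm j).symm x.2) • mon d (fun k => (x.2 k : ℕ)) (b x.1))]
        refine Finset.sum_congr rfl fun x _ => ?_
        rw [map_smul, apply_mon_box d hcomm hpow hm]
        simp only [Equiv.prodCongr_apply, Equiv.coe_refl, Prod.map_fst, Prod.map_snd, id_eq,
          Equiv.symm_apply_apply]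
        rfl
      rw [hv j] at h1
      have h2 : (fun x : Fin rk × (Fin r → Fin m) => f x)
          = fun x : Fin rk × (Fin r → Fin m) => f (x.1, (shE hm j).symm x.2) := by
        apply hb.1
        simp only
        rw [hf]
        exact h1
      have h3 := congrFun h2 (i, sh hm j x)
      simp only at h3
      rw [h3]
      congr 2
      exact (shE hm j).symm_apply_apply x
    -- invariance under updates
    have hupd : ∀ (i : Fin rk) (x : Fin r → Fin m) (j : Fin r) (a : Fin m),
        f (i, Function.update x j a) = f (i, x) := by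
      intro i x j a
      have h0 : ∀ (t : ℕ) (ht : t < m),
          f (i, Function.update x j ⟨t, ht⟩) = f (i, Function.update x j ⟨0, hm⟩) := by
        intro t
        induction t with
        | zero => intro _; rfl
        | succ t ih =>
          intro ht
          have ht' : t < m := by omega
          rw [← ih ht', ← hsh j i (Function.update x j ⟨t, ht'⟩)]
          congr 2
          funext k
          by_cases hk : k = j
          · subst hk
            rw [sh, Function.update_self, Function.update_self]
            apply Fin.ext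
            show t + 1 = ((Function.update x k ⟨t, ht'⟩ k : Fin m) + 1) % m
            rw [Function.update_self]
            exact (Nat.mod_eq_of_lt ht).symm
          · rw [sh, Function.update_of_ne hk, Function.update_of_ne hk,
              Function.update_of_ne hk]
      have h1 := h0 a.1 a.2
      have h2 := h0 (x j).1 (x j).2
      rw [Fin.eta] at h1 h2
      rw [Function.update_eq_self] at h2
      rw [h1, ← h2]
    have hconst : ∀ (i : Fin rk) (x : Fin r → Fin m), f (i, x) = f (i, x₀) := fun i x =>
      const_of_update_invariant (fun x => f (i, x)) (hupd i) x x₀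
    refine ⟨∑ i, f (i, x₀) • b i, ?_⟩
    rw [hnm, ← hf]
    refine Finset.sum_congr rfl fun x _ => ?_
    rw [hconst x.1 x.2]

/-- **KERNM** in the form of `Lim.Stmt_KERNM`. -/
theorem stmt_KERNM : Fermat.Agent.S59.Lim.Stmt_KERNM := by
  intro 𝒪 _ V _ _ m r hm d hcomm hpow rk b hb
  exact kernm hm d hcomm hpow b hb

end Main

end Fermat.Agent.S59.Lim.H2
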