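import Fermat.Agent.S59.Lim.H94_Asm
import Fermat.Agent.S59.Lim.H2_KerNm

/-!
# S59, package LIM (helper94): **LIM-A**, unconditional

`stmt_LIM_A : Stmt_LIM_A` — the assembly `TWDiv ⟹ TWGeom` (Layer A), with the leaf KERNM
(helper2) plugged in.  The minimal-level module is `MD.toHMod hϖ`, i.e. `M.V = H2.tate ϖ MD.W`.
-/

set_option autoImplicit false

namespace Fermat.Agent.S59.Lim

/-- **LIM-A**. -/
theorem stmt_LIM_A : Stmt_LIM_A := stmt_LIM_A_of H2.stmt_KERNM

end Fermat.Agent.S59.Lim
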