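import Fermat.Agent.S59.Lim.H2_TateMap

/-!
# S59, package LIM, leaf LIM-DEC (helper2), torsion form

`F` an endomorphism of an `R`-module `W`, `a a' : R` with `a - a'` a unit, and
`(F - a)(F - a')` locally nilpotent on `W`.  Then `W` is the direct sum of the generalised
eigenspaces `W^α = F.maxGenEigenspace a` and `W^β = F.maxGenEigenspace a'`; they are stable
under everything commuting with `F`.  No finiteness, no Hensel.

* `exists_bezout_pow`, `isCompl_maxGenEigenspace`, `locNil_of_torsion`,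
  `pow_apply_eq_zero_of_mem_maxGenEigenspace`.
* `tate_dec` : the decomposition `T_ϖ W = T_ϖ W^α ⊕ T_ϖ W^β` with all the clauses asked by
  `S59.Asm.TWGeom` (`isCompl`, stability, `Vα_nil`, `Vβ_nil`).

This file contains no `sorry`.
-/

set_option autoImplicit false
set_option linter.style.haveILetI false
set_option linter.unusedSectionVars false
set_option linter.unusedVariables false

noncomputable section

open IsLocalRing Polynomial Module

namespace Fermat.Agent.S59.Lim.H2

section Dec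

variable {R : Type*} [CommRing R] {W : Type*} [AddCommGroup W] [Module R W]

/-- Powers of `X - a` and `X - a'` are comaximal if `a - a'` is a unit. -/
theorem exists_bezout_pow (a a' : R) (hu : IsUnit (a - a')) (m n : ℕ) :
    ∃ A B : R[X], A * (X - C a) ^ m + B * (X - C a') ^ n = 1 := by
  have h : IsCoprime (X - C a : R[X]) (X - C a') := by
    obtain ⟨u, hu⟩ := hu
    refine ⟨-C ((u⁻¹ : Rˣ) : R), C ((u⁻¹ : Rˣ) : R), ?_⟩
    have h1 : (C ((u⁻¹ : Rˣ) : R) : R[X]) * C (a - a') = 1 := by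
      rw [← C_mul, ← hu, Units.inv_mul, C_1]
    rw [C_sub] at h1
    linear_combination h1
  exact h.pow

theorem aeval_X_sub_C (F : End R W) (a : R) :
    aeval F (X - C a : R[X]) = F - a • (1 : End R W) := by
  rw [map_sub, aeval_X, aeval_C, Algebra.algebraMap_eq_smul_one]

theorem disjoint_maxGenEigenspace (F : End R W) (a a' : R) (hu : IsUnit (a - a')) :
    Disjoint (F.maxGenEigenspace a) (F.maxGenEigenspace a') := by
  rw [Submodule.disjoint_def]
  intro w hw hw'
  obtain ⟨m, hm⟩ := (End.mem_maxGenEigenspace F a w).mp hw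
  obtain ⟨n, hn⟩ := (End.mem_maxGenEigenspace F a' w).mp hw'
  obtain ⟨A, B, hAB⟩ := exists_bezout_pow a a' hu m n
  have h1 := congrArg (fun p => aeval F p w) hAB
  simp only [map_add, map_mul, map_pow, aeval_X_sub_C, map_one, LinearMap.add_apply,
    Module.End.mul_apply, hm, hn, _root_.map_zero, add_zero, Module.End.one_apply] at h1
  exact h1.symm

theorem codisjoint_maxGenEigenspace (F : End R W) (a a' : R) (hu : IsUnit (a - a'))
    (hnil : ∀ w : W, ∃ m : ℕ, (((F - a • (1 : End R W)) * (F - a' • (1 : End R W))) ^ m) w = 0) :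
    Codisjoint (F.maxGenEigenspace a) (F.maxGenEigenspace a') := by
  rw [codisjoint_iff, eq_top_iff]
  rintro w -
  obtain ⟨m, hm⟩ := hnil w
  obtain ⟨A, B, hAB⟩ := exists_bezout_pow a a' hu m m
  have hm' : aeval F (((X - C a) * (X - C a')) ^ m : R[X]) w = 0 := by
    rw [map_pow, map_mul, aeval_X_sub_C, aeval_X_sub_C]
    exact hm
  have h1 : w = aeval F (B * (X - C a') ^ m) w + aeval F (A * (X - C a) ^ m) w := by
    have := congrArg (fun p => aeval F p w) hAB
    simp only [map_add, LinearMap.add_apply, map_one, Module.End.one_apply] at this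
    rw [add_comm]
    exact this.symm
  rw [h1]
  refine Submodule.add_mem_sup ?_ ?_
  · rw [End.mem_maxGenEigenspace]
    refine ⟨m, ?_⟩
    have h2 : ((F - a • (1 : End R W)) ^ m) (aeval F (B * (X - C a') ^ m) w)
        = aeval F B (aeval F (((X - C a) * (X - C a')) ^ m : R[X]) w) := by
      rw [← aeval_X_sub_C, ← map_pow, ← Module.End.mul_apply, ← map_mul,
        ← Module.End.mul_apply, ← map_mul]
      congr 2
      rw [mul_pow]
      ring
    rw [h2, hm', _root_.map_zero]
  · rw [End.mem_maxGenEigenspace]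
    refine ⟨m, ?_⟩
    have h2 : ((F - a' • (1 : End R W)) ^ m) (aeval F (A * (X - C a) ^ m) w)
        = aeval F A (aeval F (((X - C a) * (X - C a')) ^ m : R[X]) w) := by
      rw [← aeval_X_sub_C, ← map_pow, ← Module.End.mul_apply, ← map_mul,
        ← Module.End.mul_apply, ← map_mul]
      congr 2
      rw [mul_pow]
      ring
    rw [h2, hm', _root_.map_zero]

/-- **LIM-DEC**, torsion form. -/
theorem isCompl_maxGenEigenspace (F : End R W) (a a' : R) (hu : IsUnit (a - a'))
    (hnil : ∀ w : W, ∃ m : ℕ, (((F - a • (1 : End R W)) * (F - a' • (1 : End R W))) ^ m) w = 0) :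
    IsCompl (F.maxGenEigenspace a) (F.maxGenEigenspace a') :=
  ⟨disjoint_maxGenEigenspace F a a' hu, codisjoint_maxGenEigenspace F a a' hu hnil⟩

/-- An operator which is nilpotent on `W[ϖ]` is locally nilpotent on a `ϖ`-power torsion
module. -/
theorem pow_mul_apply_eq_zero (ϖ : R) (B : End R W) (N : ℕ)
    (hB : ∀ w : W, ϖ • w = 0 → (B ^ N) w = 0) (k : ℕ) (w : W) (hw : ϖ ^ k • w = 0) :
    (B ^ (N * k)) w = 0 := by
  induction k generalizing w with
  | zero => simpa using hw
  | succ k ih =>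
    rw [pow_succ, mul_smul] at hw
    have h1 : ϖ • (B ^ (N * k)) w = 0 := by
      rw [← map_smul]
      have := ih (ϖ • w) hw
      exact this
    have h2 := hB _ h1
    rw [← Module.End.mul_apply, ← pow_add] at h2
    rw [Nat.mul_succ, add_comm]
    exact h2

theorem locNil_of_torsion (ϖ : R) (htors : ∀ w : W, ∃ k : ℕ, ϖ ^ k • w = 0) (B : End R W)
    (N : ℕ) (hB : ∀ w : W, ϖ • w = 0 → (B ^ N) w = 0) (w : W) : ∃ m : ℕ, (B ^ m) w = 0 := by
  obtain ⟨k, hk⟩ := htors w
  exact ⟨N * k, pow_mul_apply_eq_zero ϖ B N hB k w hk⟩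

/-- On the generalised `a`-eigenspace, `((F - a)(F - a'))^N w = 0` forces `(F - a)^N w = 0`. -/
theorem pow_apply_eq_zero_of_mem_maxGenEigenspace (F : End R W) (a a' : R)
    (hu : IsUnit (a - a')) (N : ℕ) (w : W) (hw : w ∈ F.maxGenEigenspace a)
    (h : (((F - a • (1 : End R W)) * (F - a' • (1 : End R W))) ^ N) w = 0) :
    ((F - a • (1 : End R W)) ^ N) w = 0 := by
  have hc : Commute (F - a • (1 : End R W)) (F - a' • (1 : End R W)) := by
    have h1 : Commute F (a • (1 : End R W)) := by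
      rw [← Algebra.algebraMap_eq_smul_one]
      exact (Algebra.commutes a F).symm
    have h2 : Commute F (a' • (1 : End R W)) := by
      rw [← Algebra.algebraMap_eq_smul_one]
      exact (Algebra.commutes a' F).symm
    exact ((Commute.refl F).sub_right h2).sub_left (h1.symm.sub_right
      (by
        rw [← Algebra.algebraMap_eq_smul_one, ← Algebra.algebraMap_eq_smul_one]
        exact Algebra.commutes a _))
  set v := ((F - a • (1 : End R W)) ^ N) w with hv
  have hvα : v ∈ F.maxGenEigenspace a := by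
    obtain ⟨m, hm⟩ := (End.mem_maxGenEigenspace F a w).mp hw
    rw [End.mem_maxGenEigenspace]
    refine ⟨m, ?_⟩
    rw [hv, ← Module.End.mul_apply, ← pow_add, add_comm, pow_add, Module.End.mul_apply, hm,
      _root_.map_zero]
  have hvβ : v ∈ F.maxGenEigenspace a' := by
    rw [End.mem_maxGenEigenspace]
    refine ⟨N, ?_⟩
    rw [hv, ← Module.End.mul_apply, ← (hc.pow_pow N N).eq, ← hc.mul_pow]
    exact h
  have := (Submodule.disjoint_def.mp (disjoint_maxGenEigenspace F a a' hu)) v hvα hvβ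
  exact this

theorem pow_apply_eq_zero_of_mem_maxGenEigenspace' (F : End R W) (a a' : R)
    (hu : IsUnit (a - a')) (N : ℕ) (w : W) (hw : w ∈ F.maxGenEigenspace a')
    (h : (((F - a • (1 : End R W)) * (F - a' • (1 : End R W))) ^ N) w = 0) :
    ((F - a' • (1 : End R W)) ^ N) w = 0 := by
  have hu' : IsUnit (a' - a) := by
    have : a' - a = -(a - a') := by ring
    rw [this]
    exact hu.neg
  have hc : (F - a • (1 : End R W)) * (F - a' • (1 : End R W))
      = (F - a' • (1 : End R W)) * (F - a • (1 : End R W)) := by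
    simp only [mul_sub, sub_mul, smul_mul_assoc, mul_smul_comm, one_mul, mul_one, smul_sub]
    rw [smul_comm a a']
    abel
  rw [hc] at h
  exact pow_apply_eq_zero_of_mem_maxGenEigenspace F a' a hu' N w hw h

end Dec

section TateDec

variable {𝒪 : Type*} [CommRing 𝒪] [IsLocalRing 𝒪] {ϖ : 𝒪}
  {W : Type*} [AddCommGroup W] [Module 𝒪 W]

theorem isUnit_sub_of_residue_ne {a a' : 𝒪} (h : residue 𝒪 a ≠ residue 𝒪 a') :
    IsUnit (a - a') := by
  by_contra hcon
  apply h
  have : a - a' ∈ maximalIdeal 𝒪 := (IsLocalRing.mem_maximalIdeal _).mpr hcon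
  have h2 := (residue_eq_zero_iff (a - a')).mpr this
  rw [map_sub] at h2
  exact sub_eq_zero.mp h2

theorem mapEnd_sub_smul_pow (F : End 𝒪 W) (a : 𝒪) (N : ℕ) :
    (mapEnd ϖ W F - a • (1 : End 𝒪 (tate ϖ W))) ^ N
      = mapEnd ϖ W ((F - a • (1 : End 𝒪 W)) ^ N) := by
  rw [map_pow, map_sub, map_smul, map_one]

/-- **LIM-DEC** at the Tate level: `T_ϖ W = T_ϖ W^α ⊕ T_ϖ W^β`, with the clauses of
`S59.Asm.TWGeom`. -/
theorem tate_dec (hϖ : ϖ ∈ maximalIdeal 𝒪) (htors : ∀ w : W, ∃ k : ℕ, ϖ ^ k • w = 0)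
    (F : End 𝒪 W) (a a' : 𝒪) (hu : IsUnit (a - a')) (N : ℕ)
    (hN : ∀ w : W, ϖ • w = 0 →
      (((F - a • (1 : End 𝒪 W)) * (F - a' • (1 : End 𝒪 W))) ^ N) w = 0) :
    IsCompl (tateSub ϖ (F.maxGenEigenspace a)) (tateSub ϖ (F.maxGenEigenspace a')) ∧
    (∀ G : End 𝒪 W, Commute F G → ∀ v ∈ tateSub ϖ (F.maxGenEigenspace a),
      mapEnd ϖ W G v ∈ tateSub ϖ (F.maxGenEigenspace a)) ∧
    (∀ G : End 𝒪 W, Commute F G → ∀ v ∈ tateSub ϖ (F.maxGenEigenspace a'),
      mapEnd ϖ W G v ∈ tateSub ϖ (F.maxGenEigenspace a')) ∧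
    (∀ v ∈ tateSub ϖ (F.maxGenEigenspace a),
      ((mapEnd ϖ W F - a • (1 : End 𝒪 (tate ϖ W))) ^ N) v ∈
        (maximalIdeal 𝒪 • ⊤ : Submodule 𝒪 (tate ϖ W))) ∧
    (∀ v ∈ tateSub ϖ (F.maxGenEigenspace a'),
      ((mapEnd ϖ W F - a' • (1 : End 𝒪 (tate ϖ W))) ^ N) v ∈
        (maximalIdeal 𝒪 • ⊤ : Submodule 𝒪 (tate ϖ W))) := by
  have hnil := locNil_of_torsion ϖ htors _ N hN
  have hϖ1 : ∀ v : tate ϖ W, ϖ • ev ϖ W 1 v = 0 := by
    intro v
    have := pow_smul_ev 1 v
    rwa [pow_one] at this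
  refine ⟨isCompl_tateSub (isCompl_maxGenEigenspace F a a' hu hnil), ?_, ?_, ?_, ?_⟩
  · intro G hG v hv
    exact map_mem_tateSub G (fun w hw => End.mapsTo_maxGenEigenspace_of_comm hG a hw) hv
  · intro G hG v hv
    exact map_mem_tateSub G (fun w hw => End.mapsTo_maxGenEigenspace_of_comm hG a' hw) hv
  · intro v hv
    rw [mapEnd_sub_smul_pow]
    apply map_mem_maximalIdeal_smul_of_ev_one hϖ
    exact pow_apply_eq_zero_of_mem_maxGenEigenspace F a a' hu N _ (mem_tateSub.mp hv 1)
      (hN _ (hϖ1 v))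
  · intro v hv
    rw [mapEnd_sub_smul_pow]
    apply map_mem_maximalIdeal_smul_of_ev_one hϖ
    exact pow_apply_eq_zero_of_mem_maxGenEigenspace' F a a' hu N _ (mem_tateSub.mp hv 1)
      (hN _ (hϖ1 v))

end TateDec

end Fermat.Agent.S59.Lim.H2
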