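import Mathlib
import Fermat.Agent.S59.Lim.Defs
import Fermat.Agent.S59.Lim.H2_Dec

/-!
# S59, package LIM, leaf LIM-DEC in torsion form (helper61): `Stmt_DEC_W`

`stmt_DEC_W : Stmt_DEC_W`, from helper2's `H2.isCompl_maxGenEigenspace`:
* an operator which is nilpotent on every element of `W[ϖ]` (exponent depending on the element)
  is locally nilpotent on a `ϖ`-power torsion module;
* `gk (F - a • 1) = F.maxGenEigenspace a`.

Also the stability of `gk` under commuting operators and the transport of nilpotence.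

No `sorry`.
-/

set_option autoImplicit false

namespace Fermat.Agent.S59.Lim.H61

open Module

variable {𝒪 : Type*} [CommRing 𝒪] {W : Type*} [AddCommGroup W] [Module 𝒪 W]

/-- An operator which is nilpotent on every element of `W[ϖ]` is locally nilpotent on a
`ϖ`-power torsion module (no uniformity needed). -/
theorem locNil_of_torsion_pointwise (ϖ : 𝒪) (B : End 𝒪 W)
    (hB : ∀ x : W, ϖ • x = 0 → ∃ m : ℕ, (B ^ m) x = 0) :
    ∀ (k : ℕ) (x : W), ϖ ^ k • x = 0 → ∃ m : ℕ, (B ^ m) x = 0 := by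
  intro k
  induction k with
  | zero =>
    intro x hx
    refine ⟨0, ?_⟩
    simpa using hx
  | succ k ih =>
    intro x hx
    rw [pow_succ, mul_smul] at hx
    obtain ⟨m₁, hm₁⟩ := ih (ϖ • x) hx
    rw [map_smul] at hm₁
    obtain ⟨m₂, hm₂⟩ := hB _ hm₁
    refine ⟨m₂ + m₁, ?_⟩
    rw [pow_add, Module.End.mul_apply]
    exact hm₂

/-- The generalised kernel of `F - a` is Mathlib's maximal generalised eigenspace. -/
theorem gk_eq_maxGenEigenspace (F : End 𝒪 W) (a : 𝒪) :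
    gk (F - a • (1 : End 𝒪 W)) = F.maxGenEigenspace a := by
  ext x
  rw [mem_gk, End.mem_maxGenEigenspace]

/-- **LIM-DEC, torsion form.** -/
theorem stmt_DEC_W : Stmt_DEC_W := by
  intro 𝒪 _ ϖ W _ _ htors F a a' hu hnil
  rw [gk_eq_maxGenEigenspace, gk_eq_maxGenEigenspace]
  refine H2.isCompl_maxGenEigenspace F a a' hu fun w => ?_
  obtain ⟨k, hk⟩ := htors w
  exact locNil_of_torsion_pointwise ϖ _ hnil k w hk

/-- `gk (F - a)` is stable under everything commuting with `F`. -/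
theorem gk_stable (F G : End 𝒪 W) (hG : Commute F G) (a : 𝒪) {x : W}
    (hx : x ∈ gk (F - a • (1 : End 𝒪 W))) : G x ∈ gk (F - a • (1 : End 𝒪 W)) := by
  rw [gk_eq_maxGenEigenspace] at hx ⊢
  exact End.mapsTo_maxGenEigenspace_of_comm hG a hx

/-- On `gk (F - a)`, `((F - a)(F - a'))^N x = 0` forces `(F - a)^N x = 0`. -/
theorem pow_apply_eq_zero_of_mem_gk (F : End 𝒪 W) (a a' : 𝒪) (hu : IsUnit (a - a')) (N : ℕ)
    {x : W} (hx : x ∈ gk (F - a • (1 : End 𝒪 W)))
    (h : (((F - a • (1 : End 𝒪 W)) * (F - a' • (1 : End 𝒪 W))) ^ N) x = 0) :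
    ((F - a • (1 : End 𝒪 W)) ^ N) x = 0 := by
  rw [gk_eq_maxGenEigenspace] at hx
  exact H2.pow_apply_eq_zero_of_mem_maxGenEigenspace F a a' hu N x hx h

/-- On `gk (F - a')`, `((F - a)(F - a'))^N x = 0` forces `(F - a')^N x = 0`. -/
theorem pow_apply_eq_zero_of_mem_gk' (F : End 𝒪 W) (a a' : 𝒪) (hu : IsUnit (a - a')) (N : ℕ)
    {x : W} (hx : x ∈ gk (F - a' • (1 : End 𝒪 W)))
    (h : (((F - a • (1 : End 𝒪 W)) * (F - a' • (1 : End 𝒪 W))) ^ N) x = 0) :
    ((F - a' • (1 : End 𝒪 W)) ^ N) x = 0 := by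
  rw [gk_eq_maxGenEigenspace] at hx
  exact H2.pow_apply_eq_zero_of_mem_maxGenEigenspace' F a a' hu N x hx h

end Fermat.Agent.S59.Lim.H61
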