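import Mathlib
import Fermat.Agent.S59.Lim.Defs

/-!
# S59, package LIM (helper94), Layer B: tensoring with `𝒪` and localisation — generic leaves

* `primPart I W` : the `I`-primary part `{x | ∃ n, I ^ n • x = 0}` of an `R`-module.
* `stabPart I W` : `⨆_{L finite} ⨅_n I ^ n • L` (the complement on locally finite modules).
* `Stmt_LOC`     : on a locally finite module, `W = primPart ⊕ stabPart`.
  (Naturality is formal: an `R`-linear map sends `primPart` to `primPart` and `stabPart` to
  `stabPart`, see `Stmt_LOC_nat`.)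
* `Stmt_LOC_gk`  : on a locally finite module, `x` is primary for `span s` iff every `t ∈ s` is
  nilpotent on `x`.
* `Stmt_TENS`    : `𝒪 ⊗_ℤ A` is `IsDiv` for a `p`-power torsion, `p`-divisible abelian group `A`
  with `A[p]` finite (`𝒪` a DVR of characteristic `0` with finite residue field of
  characteristic `p`).

No `sorry`; definitions only.
-/

set_option autoImplicit false

open IsLocalRing TensorProduct

namespace Fermat.Agent.S59.Lim

section Loc

variable {R : Type*} [CommRing R]

/-- The `I`-primary part of a module. -/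
def primPart (I : Ideal R) (W : Type*) [AddCommGroup W] [Module R W] : Submodule R W where
  carrier := {x | ∃ n : ℕ, ∀ r ∈ I ^ n, r • x = 0}
  zero_mem' := ⟨0, fun r _ => smul_zero r⟩
  add_mem' := by
    rintro x y ⟨n, hn⟩ ⟨m, hm⟩
    refine ⟨n + m, fun r hr => ?_⟩
    rw [smul_add, hn r (Ideal.pow_le_pow_right (Nat.le_add_right n m) hr),
      hm r (Ideal.pow_le_pow_right (Nat.le_add_left m n) hr), add_zero]
  smul_mem' := by
    rintro c x ⟨n, hn⟩
    exact ⟨n, fun r hr => by rw [smul_comm, hn r hr, smul_zero]⟩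

theorem mem_primPart {I : Ideal R} {W : Type*} [AddCommGroup W] [Module R W] {x : W} :
    x ∈ primPart I W ↔ ∃ n : ℕ, ∀ r ∈ I ^ n, r • x = 0 := Iff.rfl

/-- The `I`-stable part: the union over the finite submodules `L` of `⋂_n I ^ n L`. -/
def stabPart (I : Ideal R) (W : Type*) [AddCommGroup W] [Module R W] : Submodule R W :=
  ⨆ (L : Submodule R W) (_ : Finite L), ⨅ n : ℕ, (I ^ n • L : Submodule R W)

end Loc

/-- **LIM-LOC**: primary decomposition of a locally finite module. -/
def Stmt_LOC : Prop :=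
  ∀ (R : Type) [CommRing R] (I : Ideal R) (W : Type) [AddCommGroup W] [Module R W],
    (∀ x : W, Finite (Submodule.span R {x})) → IsCompl (primPart I W) (stabPart I W)

/-- **LIM-LOC, naturality** (formal). -/
def Stmt_LOC_nat : Prop :=
  ∀ (R : Type) [CommRing R] (I : Ideal R) (W W' : Type) [AddCommGroup W] [Module R W]
    [AddCommGroup W'] [Module R W'] (f : W →ₗ[R] W'),
    (∀ x ∈ primPart I W, f x ∈ primPart I W') ∧ (∀ x ∈ stabPart I W, f x ∈ stabPart I W')

/-- **LIM-LOC, consequences**: on locally finite modules, a surjective linear map maps the primary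
part ONTO the primary part, and the primary part of a `c`-divisible module is `c`-divisible. -/
def Stmt_LOC_onto : Prop :=
  ∀ (R : Type) [CommRing R] (I : Ideal R) (W W' : Type) [AddCommGroup W] [Module R W]
    [AddCommGroup W'] [Module R W'],
    (∀ x : W, Finite (Submodule.span R {x})) → (∀ x : W', Finite (Submodule.span R {x})) →
    (∀ (f : W →ₗ[R] W'), Function.Surjective f →
      ∀ y ∈ primPart I W', ∃ x ∈ primPart I W, f x = y) ∧
    (∀ c : R, (∀ x : W, ∃ y : W, c • y = x) → ∀ x ∈ primPart I W, ∃ y ∈ primPart I W, c • y = x)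

/-- **LIM-LOC, generator form**: on a locally finite module, an element is primary for the ideal
generated by `s` iff every `t ∈ s` is nilpotent on it.  (In the application `R` is a commutative
ring of operators, e.g. `Algebra.adjoin 𝒪 (range T)` for commuting `T i`, and
`s = {ϖ} ∪ {T i - a i}`.) -/
def Stmt_LOC_gk : Prop :=
  ∀ (R : Type) [CommRing R] (W : Type) [AddCommGroup W] [Module R W],
    (∀ x : W, Finite (Submodule.span R {x})) →
    ∀ (s : Set R) (x : W),
      (∀ t ∈ s, ∃ N : ℕ, t ^ N • x = 0) ↔ x ∈ primPart (Ideal.span s) W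

/-- **LIM-TENS**: `𝒪 ⊗_ℤ A` is a divisible module of finite corank. -/
def Stmt_TENS : Prop :=
  ∀ (𝒪 : Type) [CommRing 𝒪] [IsDomain 𝒪] [IsDiscreteValuationRing 𝒪] [Finite (ResidueField 𝒪)]
    (ϖ : 𝒪), Irreducible ϖ → ∀ (p : ℕ) [Fact p.Prime], (p : 𝒪) ∈ maximalIdeal 𝒪 → (p : 𝒪) ≠ 0 →
    ∀ (A : Type) [AddCommGroup A], (∀ x : A, ∃ k : ℕ, p ^ k • x = 0) →
      (∀ x : A, ∃ y : A, p • y = x) → Finite {x : A // p • x = 0} →
      IsDiv ϖ (𝒪 ⊗[ℤ] A)

/-- **LIM-TENS, faithfulness**: `x ↦ 1 ⊗ x` is injective on a `p`-power torsion group (so relations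
between operators can be checked after tensoring, and conversely). -/
def Stmt_TENS_inj : Prop :=
  ∀ (𝒪 : Type) [CommRing 𝒪] [IsDomain 𝒪] [IsDiscreteValuationRing 𝒪] [Finite (ResidueField 𝒪)]
    (p : ℕ) [Fact p.Prime], (p : 𝒪) ∈ maximalIdeal 𝒪 → (p : 𝒪) ≠ 0 →
    ∀ (A : Type) [AddCommGroup A], (∀ x : A, ∃ k : ℕ, p ^ k • x = 0) →
      Function.Injective (fun x : A => (1 : 𝒪) ⊗ₜ[ℤ] x)

end Fermat.Agent.S59.Lim
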