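import Mathlib
import Fermat.Agent.S59.Lim.DefsB

/-!
# S59, package LIM, Layer B, leaf LIM-LOC (helper61)

Primary decomposition of a locally finite module `W` over a commutative ring `R` with respect to
an ideal `I`:  `W = primPart I W ⊕ stabPart I W`.

* `stmt_LOC : Stmt_LOC`, `stmt_LOC_nat : Stmt_LOC_nat`, `stmt_LOC_onto : Stmt_LOC_onto`,
  `stmt_LOC_gk : Stmt_LOC_gk`.

Route: for a finite submodule `L` the chain `I ^ n • L` is stationary, with limit `M`, and
`I • M = M`; by Nakayama there is, for every `k`, some `r` with `r - 1 ∈ I ^ k` and `r • M = 0`.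

No `sorry`.
-/

set_option autoImplicit false

namespace Fermat.Agent.S59.Lim.H61

variable {R : Type*} [CommRing R] {W : Type*} [AddCommGroup W] [Module R W]

/-- The chain `I ^ n • L` is antitone. -/
lemma pow_smul_antitone (I : Ideal R) (L : Submodule R W) :
    Antitone (fun n : ℕ => (I ^ n • L : Submodule R W)) :=
  fun _ _ h => Submodule.smul_mono (Ideal.pow_le_pow_right h) le_rfl

/-- `I ^ n • L ≤ L`. -/
lemma pow_smul_le (I : Ideal R) (L : Submodule R W) (n : ℕ) : (I ^ n • L : Submodule R W) ≤ L :=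
  Submodule.smul_le.mpr fun r _ _ hx => L.smul_mem r hx

/-- For a finite submodule `L` the chain `I ^ n • L` is stationary. -/
lemma exists_stab (I : Ideal R) (L : Submodule R W) [Finite L] :
    ∃ n₀ : ℕ, ∀ m : ℕ, n₀ ≤ m → (I ^ m • L : Submodule R W) = I ^ n₀ • L := by
  let f : ℕ →o (Submodule R L)ᵒᵈ :=
    ⟨fun n => OrderDual.toDual ((I ^ n • L : Submodule R W).comap L.subtype), fun m n h =>
      Submodule.comap_mono (pow_smul_antitone I L h)⟩
  obtain ⟨n₀, hn₀⟩ := IsArtinian.monotone_stabilizes f
  refine ⟨n₀, fun m hm => ?_⟩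
  have h1 : (I ^ n₀ • L : Submodule R W).comap L.subtype =
      (I ^ m • L : Submodule R W).comap L.subtype := OrderDual.toDual.injective (hn₀ m hm)
  have h2 := congrArg (Submodule.map L.subtype) h1
  rw [Submodule.map_comap_subtype, Submodule.map_comap_subtype,
    inf_eq_right.mpr (pow_smul_le I L n₀), inf_eq_right.mpr (pow_smul_le I L m)] at h2
  exact h2.symm

/-- The stable part of a finite submodule. -/
def sInf' (I : Ideal R) (L : Submodule R W) : Submodule R W := ⨅ n : ℕ, (I ^ n • L : Submodule R W)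

lemma sInf'_le (I : Ideal R) (L : Submodule R W) : sInf' I L ≤ L :=
  (iInf_le _ 0).trans (pow_smul_le I L 0)

lemma sInf'_mono (I : Ideal R) {L L' : Submodule R W} (h : L ≤ L') : sInf' I L ≤ sInf' I L' :=
  iInf_mono fun _ => Submodule.smul_mono le_rfl h

/-- For a finite submodule, the stable part is `I ^ n • L` for `n` large. -/
lemma exists_sInf'_eq (I : Ideal R) (L : Submodule R W) [Finite L] :
    ∃ n₀ : ℕ, ∀ m : ℕ, n₀ ≤ m → (I ^ m • L : Submodule R W) = sInf' I L := by
  obtain ⟨n₀, hn₀⟩ := exists_stab I L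
  refine ⟨n₀, fun m hm => le_antisymm ?_ (iInf_le _ m)⟩
  refine le_iInf fun k => ?_
  rcases le_total k m with h | h
  · exact pow_smul_antitone I L h
  · rw [hn₀ m hm, ← hn₀ k (hm.trans h)]

/-- `I ^ k • sInf' = sInf'`. -/
lemma pow_smul_sInf' (I : Ideal R) (L : Submodule R W) [Finite L] (k : ℕ) :
    (I ^ k • sInf' I L : Submodule R W) = sInf' I L := by
  obtain ⟨n₀, hn₀⟩ := exists_sInf'_eq I L
  conv_lhs => rw [← hn₀ n₀ le_rfl]
  rw [← Submodule.mul_smul, ← pow_add]
  exact hn₀ _ (Nat.le_add_left _ _)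

/-- Nakayama on the stable part. -/
lemma exists_killer (I : Ideal R) (L : Submodule R W) [Finite L] (k : ℕ) :
    ∃ r : R, r - 1 ∈ I ^ k ∧ ∀ y ∈ sInf' I L, r • y = 0 := by
  have hfin : Finite (sInf' I L) :=
    Finite.of_injective (fun y : sInf' I L => (⟨y.1, sInf'_le I L y.2⟩ : L))
      (fun a b h => Subtype.ext (congrArg (fun z : L => (z : W)) h))
  have hfg : (sInf' I L).FG := Module.Finite.iff_fg.mp (Module.Finite.of_finite)
  exact Submodule.exists_sub_one_mem_and_smul_eq_zero_of_fg_of_le_smul (I ^ k) (sInf' I L) hfg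
    (pow_smul_sInf' I L k).ge

/-- The sum of two finite submodules is finite. -/
lemma finite_sup_of_finite (L₁ L₂ : Submodule R W) [Finite L₁] [Finite L₂] :
    Finite ↥(L₁ ⊔ L₂) := by
  have h : ((L₁ ⊔ L₂ : Submodule R W) : Set W).Finite := by
    rw [Submodule.coe_sup]
    exact Set.Finite.add (Set.toFinite (L₁ : Set W)) (Set.toFinite (L₂ : Set W))
  exact h.to_subtype

/-- The image of a finite submodule is finite. -/
lemma finite_map_of_finite {W' : Type*} [AddCommGroup W'] [Module R W'] (f : W →ₗ[R] W')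
    (L : Submodule R W) [Finite L] : Finite ↥(L.map f) := by
  have h : ((L.map f : Submodule R W') : Set W').Finite := by
    rw [Submodule.map_coe]
    exact (Set.toFinite (L : Set W)).image f
  exact h.to_subtype

/-- Membership in the stable part. -/
lemma mem_stabPart_iff (I : Ideal R) (x : W) :
    x ∈ stabPart I W ↔ ∃ L : Submodule R W, Finite L ∧ x ∈ sInf' I L := by
  constructor
  · intro hx
    let S : Submodule R W :=
      { carrier := {x | ∃ L : Submodule R W, Finite L ∧ x ∈ sInf' I L}
        zero_mem' := ⟨⊥, inferInstance, zero_mem _⟩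
        add_mem' := by
          rintro a b ⟨L₁, h₁, ha⟩ ⟨L₂, h₂, hb⟩
          have := h₁
          have := h₂
          exact ⟨L₁ ⊔ L₂, finite_sup_of_finite L₁ L₂,
            add_mem (sInf'_mono I le_sup_left ha) (sInf'_mono I le_sup_right hb)⟩
        smul_mem' := by
          rintro c a ⟨L, h, ha⟩
          exact ⟨L, h, Submodule.smul_mem _ c ha⟩ }
    have hle : stabPart I W ≤ S := by
      refine iSup_le fun L => iSup_le fun hL => ?_
      intro y hy
      exact ⟨L, hL, hy⟩
    exact hle hx
  · rintro ⟨L, hL, hx⟩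
    exact (le_iSup_of_le L (le_iSup_of_le hL le_rfl) : sInf' I L ≤ stabPart I W) hx

/-- The primary part and the stable part meet trivially. -/
theorem disjoint_prim_stab (I : Ideal R) : Disjoint (primPart I W) (stabPart I W) := by
  rw [Submodule.disjoint_def]
  intro x hx hx'
  obtain ⟨m, hm⟩ := hx
  obtain ⟨L, hL, hxL⟩ := (mem_stabPart_iff I x).mp hx'
  have := hL
  obtain ⟨r, hr, hr0⟩ := exists_killer I L m
  have h1 := hr0 x hxL
  have h2 := hm (r - 1) hr
  have h3 : x = r • x - (r - 1) • x := by
    rw [sub_smul, one_smul]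
    abel
  rw [h3, h1, h2, sub_zero]

/-- On a locally finite module the primary part and the stable part span everything. -/
theorem codisjoint_prim_stab (I : Ideal R) (hfin : ∀ x : W, Finite (Submodule.span R {x})) :
    Codisjoint (primPart I W) (stabPart I W) := by
  rw [codisjoint_iff, eq_top_iff]
  intro x _
  have := hfin x
  obtain ⟨n₀, hn₀⟩ := exists_sInf'_eq I (Submodule.span R {x})
  obtain ⟨r, hr, hr0⟩ := exists_killer I (Submodule.span R {x}) n₀
  have hxL : x ∈ Submodule.span R {x} := Submodule.mem_span_singleton_self x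
  have h1 : r • x ∈ primPart I W := by
    refine ⟨n₀, fun a ha => ?_⟩
    rw [smul_comm]
    apply hr0
    rw [← hn₀ n₀ le_rfl]
    exact Submodule.smul_mem_smul ha hxL
  have h2 : (1 - r) • x ∈ stabPart I W := by
    rw [mem_stabPart_iff]
    refine ⟨Submodule.span R {x}, inferInstance, ?_⟩
    rw [← hn₀ n₀ le_rfl]
    refine Submodule.smul_mem_smul ?_ hxL
    have h3 : 1 - r = -(r - 1) := by ring
    rw [h3]
    exact neg_mem hr
  rw [Submodule.mem_sup]
  refine ⟨r • x, h1, (1 - r) • x, h2, ?_⟩
  rw [← add_smul, add_sub_cancel, one_smul]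

/-- A linear map preserves the primary parts. -/
lemma map_mem_primPart {W' : Type*} [AddCommGroup W'] [Module R W'] (I : Ideal R)
    (f : W →ₗ[R] W') {x : W} (hx : x ∈ primPart I W) : f x ∈ primPart I W' := by
  obtain ⟨n, hn⟩ := hx
  exact ⟨n, fun r hr => by rw [← map_smul, hn r hr, map_zero]⟩

/-- A linear map preserves the stable parts. -/
lemma map_mem_stabPart {W' : Type*} [AddCommGroup W'] [Module R W'] (I : Ideal R)
    (f : W →ₗ[R] W') {x : W} (hx : x ∈ stabPart I W) : f x ∈ stabPart I W' := by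
  obtain ⟨L, hL, hxL⟩ := (mem_stabPart_iff I x).mp hx
  have := hL
  rw [mem_stabPart_iff]
  refine ⟨L.map f, finite_map_of_finite f L, ?_⟩
  rw [sInf', Submodule.mem_iInf] at hxL ⊢
  intro n
  rw [← Submodule.map_smul'']
  exact Submodule.mem_map_of_mem (hxL n)

/-- **LIM-LOC**. -/
theorem stmt_LOC : Stmt_LOC := by
  intro R _ I W _ _ hfin
  exact ⟨disjoint_prim_stab I, codisjoint_prim_stab I hfin⟩

/-- **LIM-LOC, naturality**. -/
theorem stmt_LOC_nat : Stmt_LOC_nat := by
  intro R _ I W W' _ _ _ _ f
  exact ⟨fun x hx => map_mem_primPart I f hx, fun x hx => map_mem_stabPart I f hx⟩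

/-- The primary component of an element whose image is primary has the same image. -/
lemma exists_prim_of_map_prim {W' : Type*} [AddCommGroup W'] [Module R W'] (I : Ideal R)
    (hfin : ∀ x : W, Finite (Submodule.span R {x})) (f : W →ₗ[R] W') (x₀ : W)
    (hy : f x₀ ∈ primPart I W') : ∃ x ∈ primPart I W, f x = f x₀ := by
  have hx₀ : x₀ ∈ primPart I W ⊔ stabPart I W := by
    rw [(codisjoint_prim_stab I hfin).eq_top]
    exact Submodule.mem_top
  obtain ⟨a, ha, b, hb, rfl⟩ := Submodule.mem_sup.mp hx₀
  refine ⟨a, ha, ?_⟩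
  have hfb : f b ∈ stabPart I W' := map_mem_stabPart I f hb
  have hfa : f a ∈ primPart I W' := map_mem_primPart I f ha
  have hfb' : f b ∈ primPart I W' := by
    have h1 : f b = f (a + b) - f a := by
      rw [map_add]
      abel
    rw [h1]
    exact sub_mem hy hfa
  have h2 := (Submodule.disjoint_def.mp (disjoint_prim_stab I)) (f b) hfb' hfb
  rw [map_add, h2, add_zero]

/-- **LIM-LOC, consequences**. -/
theorem stmt_LOC_onto : Stmt_LOC_onto := by
  intro R _ I W W' _ _ _ _ hW _
  constructor
  · intro f hf y hy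
    obtain ⟨x₀, rfl⟩ := hf y
    exact exists_prim_of_map_prim I hW f x₀ hy
  · intro c hc x hx
    obtain ⟨y, rfl⟩ := hc x
    obtain ⟨a, ha, h⟩ := exists_prim_of_map_prim I hW (LinearMap.lsmul R W c) y hx
    exact ⟨a, ha, h⟩

/-- **LIM-LOC, generator form**. -/
theorem stmt_LOC_gk : Stmt_LOC_gk := by
  intro R _ W _ _ hfin s x
  constructor
  · intro h
    have := hfin x
    have hxL : x ∈ Submodule.span R {x} := Submodule.mem_span_singleton_self x
    -- every element of `span s` is nilpotent on `span {x}`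
    have hrad : Ideal.span s ≤ (Submodule.span R {x}).annihilator.radical := by
      refine Ideal.span_le.mpr fun t ht => ?_
      obtain ⟨N, hN⟩ := h t ht
      refine ⟨N, ?_⟩
      rw [Submodule.mem_annihilator]
      intro y hy
      obtain ⟨c, rfl⟩ := Submodule.mem_span_singleton.mp hy
      rw [smul_comm, hN, smul_zero]
    obtain ⟨n₀, hn₀⟩ := exists_sInf'_eq (Ideal.span s) (Submodule.span R {x})
    obtain ⟨r, hr, hr0⟩ := exists_killer (Ideal.span s) (Submodule.span R {x}) 1
    rw [pow_one] at hr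
    have he : 1 - r ∈ (Submodule.span R {x}).annihilator.radical := by
      have h3 : 1 - r = -(r - 1) := by ring
      rw [h3]
      exact hrad (neg_mem hr)
    obtain ⟨K, hK⟩ := he
    rw [Submodule.mem_annihilator] at hK
    have hzero : sInf' (Ideal.span s) (Submodule.span R {x}) = ⊥ := by
      rw [eq_bot_iff]
      intro y hy
      have hy1 : (1 - r) • y = y := by
        rw [sub_smul, one_smul, hr0 y hy, sub_zero]
      have hy2 : ∀ j : ℕ, (1 - r) ^ j • y = y := by
        intro j
        induction j with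
        | zero => rw [pow_zero, one_smul]
        | succ j ih => rw [pow_succ, mul_smul, hy1, ih]
      have hy3 := hK y (sInf'_le _ _ hy)
      rw [hy2 K] at hy3
      rw [hy3]
      exact zero_mem _
    refine ⟨n₀, fun a ha => ?_⟩
    have h4 : a • x ∈ (Ideal.span s ^ n₀ • Submodule.span R {x} : Submodule R W) :=
      Submodule.smul_mem_smul ha hxL
    rw [hn₀ n₀ le_rfl, hzero] at h4
    exact (Submodule.mem_bot R).mp h4
  · rintro ⟨n, hn⟩ t ht
    exact ⟨n, hn _ (Ideal.pow_mem_pow (Ideal.subset_span ht) n)⟩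

end Fermat.Agent.S59.Lim.H61
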