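import Fermat.Agent.S59.Lim.DefsB

/-!
# S59, package LIM, leaf LIM-TENS (helper2): `𝒪 ⊗_ℤ A` for a `p`-divisible group `A`

`𝒪` a DVR with finite residue field, `p ∈ 𝔪`, `p ≠ 0` in `𝒪` (so `𝒪` has characteristic `0` and
is flat over `ℤ`); `A` a `p`-power torsion, `p`-divisible abelian group with `A[p]` finite.

* `charZero_of_mem`, `flat_int`;
* `stmt_TENS : Lim.Stmt_TENS` (`𝒪 ⊗[ℤ] A` is `IsDiv ϖ`);
* `stmt_TENS_inj : Lim.Stmt_TENS_inj` (`x ↦ 1 ⊗ x` is injective).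

This file contains no `sorry`.
-/

set_option autoImplicit false
set_option linter.style.haveILetI false
set_option linter.unusedSectionVars false
set_option linter.unusedVariables false
set_option maxHeartbeats 1000000

noncomputable section

open IsLocalRing TensorProduct

namespace Fermat.Agent.S59.Lim.H2

section Basic

variable {𝒪 : Type*} [CommRing 𝒪] [IsDomain 𝒪] [IsLocalRing 𝒪]

/-- A local domain in which a prime number `p` is a nonzero non-unit has characteristic `0`. -/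
theorem charZero_of_mem {p : ℕ} (hp : p.Prime) (hpm : (p : 𝒪) ∈ maximalIdeal 𝒪)
    (hp0 : (p : 𝒪) ≠ 0) : CharZero 𝒪 := by
  obtain ⟨c, hc⟩ := CharP.exists 𝒪
  rcases CharP.char_is_prime_or_zero 𝒪 c with hcp | hc0
  · exfalso
    have hc0 : (c : 𝒪) = 0 := CharP.cast_eq_zero 𝒪 c
    by_cases hcp' : c = p
    · rw [hcp'] at hc0
      exact hp0 hc0
    · have hcop : Nat.Coprime c p := (Nat.coprime_primes hcp hp).mpr hcp'
      have h1 : ((Nat.gcdA c p : ℤ) : 𝒪) * (c : 𝒪) + ((Nat.gcdB c p : ℤ) : 𝒪) * (p : 𝒪) = 1 := by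
        have := Nat.gcd_eq_gcd_ab c p
        rw [hcop.gcd_eq_one] at this
        have h2 := congrArg (fun z : ℤ => (z : 𝒪)) this
        simp only [Int.cast_add, Int.cast_mul, Int.cast_natCast, Nat.cast_one, Int.cast_one]
          at h2
        rw [h2]
        ring
      rw [hc0, mul_zero, zero_add] at h1
      have h3 : (1 : 𝒪) ∈ maximalIdeal 𝒪 := by
        rw [← h1]
        exact Ideal.mul_mem_left _ _ hpm
      exact (Ideal.ne_top_iff_one _).mp (IsLocalRing.maximalIdeal.isMaximal 𝒪).ne_top h3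
  · subst hc0
    exact CharP.charP_to_charZero 𝒪

theorem isTorsionFree_int [CharZero 𝒪] : Module.IsTorsionFree ℤ 𝒪 := by
  refine ⟨fun n hn => ?_⟩
  have hn0 : n ≠ 0 := hn.ne_zero
  intro x y hxy
  have h1 : (n : 𝒪) * (x - y) = 0 := by
    have : n • x = n • y := hxy
    rw [zsmul_eq_mul, zsmul_eq_mul] at this
    rw [mul_sub, this, sub_self]
  rcases mul_eq_zero.mp h1 with h | h
  · exact absurd (Int.cast_eq_zero.mp h) hn0
  · exact sub_eq_zero.mp h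

theorem flat_int [CharZero 𝒪] : Module.Flat ℤ 𝒪 := by
  haveI := isTorsionFree_int (𝒪 := 𝒪)
  infer_instance

end Basic

section Tens

variable {𝒪 : Type*} [CommRing 𝒪] [IsDomain 𝒪] [IsDiscreteValuationRing 𝒪]
  {A : Type*} [AddCommGroup A]

/-- `p = u ϖ ^ e` with `e ≥ 1`. -/
theorem exists_eq_unit_mul_pow {ϖ : 𝒪} (hϖ : Irreducible ϖ) {p : ℕ}
    (hpm : (p : 𝒪) ∈ maximalIdeal 𝒪) (hp0 : (p : 𝒪) ≠ 0) :
    ∃ (e : ℕ) (u : 𝒪ˣ), 0 < e ∧ (p : 𝒪) = u * ϖ ^ e := by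
  obtain ⟨e, u, hu⟩ := IsDiscreteValuationRing.eq_unit_mul_pow_irreducible hp0 hϖ
  refine ⟨e, u, ?_, hu⟩
  rcases Nat.eq_zero_or_pos e with h | h
  · exfalso
    rw [h, pow_zero, mul_one] at hu
    have : IsUnit (p : 𝒪) := hu ▸ u.isUnit
    exact (IsLocalRing.mem_maximalIdeal _).mp hpm this
  · exact h

theorem natCast_smul_tmul (p : ℕ) (r : 𝒪) (x : A) :
    (p : 𝒪) • (r ⊗ₜ[ℤ] x) = r ⊗ₜ[ℤ] (p • x) := by
  rw [TensorProduct.smul_tmul', smul_eq_mul, ← nsmul_eq_mul, ← TensorProduct.smul_tmul',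
    TensorProduct.tmul_smul]

theorem natCast_pow_smul_tmul (p k : ℕ) (r : 𝒪) (x : A) :
    ((p : 𝒪) ^ k) • (r ⊗ₜ[ℤ] x) = r ⊗ₜ[ℤ] (p ^ k • x) := by
  rw [← Nat.cast_pow, natCast_smul_tmul]

/-- torsion -/
theorem tens_tors {ϖ : 𝒪} (hϖ : Irreducible ϖ) {p : ℕ} (hpm : (p : 𝒪) ∈ maximalIdeal 𝒪)
    (hp0 : (p : 𝒪) ≠ 0) (htors : ∀ x : A, ∃ k : ℕ, p ^ k • x = 0) (w : 𝒪 ⊗[ℤ] A) :
    ∃ k : ℕ, ϖ ^ k • w = 0 := by
  obtain ⟨e, u, he, hu⟩ := exists_eq_unit_mul_pow hϖ hpm hp0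
  -- first with powers of `p`
  have hp : ∃ k : ℕ, ((p : 𝒪) ^ k) • w = 0 := by
    induction w using TensorProduct.induction_on with
    | zero => exact ⟨0, smul_zero _⟩
    | tmul r x =>
      obtain ⟨k, hk⟩ := htors x
      exact ⟨k, by rw [natCast_pow_smul_tmul, hk, tmul_zero]⟩
    | add w₁ w₂ h₁ h₂ =>
      obtain ⟨k₁, hk₁⟩ := h₁
      obtain ⟨k₂, hk₂⟩ := h₂
      refine ⟨k₁ + k₂, ?_⟩
      have e1 : ((p : 𝒪) ^ (k₁ + k₂)) • w₁ = 0 := by
        rw [pow_add, mul_comm, mul_smul, hk₁, smul_zero]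
      have e2 : ((p : 𝒪) ^ (k₁ + k₂)) • w₂ = 0 := by
        rw [pow_add, mul_smul, hk₂, smul_zero]
      rw [smul_add, e1, e2, add_zero]
  obtain ⟨k, hk⟩ := hp
  refine ⟨e * k, ?_⟩
  have h1 : ϖ ^ (e * k) = ((u⁻¹ : 𝒪ˣ) : 𝒪) ^ k * (p : 𝒪) ^ k := by
    rw [hu, mul_pow, ← mul_assoc, ← mul_pow, Units.inv_mul, one_pow, one_mul, pow_mul]
  rw [h1, mul_smul, hk, smul_zero]

/-- divisibility -/
theorem tens_div {ϖ : 𝒪} (hϖ : Irreducible ϖ) {p : ℕ} (hpm : (p : 𝒪) ∈ maximalIdeal 𝒪)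
    (hp0 : (p : 𝒪) ≠ 0) (hdiv : ∀ x : A, ∃ y : A, p • y = x) (w : 𝒪 ⊗[ℤ] A) :
    ∃ y : 𝒪 ⊗[ℤ] A, ϖ • y = w := by
  obtain ⟨e, u, he, hu⟩ := exists_eq_unit_mul_pow hϖ hpm hp0
  have hp : ∃ y : 𝒪 ⊗[ℤ] A, (p : 𝒪) • y = w := by
    induction w using TensorProduct.induction_on with
    | zero => exact ⟨0, smul_zero _⟩
    | tmul r x =>
      obtain ⟨y, hy⟩ := hdiv x
      exact ⟨r ⊗ₜ[ℤ] y, by rw [natCast_smul_tmul, hy]⟩
    | add w₁ w₂ h₁ h₂ =>
      obtain ⟨y₁, hy₁⟩ := h₁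
      obtain ⟨y₂, hy₂⟩ := h₂
      exact ⟨y₁ + y₂, by rw [smul_add, hy₁, hy₂]⟩
  obtain ⟨y, hy⟩ := hp
  obtain ⟨e', rfl⟩ : ∃ e', e = e' + 1 := ⟨e - 1, by omega⟩
  refine ⟨((u : 𝒪) * ϖ ^ e') • y, ?_⟩
  rw [← mul_smul, ← hy, hu]
  congr 1
  ring

end Tens

section Fin

variable {𝒪 : Type*} [CommRing 𝒪] [IsDomain 𝒪] [IsDiscreteValuationRing 𝒪]
  {A : Type*} [AddCommGroup A]

theorem natCast_smul_eq_zsmul (p : ℕ) (w : 𝒪 ⊗[ℤ] A) : (p : 𝒪) • w = (p : ℤ) • w := by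
  rw [Nat.cast_smul_eq_nsmul, natCast_zsmul]

/-- `𝒪 ⊗ B` is finite for a finite group `B` killed by `p`. -/
theorem finite_tens_of_finite [Finite (ResidueField 𝒪)] {ϖ : 𝒪} (hϖ : Irreducible ϖ) {p : ℕ}
    (hpm : (p : 𝒪) ∈ maximalIdeal 𝒪) (hp0 : (p : 𝒪) ≠ 0)
    (B : Type*) [AddCommGroup B] [Finite B] (hB : ∀ b : B, p • b = 0) :
    Finite (𝒪 ⊗[ℤ] B) := by
  classical
  haveI : Fintype B := Fintype.ofFinite B
  obtain ⟨e, u, he, hu⟩ := exists_eq_unit_mul_pow hϖ hpm hp0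
  set I : Ideal 𝒪 := (maximalIdeal 𝒪) ^ e with hI
  haveI : Finite (𝒪 ⧸ maximalIdeal 𝒪) := inferInstanceAs (Finite (ResidueField 𝒪))
  haveI : Finite (𝒪 ⧸ I) := Ideal.finite_quotient_pow (IsNoetherian.noetherian _) e
  have hkill : ∀ (r : 𝒪) (b : B), r ∈ I → r ⊗ₜ[ℤ] b = 0 := by
    intro r b hr
    rw [hI, hϖ.maximalIdeal_eq, Ideal.span_singleton_pow, Ideal.mem_span_singleton'] at hr
    obtain ⟨s, rfl⟩ := hr
    have h1 : s * ϖ ^ e = (p : 𝒪) * (s * ((u⁻¹ : 𝒪ˣ) : 𝒪)) := by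
      rw [hu]
      have : (u : 𝒪) * ((u⁻¹ : 𝒪ˣ) : 𝒪) = 1 := Units.mul_inv u
      linear_combination (-(s * ϖ ^ e)) * this
    rw [h1, ← smul_eq_mul, ← TensorProduct.smul_tmul', natCast_smul_tmul, hB, tmul_zero]
  let ψ : B → ((𝒪 ⧸ I) →ₗ[𝒪] 𝒪 ⊗[ℤ] B) := fun b =>
    Submodule.liftQ I (LinearMap.toSpanSingleton 𝒪 (𝒪 ⊗[ℤ] B) ((1 : 𝒪) ⊗ₜ[ℤ] b)) (by
      intro r hr
      rw [LinearMap.mem_ker, LinearMap.toSpanSingleton_apply, TensorProduct.smul_tmul',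
        smul_eq_mul, mul_one]
      exact hkill r b hr)
  have hψ : ∀ (b : B) (r : 𝒪), ψ b (Submodule.Quotient.mk r) = r ⊗ₜ[ℤ] b := by
    intro b r
    show Submodule.liftQ I _ _ (Submodule.Quotient.mk r) = _
    rw [Submodule.liftQ_apply, LinearMap.toSpanSingleton_apply, TensorProduct.smul_tmul',
      smul_eq_mul, mul_one]
  let Ψ : (B → 𝒪 ⧸ I) →ₗ[𝒪] 𝒪 ⊗[ℤ] B := ∑ b, (ψ b).comp (LinearMap.proj b)
  have hΨ : Function.Surjective Ψ := by
    rw [← LinearMap.range_eq_top, eq_top_iff]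
    rintro w -
    induction w using TensorProduct.induction_on with
    | zero => exact Submodule.zero_mem _
    | tmul r b =>
      refine ⟨Pi.single b (Submodule.Quotient.mk r), ?_⟩
      show (∑ b', (ψ b').comp (LinearMap.proj b')) (Pi.single b (Submodule.Quotient.mk r)) = _
      rw [LinearMap.sum_apply, Finset.sum_eq_single b]
      · rw [LinearMap.comp_apply, LinearMap.proj_apply, Pi.single_eq_same, hψ]
      · intro b' _ hb'
        rw [LinearMap.comp_apply, LinearMap.proj_apply, Pi.single_eq_of_ne hb', map_zero]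
      · intro h
        exact absurd (Finset.mem_univ b) h
    | add w₁ w₂ h₁ h₂ => exact Submodule.add_mem _ h₁ h₂
  exact Finite.of_surjective Ψ hΨ

/-- finiteness of the `ϖ`-torsion -/
theorem tens_fin [Finite (ResidueField 𝒪)] {ϖ : 𝒪} (hϖ : Irreducible ϖ) {p : ℕ}
    (hp : p.Prime) (hpm : (p : 𝒪) ∈ maximalIdeal 𝒪) (hp0 : (p : 𝒪) ≠ 0)
    (hfin : Finite {x : A // p • x = 0}) :
    Finite (Submodule.torsionBy 𝒪 (𝒪 ⊗[ℤ] A) ϖ) := by
  classical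
  haveI := charZero_of_mem (𝒪 := 𝒪) hp hpm hp0
  haveI := flat_int (𝒪 := 𝒪)
  obtain ⟨e, u, he, hu⟩ := exists_eq_unit_mul_pow hϖ hpm hp0
  let B : Submodule ℤ A := Submodule.torsionBy ℤ A (p : ℤ)
  have hBmem : ∀ x : A, x ∈ B ↔ p • x = 0 := by
    intro x
    rw [Submodule.mem_torsionBy_iff, natCast_zsmul]
  haveI : Finite B := by
    refine Finite.of_injective (fun b : B => (⟨b.1, (hBmem _).mp b.2⟩ : {x : A // p • x = 0})) ?_
    intro b b' h
    have h' : (b : A) = (b' : A) := congrArg (fun z : {x : A // p • x = 0} => (z : A)) h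
    exact Subtype.ext h'
  haveI : Finite (𝒪 ⊗[ℤ] B) := finite_tens_of_finite hϖ hpm hp0 B (by
    intro b
    apply Subtype.ext
    have := (hBmem _).mp b.2
    simpa using this)
  let f : B →ₗ[ℤ] A := B.subtype
  let g : A →ₗ[ℤ] A := (p : ℤ) • LinearMap.id
  have hex : Function.Exact f g := by
    intro y
    constructor
    · intro hy
      have : y ∈ B := by
        rw [Submodule.mem_torsionBy_iff]
        exact hy
      exact ⟨⟨y, this⟩, rfl⟩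
    · rintro ⟨b, rfl⟩
      exact (Submodule.mem_torsionBy_iff _ _).mp b.2
  have hex' := Module.Flat.lTensor_exact 𝒪 hex
  have hg : ∀ w : 𝒪 ⊗[ℤ] A, g.lTensor 𝒪 w = (p : ℤ) • w := by
    intro w
    show ((p : ℤ) • LinearMap.id).lTensor 𝒪 w = _
    rw [LinearMap.lTensor_smul, LinearMap.lTensor_id]
    rfl
  have hsub : (Submodule.torsionBy 𝒪 (𝒪 ⊗[ℤ] A) ϖ : Set (𝒪 ⊗[ℤ] A)) ⊆
      Set.range (f.lTensor 𝒪) := by
    intro w hw
    have hw' : ϖ • w = 0 := (Submodule.mem_torsionBy_iff _ _).mp hw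
    have h1 : (p : 𝒪) • w = 0 := by
      obtain ⟨e', rfl⟩ : ∃ e', e = e' + 1 := ⟨e - 1, by omega⟩
      rw [hu, pow_succ, ← mul_assoc, mul_smul, hw', smul_zero]
    rw [natCast_smul_eq_zsmul, ← hg] at h1
    exact (hex' w).mp h1
  exact ((Set.finite_range (f.lTensor 𝒪)).subset hsub).to_subtype

/-- **LIM-TENS**. -/
theorem stmt_TENS : Fermat.Agent.S59.Lim.Stmt_TENS := by
  intro 𝒪 _ _ _ _ ϖ hϖ p hp hpm hp0 A _ htors hdiv hfin
  exact ⟨tens_tors hϖ hpm hp0 htors, tens_div hϖ hpm hp0 hdiv,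
    tens_fin hϖ hp.out hpm hp0 hfin⟩

/-- injectivity of `x ↦ 1 ⊗ x` on a `p`-power torsion group -/
theorem tens_inj {p : ℕ} (hp : p.Prime) (hpm : (p : 𝒪) ∈ maximalIdeal 𝒪) (hp0 : (p : 𝒪) ≠ 0)
    (htors : ∀ x : A, ∃ k : ℕ, p ^ k • x = 0) :
    Function.Injective (fun x : A => (1 : 𝒪) ⊗ₜ[ℤ] x) := by
  classical
  haveI := charZero_of_mem (𝒪 := 𝒪) hp hpm hp0
  haveI := flat_int (𝒪 := 𝒪)
  have key : ∀ x : A, (1 : 𝒪) ⊗ₜ[ℤ] x = 0 → x = 0 := by
    intro x hx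
    by_contra hx0
    have hx' : x ⊗ₜ[ℤ] (1 : 𝒪) = 0 := by
      have := congrArg (TensorProduct.comm ℤ 𝒪 A) hx
      simpa using this
    let m : Unit → A := fun _ => x
    let n : Unit → 𝒪 := fun _ => 1
    have hsum : ∑ i, m i ⊗ₜ[ℤ] n i = (0 : A ⊗[ℤ] 𝒪) := by
      rw [Fintype.sum_unique]
      exact hx'
    have hinj : Function.Injective
        (LinearMap.rTensor 𝒪 (Submodule.span ℤ (Set.range m)).subtype) :=
      Module.Flat.rTensor_preserves_injective_linearMap _ (Submodule.injective_subtype _)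
    obtain ⟨k, a, y, h1, h2⟩ :=
      TensorProduct.vanishesTrivially_of_sum_tmul_eq_zero_of_rTensor_injective ℤ hinj hsum
    have h1' : (1 : 𝒪) = ∑ j, a () j • y j := h1 ()
    have h2' : ∀ j, a () j • x = 0 := by
      intro j
      have := h2 j
      rw [Fintype.sum_unique] at this
      exact this
    obtain ⟨K, hK⟩ := htors x
    have hdvd : ∀ j, (p : ℤ) ∣ a () j := by
      intro j
      by_contra hnd
      have hcop : IsCoprime (a () j) ((p : ℤ) ^ K) := by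
        apply IsCoprime.pow_right
        rw [isCoprime_comm]
        exact (Prime.coprime_iff_not_dvd (Nat.prime_iff_prime_int.mp hp)).mpr hnd
      obtain ⟨s, t, hst⟩ := hcop
      apply hx0
      have : (s * a () j + t * (p : ℤ) ^ K) • x = x := by rw [hst, one_smul]
      rw [add_smul, mul_smul, h2' j, smul_zero, zero_add, mul_smul] at this
      have hK' : ((p : ℤ) ^ K) • x = 0 := by
        rw [← Nat.cast_pow, natCast_zsmul]
        exact hK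
      rw [hK', smul_zero] at this
      exact this.symm
    choose c hc using hdvd
    have h3 : (1 : 𝒪) = (p : 𝒪) * ∑ j, (c j : 𝒪) * y j := by
      rw [h1', Finset.mul_sum]
      refine Finset.sum_congr rfl fun j _ => ?_
      rw [hc j, zsmul_eq_mul]
      push_cast
      ring
    have h4 : (1 : 𝒪) ∈ maximalIdeal 𝒪 := by
      rw [h3]
      exact Ideal.mul_mem_right _ _ hpm
    exact (Ideal.ne_top_iff_one _).mp (IsLocalRing.maximalIdeal.isMaximal 𝒪).ne_top h4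
  intro x y hxy
  have h : (1 : 𝒪) ⊗ₜ[ℤ] (x - y) = 0 := by
    rw [TensorProduct.tmul_sub]
    exact sub_eq_zero.mpr hxy
  exact sub_eq_zero.mp (key _ h)

/-- **LIM-TENS, faithfulness**. -/
theorem stmt_TENS_inj : Fermat.Agent.S59.Lim.Stmt_TENS_inj := by
  intro 𝒪 _ _ _ _ p hp hpm hp0 A _ htors
  exact tens_inj hp.out hpm hp0 htors

end Fin

end Fermat.Agent.S59.Lim.H2
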