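import Fermat.Agent.S59.Lim.H2_TateMap
import Fermat.Prelude.Def_GaloisRep_Adic

/-!
# S59, package LIM, leaf LIM-TATE (helper2), part 3: the Galois action on the Tate module

* `tateGal ϖ gal : G →* End 𝒪 (tate ϖ W)` for `gal : G →* End 𝒪 W`.
* `adicContinuous_tateGal` : if every `W[ϖ^n]` is fixed pointwise by the Galois group of a
  number field, then the action on `T_ϖ W` is adically continuous (prelude
  `GaloisActionIsAdicContinuous`).

This file contains no `sorry`.
-/

set_option autoImplicit false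
set_option linter.style.haveILetI false
set_option linter.unusedSectionVars false
set_option linter.unusedVariables false

noncomputable section

open IsLocalRing Module

namespace Fermat.Agent.S59.Lim.H2

section Gal

variable {𝒪 : Type*} [CommRing 𝒪] (ϖ : 𝒪) {W : Type*} [AddCommGroup W] [Module 𝒪 W]
  {G : Type*} [Monoid G]

/-- The induced action on the Tate module. -/
def tateGal (gal : G →* End 𝒪 W) : G →* End 𝒪 (tate ϖ W) :=
  ((mapEnd ϖ W : End 𝒪 W →ₐ[𝒪] End 𝒪 (tate ϖ W)) : End 𝒪 W →* End 𝒪 (tate ϖ W)).comp gal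

variable {ϖ}

@[simp] theorem tateGal_apply (gal : G →* End 𝒪 W) (g : G) :
    tateGal ϖ gal g = map ϖ (gal g) := rfl

@[simp] theorem ev_tateGal (gal : G →* End 𝒪 W) (g : G) (k : ℕ) (x : tate ϖ W) :
    ev ϖ W k (tateGal ϖ gal g x) = gal g (ev ϖ W k x) := rfl

theorem commute_map {f g : End 𝒪 W} (h : Commute f g) :
    Commute (map ϖ f) (map ϖ g) := by
  have := h.map (mapEnd ϖ W)
  exact this

end Gal

section Cont

variable {𝒪 : Type} [CommRing 𝒪] [IsDomain 𝒪] [IsDiscreteValuationRing 𝒪] {ϖ : 𝒪}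
  {W : Type} [AddCommGroup W] [Module 𝒪 W]

/-- Adic continuity of the Galois action on the Tate module. -/
theorem adicContinuous_tateGal (hϖ : Irreducible ϖ)
    (gal : (AlgebraicClosure ℚ ≃ₐ[ℚ] AlgebraicClosure ℚ) →* End 𝒪 W)
    (h : ∀ n : ℕ, ∃ L : IntermediateField ℚ (AlgebraicClosure ℚ), FiniteDimensional ℚ L ∧
      ∀ σ : AlgebraicClosure ℚ ≃ₐ[ℚ] AlgebraicClosure ℚ, (∀ x ∈ L, σ x = x) →
        ∀ w : W, ϖ ^ n • w = 0 → gal σ w = w) :
    GaloisActionIsAdicContinuous 𝒪 (tateGal ϖ gal) := by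
  intro n
  obtain ⟨L, hL, hfix⟩ := h n
  refine ⟨L, hL, fun σ hσ v => ?_⟩
  rw [← ker_ev_eq_maximalIdeal_pow hϖ n, LinearMap.mem_ker, _root_.map_sub, ev_tateGal,
    hfix σ hσ _ (pow_smul_ev n v), sub_self]

end Cont

end Fermat.Agent.S59.Lim.H2
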