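import Fermat.Agent.S59.Lim.H94_Free
import Fermat.Agent.S59.Lim.H2_Dec
import Fermat.Agent.S59.Lim.H2_TateGal

/-!
# S59, package LIM (helper94): generic transfer lemmas for the assembly `TWDiv ⟹ TWGeom`

Everything here is stated for plain modules `W`, so that the assembly (`H94_Asm.lean`) only has
to instantiate.
-/

set_option autoImplicit false
set_option linter.style.haveILetI false
set_option linter.unusedSectionVars false

noncomputable section

open IsLocalRing Polynomial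

namespace Fermat.Agent.S59.Lim

open Fermat.Agent.S59.TWH

section Cont

variable {𝒪 : Type} [CommRing 𝒪] {ϖ : 𝒪} {W : Type} [AddCommGroup W] [Module 𝒪 W]

/-- From pointwise open stabilisers to a uniform number field on the finite set `W[ϖ^n]`. -/
theorem exists_uniform_field (hW : IsDiv ϖ W)
    (gal : (AlgebraicClosure ℚ ≃ₐ[ℚ] AlgebraicClosure ℚ) →* Module.End 𝒪 W)
    (h : ∀ x : W, ∃ L : IntermediateField ℚ (AlgebraicClosure ℚ),
      FiniteDimensional ℚ L ∧ ∀ σ : AlgebraicClosure ℚ ≃ₐ[ℚ] AlgebraicClosure ℚ,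
        (∀ y ∈ L, σ y = y) → gal σ x = x) (n : ℕ) :
    ∃ L : IntermediateField ℚ (AlgebraicClosure ℚ), FiniteDimensional ℚ L ∧
      ∀ σ : AlgebraicClosure ℚ ≃ₐ[ℚ] AlgebraicClosure ℚ, (∀ x ∈ L, σ x = x) →
        ∀ w : W, ϖ ^ n • w = 0 → gal σ w = w := by
  classical
  haveI := hW.finite_torsionBy_pow n
  choose Lf hLf1 hLf2 using h
  refine ⟨⨆ w : Submodule.torsionBy 𝒪 W (ϖ ^ n), Lf (w : W), ?_, fun σ hσ w hw => ?_⟩
  · haveI : ∀ w : Submodule.torsionBy 𝒪 W (ϖ ^ n), FiniteDimensional ℚ (Lf (w : W)) :=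
      fun w => hLf1 _
    exact IntermediateField.finiteDimensional_iSup_of_finite
  · apply hLf2 w σ
    intro y hy
    apply hσ
    have hle : Lf w ≤ ⨆ w : Submodule.torsionBy 𝒪 W (ϖ ^ n), Lf (w : W) :=
      le_iSup (fun w : Submodule.torsionBy 𝒪 W (ϖ ^ n) => Lf (w : W))
        ⟨w, (Submodule.mem_torsionBy_iff _ _).mpr hw⟩
    exact hle hy

end Cont

section Gen

variable {𝒪 : Type} [CommRing 𝒪] {ϖ : 𝒪} {W : Type} [AddCommGroup W] [Module 𝒪 W]
  {WM : Type} [AddCommGroup WM] [Module 𝒪 WM]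

theorem mapEnd_pow_eq_one {f : Module.End 𝒪 W} {m : ℕ} (h : f ^ m = 1) :
    H2.mapEnd ϖ W f ^ m = 1 := by
  rw [← map_pow, h, map_one]

theorem mapEnd_commute {f g : Module.End 𝒪 W} (h : Commute f g) :
    Commute (H2.mapEnd ϖ W f) (H2.mapEnd ϖ W g) :=
  h.map (H2.mapEnd ϖ W)

/-- transfer of the Eichler–Shimura relation -/
theorem mapEnd_es {g T : Module.End 𝒪 W} {c : 𝒪}
    (h : g * g - T * g + c • (1 : Module.End 𝒪 W) = 0) :
    H2.mapEnd ϖ W g * H2.mapEnd ϖ W g - H2.mapEnd ϖ W T * H2.mapEnd ϖ W g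
      + c • (1 : Module.End 𝒪 (H2.tate ϖ W)) = 0 := by
  have h' := congrArg (H2.mapEnd ϖ W) h
  rw [map_add, map_sub, map_mul, map_mul, map_smul, map_one, map_zero] at h'
  exact h'

/-- transfer of equivariance -/
theorem map_equivariant (π : W →ₗ[𝒪] WM) (T : Module.End 𝒪 W) (T' : Module.End 𝒪 WM)
    (h : ∀ v, π (T v) = T' (π v)) (v : H2.tate ϖ W) :
    H2.map ϖ π (H2.mapEnd ϖ W T v) = H2.mapEnd ϖ WM T' (H2.map ϖ π v) := by
  apply H2.tate_ext
  intro k
  exact h _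

/-- transfer of local–global compatibility -/
theorem map_lg (F s d : Module.End 𝒪 W) (a : 𝒪)
    (h : ∀ x : W, x ∈ gk (F - a • (1 : Module.End 𝒪 W)) → s x = d x)
    (v : H2.tate ϖ W) (hv : v ∈ H2.tateSub ϖ (F.maxGenEigenspace a)) :
    H2.mapEnd ϖ W s v = H2.mapEnd ϖ W d v := by
  apply H2.tate_ext
  intro k
  have hk := H2.mem_tateSub.mp hv k
  exact h _ ((Module.End.mem_maxGenEigenspace _ _ _).mp hk)

end Gen

end Fermat.Agent.S59.Lim
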