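import Fermat.Agent.S59.Lim.H94_AsmGen

/-!
# S59, package LIM (helper94): the assembly `TWDiv ⟹ TWGeom` (Layer A)

* `twGeom_of_twDiv` : `Stmt_KERNM → TWDiv … MD n qv → Nonempty (TWGeom … (MD.toHMod hϖ) n qv)`.
* `stmt_LIM_A_of`   : `Stmt_KERNM → Stmt_LIM_A`.
-/

set_option autoImplicit false
set_option linter.style.haveILetI false
set_option linter.unusedSectionVars false

noncomputable section

open IsLocalRing Polynomial CuspForm

namespace Fermat.Agent.S59.Lim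

open Fermat.Agent.S59.Asm Fermat.Agent.S59.TWH

section Asm

variable {𝒪 : Type} [CommRing 𝒪] [IsDomain 𝒪] [IsDiscreteValuationRing 𝒪]
  [IsAdicComplete (maximalIdeal 𝒪) 𝒪] {ϖ : 𝒪}

/-- **Layer A**: the Tate module of the divisible data is a `TWGeom`. -/
theorem twGeom_of_twDiv (hK : Stmt_KERNM) (hϖ : Irreducible ϖ) (p : ℕ) [Fact p.Prime]
    (hp : (p : 𝒪) ∈ maximalIdeal 𝒪)
    (ρbar : ResidualGaloisRep (ResidueField 𝒪)) (N : ℕ) [NeZero N] (S : Finset ℕ)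
    (θ : CuspForm.heckeAlgebra N 2 (↑S : Set ℕ) →+* ResidueField 𝒪)
    (MD : HDiv 𝒪 ϖ N (↑S : Set ℕ) θ) {r : ℕ} (n : ℕ) (qv : Fin r → ℕ)
    [NeZero (twLevel N qv)] (D : TWDiv 𝒪 ϖ p ρbar N S θ MD n qv) :
    Nonempty (TWGeom 𝒪 p ρbar N S θ (MD.toHMod hϖ) n qv) := by
  classical
  have hϖm : ϖ ∈ maximalIdeal 𝒪 := mem_maximalIdeal_of_irreducible hϖ
  -- freeness
  have hfree := exists_basis_tate (W := D.WD.W) (WM := MD.W) hϖ hp n r D.WD.isDiv MD.isDiv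
    D.d D.d_pow D.d_comm D.hstep D.πup D.πup_injective D.d_πup D.inv
  obtain ⟨rk, b, hb⟩ := hfree
  -- the operators on the Tate module
  have hdpow : ∀ j, H2.mapEnd ϖ D.WD.W (D.d j) ^ (p ^ n) = 1 := fun j =>
    mapEnd_pow_eq_one (W := D.WD.W) (D.d_pow j)
  have hdcomm : ∀ i j, Commute (H2.mapEnd ϖ D.WD.W (D.d i)) (H2.mapEnd ϖ D.WD.W (D.d j)) :=
    fun i j => mapEnd_commute (W := D.WD.W) (D.d_comm i j)
  -- kernel of the total norm
  have hker := (hK 𝒪 (H2.tate ϖ D.WD.W) (p ^ n) r (pow_pos (Fact.out : p.Prime).pos n)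
    (fun j => H2.mapEnd ϖ D.WD.W (D.d j)) hdcomm hdpow rk b hb).1
  -- the decomposition at the Taylor–Wiles primes
  have hu : ∀ j, IsUnit (D.a j - D.a' j) := fun j => H2.isUnit_sub_of_residue_ne (D.a_ne j)
  have hN : ∀ j, ∃ Nj : ℕ, ∀ w : D.WD.W, ϖ • w = 0 →
      (((D.gal (D.frob j) - D.a j • (1 : Module.End 𝒪 D.WD.W)) *
        (D.gal (D.frob j) - D.a' j • (1 : Module.End 𝒪 D.WD.W))) ^ Nj) w = 0 :=
    fun j => IsDiv.exists_pow_kill_torsion (W := D.WD.W) D.WD.isDiv _ (D.frob_nil j)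
  choose Nf hNf using hN
  have hdec := fun j => H2.tate_dec (W := D.WD.W) hϖm D.WD.isDiv.tors (D.gal (D.frob j))
    (D.a j) (D.a' j) (hu j) (Nf j) (hNf j)
  have hsurj := map_π_surjective (W := D.WD.W) (WM := MD.W) hϖ n r D.WD.isDiv MD.isDiv D.d
    D.d_comm D.hstep D.π D.πup D.πup_injective D.πup_π D.d_πup
  have hkerπ : LinearMap.ker (H2.map ϖ D.π) =
      ⨆ j, LinearMap.range (H2.mapEnd ϖ D.WD.W (D.d j) - 1) :=
    (ker_map_π_eq_ker_nmTot (W := D.WD.W) (WM := MD.W) n r D.d D.π D.πup D.πup_injective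
      D.πup_π).trans hker
  have hcont := H2.adicContinuous_tateGal (W := D.WD.W) hϖ D.gal
      (fun k => exists_uniform_field (W := D.WD.W) D.WD.isDiv D.gal D.gal_cont k)
  have hes : ∀ (ℓ : ℕ) (hℓ : ℓ.Prime) (hℓN : ¬ ℓ ∣ twLevel N qv)
      (hℓS : ℓ ∉ (↑(twSet S qv) : Set ℕ)),
      ∀ A : ValuationSubring (AlgebraicClosure ℚ), A.LiesOverPrime ℓ →
        ∀ σ : GalQ, A.IsFrobeniusAt σ ℓ →
          H2.mapEnd ϖ D.WD.W (D.gal σ) * H2.mapEnd ϖ D.WD.W (D.gal σ)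
            - H2.mapEnd ϖ D.WD.W (D.WD.η (CuspForm.heckeAlgebra.T hℓ hℓN hℓS))
              * H2.mapEnd ϖ D.WD.W (D.gal σ)
            + (ℓ : 𝒪) • (1 : Module.End 𝒪 (H2.tate ϖ D.WD.W)) = 0 :=
    fun ℓ hℓ hℓN hℓS A hA σ hσ => mapEnd_es (W := D.WD.W) (D.es ℓ hℓ hℓN hℓS A hA σ hσ)
  have hπη : ∀ (t : CuspForm.heckeAlgebra (twLevel N qv) 2 (↑(twSet S qv) : Set ℕ))
      (v : H2.tate ϖ D.WD.W),
      H2.map ϖ D.π (H2.mapEnd ϖ D.WD.W (D.WD.η t) v)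
        = H2.mapEnd ϖ MD.W (MD.η (D.rest t)) (H2.map ϖ D.π v) :=
    fun t v => map_equivariant (W := D.WD.W) (WM := MD.W) D.π (D.WD.η t) (MD.η (D.rest t))
      (D.π_η t) v
  have hlg : ∀ j, ∀ v ∈ H2.tateSub ϖ ((D.gal (D.frob j)).maxGenEigenspace (D.a j)),
      H2.mapEnd ϖ D.WD.W (D.gal (D.σ j)) v = H2.mapEnd ϖ D.WD.W (D.d j) v :=
    fun j v hv => map_lg (W := D.WD.W) (D.gal (D.frob j)) (D.gal (D.σ j)) (D.d j) (D.a j)
      (D.lg j) v hv
  exact ⟨{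
    rest := D.rest
    rest_T := D.rest_T
    W := D.WD.toHMod hϖ
    gal := H2.tateGal ϖ D.gal
    gal_cont := hcont
    gal_η := fun g t => mapEnd_commute (W := D.WD.W) (D.gal_η g t)
    es := hes
    d := fun j => H2.mapEnd ϖ D.WD.W (D.d j)
    d_pow := hdpow
    d_comm := hdcomm
    d_η := fun j t => mapEnd_commute (W := D.WD.W) (D.d_η j t)
    d_gal := fun j g => mapEnd_commute (W := D.WD.W) (D.d_gal j g)
    rk := rk
    b := b
    b_basis := hb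
    π := H2.map ϖ D.π
    π_surjective := hsurj
    ker_π := hkerπ
    π_η := hπη
    P := D.P
    P_over := D.P_over
    frob := D.frob
    frob_spec := D.frob_spec
    σ := D.σ
    σ_mem := D.σ_mem
    a := D.a
    a' := D.a'
    a_ne := D.a_ne
    charpoly_frob := D.charpoly_frob
    Vα := fun j => H2.tateSub ϖ ((D.gal (D.frob j)).maxGenEigenspace (D.a j))
    Vβ := fun j => H2.tateSub ϖ ((D.gal (D.frob j)).maxGenEigenspace (D.a' j))
    isCompl := fun j => (hdec j).1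
    Vα_η := fun j t v hv => (hdec j).2.1 (D.WD.η t) (D.gal_η (D.frob j) t) v hv
    Vα_d := fun j i v hv => (hdec j).2.1 (D.d i) (D.d_gal i (D.frob j)).symm v hv
    Vα_frob := fun j v hv => (hdec j).2.1 (D.gal (D.frob j)) (Commute.refl _) v hv
    Vβ_frob := fun j v hv => (hdec j).2.2.1 (D.gal (D.frob j)) (Commute.refl _) v hv
    Vα_nil := fun j => ⟨Nf j, (hdec j).2.2.2.1⟩
    Vβ_nil := fun j => ⟨Nf j, (hdec j).2.2.2.2⟩
    lg := hlg }⟩

/-- **LIM-A** (modulo the leaf KERNM). -/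
theorem stmt_LIM_A_of (hK : Stmt_KERNM) : Stmt_LIM_A := by
  intro 𝒪 _ _ _ _ ϖ hϖ p _ hp ρbar N _ S θ MD
  refine ⟨MD.toHMod hϖ, ?_, ?_⟩
  · intro hnt
    exact MD.isDiv.nontrivial_tate
  · intro r n qv _ D
    exact twGeom_of_twDiv hK hϖ p hp ρbar N S θ MD n qv D

end Asm

end Fermat.Agent.S59.Lim

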