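import Fermat.Agent.S59.Lim.Defs
import Fermat.Agent.S59.Lim.H2_Dec

/-!
# S59, package LIM: `Stmt_DEC_W` (LIM-DEC, torsion form) from `H2.isCompl_maxGenEigenspace`

* `gk_eq_maxGenEigenspace`, `locNil_of_torsion'` (elementwise nilpotency on `W[ϖ]` suffices),
  `stmt_DEC_W : Lim.Stmt_DEC_W`.

This file contains no `sorry`.
-/

set_option autoImplicit false
set_option linter.style.haveILetI false
set_option linter.unusedSectionVars false
set_option linter.unusedVariables false

noncomputable section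

open Module

namespace Fermat.Agent.S59.Lim.H2

variable {R : Type*} [CommRing R] {W : Type*} [AddCommGroup W] [Module R W]

theorem gk_eq_maxGenEigenspace (F : End R W) (a : R) :
    Fermat.Agent.S59.Lim.gk (F - a • (1 : End R W)) = F.maxGenEigenspace a := by
  ext w
  rw [Fermat.Agent.S59.Lim.mem_gk, End.mem_maxGenEigenspace]

/-- An operator which is nilpotent on every element of `W[ϖ]` is locally nilpotent on a
`ϖ`-power torsion module. -/
theorem locNil_of_torsion' (ϖ : R) (htors : ∀ w : W, ∃ k : ℕ, ϖ ^ k • w = 0) (B : End R W)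
    (hB : ∀ w : W, ϖ • w = 0 → ∃ m : ℕ, (B ^ m) w = 0) (w : W) : ∃ m : ℕ, (B ^ m) w = 0 := by
  obtain ⟨k, hk⟩ := htors w
  induction k generalizing w with
  | zero => exact ⟨0, by simpa using hk⟩
  | succ k ih =>
    rw [pow_succ, mul_smul] at hk
    obtain ⟨m, hm⟩ := ih (ϖ • w) hk
    rw [map_smul] at hm
    obtain ⟨m', hm'⟩ := hB _ hm
    refine ⟨m' + m, ?_⟩
    rw [pow_add, Module.End.mul_apply]
    exact hm'

/-- **LIM-DEC**, torsion form. -/
theorem stmt_DEC_W : Fermat.Agent.S59.Lim.Stmt_DEC_W := by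
  intro 𝒪 _ ϖ W _ _ htors F a a' hu hnil
  rw [gk_eq_maxGenEigenspace, gk_eq_maxGenEigenspace]
  exact isCompl_maxGenEigenspace F a a' hu (locNil_of_torsion' ϖ htors _ hnil)

end Fermat.Agent.S59.Lim.H2
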