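import Mathlib

/-!
# S59, package LIM, leaf LIM-TATE (helper2): the `ϖ`-adic Tate module of a divisible torsion module

`𝒪` a commutative ring, `ϖ : 𝒪`, `W` an `𝒪`-module.

* `tate ϖ W : Submodule 𝒪 (ℕ → W)` : sequences `x` with `x 0 = 0`, `ϖ • x (k+1) = x k`.
* `ev ϖ W k : tate ϖ W →ₗ[𝒪] W`, `x ↦ x k`; `pow_smul_ev`, `ev_eq_zero_iff` (`ker (ev k) = ϖ^k T`),
  `exists_ev_eq` (`range (ev k) = W[ϖ^k]` if `W` is `ϖ`-divisible).
* `tate_separated`, `tate_smul_eq_zero` (no `ϖ`-torsion), `isTorsionFree_tate` (over a DVR).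
* `span_eq_top_of_complete` : `ϖ`-adic Nakayama for separated modules over a complete ring.
* `finite_tate`, `free_tate` : `T_ϖ W` is finite free if `𝒪` is a complete DVR, `W` is
  `ϖ`-divisible and `W[ϖ]` is finitely generated.
* `map`, `mapEnd : End 𝒪 W →+* End 𝒪 (tate ϖ W)`, `ev_map`, `mapEnd_injective`,
  `map_surjective`.

This file contains no `sorry`.
-/

set_option autoImplicit false
set_option linter.style.haveILetI false
set_option linter.unusedSectionVars false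
set_option linter.unusedVariables false

noncomputable section

open IsLocalRing

namespace Fermat.Agent.S59.Lim.H2

/-! ### `ϖ`-adic Nakayama with completeness -/

section Gen

variable {R : Type*} [CommRing R] {M : Type*} [AddCommGroup M] [Module R M]

/-- If `R` is `ϖ`-adically precomplete, `M` is `ϖ`-adically separated and `t` generates `M`
modulo `ϖ`, then `t` generates `M`. -/
theorem span_eq_top_of_complete (ϖ : R) [IsPrecomplete (Ideal.span {ϖ}) R]
    (hsep : ∀ x : M, (∀ n : ℕ, ∃ y : M, x = ϖ ^ n • y) → x = 0)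
    {h : ℕ} (t : Fin h → M)
    (hgen : ∀ x : M, ∃ (a : Fin h → R) (y : M), x = ∑ i, a i • t i + ϖ • y) :
    Submodule.span R (Set.range t) = ⊤ := by
  classical
  rw [eq_top_iff]
  rintro x -
  choose A Y hAY using hgen
  -- the sequences
  let yy : ℕ → M := fun n => Nat.rec x (fun _ y => Y y) n
  have yy0 : yy 0 = x := rfl
  have yyS : ∀ n, yy (n + 1) = Y (yy n) := fun n => rfl
  let cc : ℕ → Fin h → R := fun n => Nat.rec (motive := fun _ => Fin h → R) 0
    (fun m c => c + ϖ ^ m • A (Nat.rec x (fun _ y => Y y) m)) n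
  have cc0 : cc 0 = 0 := rfl
  have ccS : ∀ n, cc (n + 1) = cc n + ϖ ^ n • A (yy n) := fun n => rfl
  have key : ∀ n, x = ∑ i, cc n i • t i + ϖ ^ n • yy n := by
    intro n
    induction n with
    | zero => simp [cc0, yy0]
    | succ n ih =>
      rw [ccS, yyS]
      conv_lhs => rw [ih, hAY (yy n)]
      simp only [Pi.add_apply, Pi.smul_apply, smul_eq_mul, add_smul, Finset.sum_add_distrib,
        smul_add, Finset.smul_sum, pow_succ, mul_smul]
      abel
  have hc : ∀ i {m n : ℕ}, m ≤ n → ∃ b : R, cc n i - cc m i = ϖ ^ m * b := by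
    intro i m n hmn
    induction n, hmn using Nat.le_induction with
    | base => exact ⟨0, by simp⟩
    | succ n hmn ih =>
      obtain ⟨b, hb⟩ := ih
      obtain ⟨d, rfl⟩ := Nat.exists_eq_add_of_le hmn
      refine ⟨b + ϖ ^ d * A (yy (m + d)) i, ?_⟩
      rw [ccS]
      simp only [Pi.add_apply, Pi.smul_apply, smul_eq_mul]
      rw [mul_add, ← hb, pow_add]
      ring
  have hL : ∀ i, ∃ L : R, ∀ n, ∃ b : R, L - cc n i = ϖ ^ n * b := by
    intro i
    obtain ⟨L, hL⟩ := IsPrecomplete.prec' (I := Ideal.span {ϖ}) (M := R) (fun n => cc n i) (by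
      intro m n hmn
      obtain ⟨b, hb⟩ := hc i hmn
      rw [SModEq.sub_mem, smul_eq_mul, Ideal.mul_top, Ideal.span_singleton_pow,
        Ideal.mem_span_singleton']
      refine ⟨-b, ?_⟩
      have : cc m i - cc n i = -(cc n i - cc m i) := by ring
      rw [this, hb]
      ring)
    refine ⟨L, fun n => ?_⟩
    have := hL n
    rw [SModEq.sub_mem, smul_eq_mul, Ideal.mul_top, Ideal.span_singleton_pow,
      Ideal.mem_span_singleton'] at this
    obtain ⟨b, hb⟩ := this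
    refine ⟨-b, ?_⟩
    have h2 : L - cc n i = -(cc n i - L) := by ring
    rw [h2, ← hb]
    ring
  choose L hL using hL
  have hx : x - ∑ i, L i • t i = 0 := by
    apply hsep
    intro n
    choose b hb using fun i => hL i n
    refine ⟨yy n - ∑ i, b i • t i, ?_⟩
    conv_lhs => rw [key n]
    have h1 : ∀ i, L i • t i = cc n i • t i + ϖ ^ n • (b i • t i) := by
      intro i
      rw [← mul_smul, ← hb i, sub_smul]
      abel
    simp only [h1, Finset.sum_add_distrib, smul_sub, Finset.smul_sum]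
    abel
  rw [sub_eq_zero] at hx
  rw [hx]
  exact Submodule.sum_mem _ fun i _ =>
    Submodule.smul_mem _ _ (Submodule.subset_span ⟨i, rfl⟩)

end Gen

/-! ### The Tate module -/

section Tate

variable {𝒪 : Type*} [CommRing 𝒪] (ϖ : 𝒪) (W : Type*) [AddCommGroup W] [Module 𝒪 W]

/-- The `ϖ`-adic Tate module of `W`: sequences `x` with `x 0 = 0` and `ϖ • x (k+1) = x k`. -/
def tate : Submodule 𝒪 (ℕ → W) where
  carrier := {x | x 0 = 0 ∧ ∀ k, ϖ • x (k + 1) = x k}
  add_mem' := by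
    rintro x y ⟨hx0, hx⟩ ⟨hy0, hy⟩
    refine ⟨by simp [hx0, hy0], fun k => ?_⟩
    simp [smul_add, hx k, hy k]
  zero_mem' := ⟨rfl, fun k => by simp⟩
  smul_mem' := by
    rintro c x ⟨hx0, hx⟩
    refine ⟨by simp [hx0], fun k => ?_⟩
    simp only [Pi.smul_apply]
    rw [smul_comm, hx k]

variable {ϖ W}

theorem mem_tate {x : ℕ → W} : x ∈ tate ϖ W ↔ x 0 = 0 ∧ ∀ k, ϖ • x (k + 1) = x k := Iff.rfl

variable (ϖ W)

/-- The `k`-th component. -/
def ev (k : ℕ) : tate ϖ W →ₗ[𝒪] W := (LinearMap.proj k).comp (tate ϖ W).subtype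

variable {ϖ W}

@[simp] theorem ev_apply (k : ℕ) (x : tate ϖ W) : ev ϖ W k x = x.1 k := rfl

@[simp] theorem ev_zero (x : tate ϖ W) : ev ϖ W 0 x = 0 := x.2.1

theorem smul_ev_succ (k : ℕ) (x : tate ϖ W) : ϖ • ev ϖ W (k + 1) x = ev ϖ W k x := x.2.2 k

theorem pow_smul_ev_add (k j : ℕ) (x : tate ϖ W) : ϖ ^ j • ev ϖ W (k + j) x = ev ϖ W k x := by
  induction j with
  | zero => simp
  | succ j ih =>
    rw [pow_succ, mul_smul, ← add_assoc, smul_ev_succ, ih]

theorem pow_smul_ev (k : ℕ) (x : tate ϖ W) : ϖ ^ k • ev ϖ W k x = 0 := by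
  have := pow_smul_ev_add 0 k x
  rwa [zero_add, ev_zero] at this

theorem ev_mem_torsionBy (k : ℕ) (x : tate ϖ W) :
    ev ϖ W k x ∈ Submodule.torsionBy 𝒪 W (ϖ ^ k) := by
  rw [Submodule.mem_torsionBy_iff]
  exact pow_smul_ev k x

theorem tate_ext {x y : tate ϖ W} (h : ∀ k, ev ϖ W k x = ev ϖ W k y) : x = y :=
  Subtype.ext (funext h)

/-- `ker (ev k) = ϖ ^ k • T`. -/
theorem ev_eq_zero_iff (k : ℕ) (x : tate ϖ W) : ev ϖ W k x = 0 ↔ ∃ y : tate ϖ W, x = ϖ ^ k • y := by
  constructor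
  · intro hx
    refine ⟨⟨fun j => x.1 (j + k), ?_, fun j => ?_⟩, ?_⟩
    · show x.1 (0 + k) = 0
      rw [zero_add]
      exact hx
    · show ϖ • x.1 (j + 1 + k) = x.1 (j + k)
      have := x.2.2 (j + k)
      rwa [add_right_comm] at this
    · apply tate_ext
      intro j
      show x.1 j = ϖ ^ k • x.1 (j + k)
      exact (pow_smul_ev_add j k x).symm
  · rintro ⟨y, rfl⟩
    rw [map_smul]
    exact pow_smul_ev k y

theorem ker_ev (k : ℕ) :
    LinearMap.ker (ev ϖ W k) = (Ideal.span {ϖ ^ k} • ⊤ : Submodule 𝒪 (tate ϖ W)) := by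
  ext x
  rw [LinearMap.mem_ker, ev_eq_zero_iff, Submodule.ideal_span_singleton_smul]
  constructor
  · rintro ⟨y, rfl⟩
    exact Submodule.smul_mem_pointwise_smul _ _ _ Submodule.mem_top
  · intro hx
    obtain ⟨y, -, hy⟩ := (Submodule.mem_smul_pointwise_iff_exists _ _ _).mp hx
    exact ⟨y, hy.symm⟩

/-- The Tate module is `ϖ`-adically separated. -/
theorem tate_separated (x : tate ϖ W) (h : ∀ n : ℕ, ∃ y : tate ϖ W, x = ϖ ^ n • y) : x = 0 := by
  apply tate_ext
  intro k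
  rw [map_zero]
  exact (ev_eq_zero_iff k x).mpr (h k)

/-- The Tate module has no `ϖ`-torsion. -/
theorem tate_smul_eq_zero (x : tate ϖ W) (h : ϖ • x = 0) : x = 0 := by
  apply tate_ext
  intro k
  rw [map_zero, ← smul_ev_succ, ← map_smul, h, map_zero]

theorem tate_pow_smul_eq_zero (n : ℕ) (x : tate ϖ W) (h : ϖ ^ n • x = 0) : x = 0 := by
  induction n generalizing x with
  | zero => simpa using h
  | succ n ih =>
    rw [pow_succ, mul_smul] at h
    exact tate_smul_eq_zero x (ih (ϖ • x) h)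

/-- If `W` is `ϖ`-divisible then `ev k` is onto the `ϖ ^ k`-torsion. -/
theorem exists_ev_eq (hdiv : ∀ w : W, ∃ v : W, ϖ • v = w) (k : ℕ) (w : W)
    (hw : ϖ ^ k • w = 0) : ∃ x : tate ϖ W, ev ϖ W k x = w := by
  classical
  choose d hd using hdiv
  refine ⟨⟨fun j => if j ≤ k then ϖ ^ (k - j) • w else d^[j - k] w, ?_, fun j => ?_⟩, ?_⟩
  · show (if 0 ≤ k then ϖ ^ (k - 0) • w else d^[0 - k] w) = 0
    rw [if_pos (Nat.zero_le k), Nat.sub_zero, hw]
  · show ϖ • (if j + 1 ≤ k then ϖ ^ (k - (j + 1)) • w else d^[j + 1 - k] w)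
      = if j ≤ k then ϖ ^ (k - j) • w else d^[j - k] w
    by_cases h1 : j + 1 ≤ k
    · rw [if_pos h1, if_pos (by omega), ← mul_smul, ← pow_succ']
      congr 2
      omega
    · rw [if_neg h1]
      by_cases h2 : j ≤ k
      · have hjk : j = k := by omega
        subst hjk
        rw [if_pos le_rfl, Nat.sub_self, pow_zero, one_smul]
        have : j + 1 - j = 1 := by omega
        rw [this, Function.iterate_one, hd]
      · rw [if_neg h2]
        have : j + 1 - k = (j - k) + 1 := by omega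
        rw [this, Function.iterate_succ_apply', hd]
  · show (if k ≤ k then ϖ ^ (k - k) • w else d^[k - k] w) = w
    rw [if_pos le_rfl, Nat.sub_self, pow_zero, one_smul]

theorem range_ev (hdiv : ∀ w : W, ∃ v : W, ϖ • v = w) (k : ℕ) :
    LinearMap.range (ev ϖ W k) = Submodule.torsionBy 𝒪 W (ϖ ^ k) := by
  ext w
  constructor
  · rintro ⟨x, rfl⟩
    exact ev_mem_torsionBy k x
  · intro hw
    exact exists_ev_eq hdiv k w ((Submodule.mem_torsionBy_iff _ _).mp hw)

/-- If `W` is `ϖ`-power torsion and `ϖ`-divisible, every element of `W` is a component of an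
element of the Tate module. -/
theorem exists_ev_eq_of_torsion (hdiv : ∀ w : W, ∃ v : W, ϖ • v = w)
    (htors : ∀ w : W, ∃ k : ℕ, ϖ ^ k • w = 0) (w : W) :
    ∃ (k : ℕ) (x : tate ϖ W), ev ϖ W k x = w := by
  obtain ⟨k, hk⟩ := htors w
  exact ⟨k, exists_ev_eq hdiv k w hk⟩

/-! ### Finiteness and freeness -/

/-- `T_ϖ W` is finitely generated if `𝒪` is `ϖ`-adically complete, `W` is `ϖ`-divisible and
`W[ϖ]` is finitely generated. -/
theorem finite_tate [IsPrecomplete (Ideal.span {ϖ}) 𝒪]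
    (hdiv : ∀ w : W, ∃ v : W, ϖ • v = w)
    (hfin : (Submodule.torsionBy 𝒪 W ϖ).FG) : Module.Finite 𝒪 (tate ϖ W) := by
  classical
  obtain ⟨s, hs⟩ := hfin
  -- enumerate the generators
  obtain ⟨h, g, hg⟩ : ∃ (h : ℕ) (g : Fin h → W), Set.range g = (s : Set W) := by
    refine ⟨s.card, fun i => (s.equivFin.symm i : W), ?_⟩
    ext w
    constructor
    · rintro ⟨i, rfl⟩
      exact (s.equivFin.symm i).2
    · intro hw
      exact ⟨s.equivFin ⟨w, hw⟩, by simp⟩
  have hg1 : ∀ i, ϖ ^ 1 • g i = 0 := by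
    intro i
    have : g i ∈ Submodule.torsionBy 𝒪 W ϖ := by
      rw [← hs]
      exact Submodule.subset_span (hg ▸ ⟨i, rfl⟩)
    rw [pow_one]
    exact (Submodule.mem_torsionBy_iff _ _).mp this
  choose t ht using fun i => exists_ev_eq hdiv 1 (g i) (hg1 i)
  refine ⟨⟨Finset.univ.image t, ?_⟩⟩
  rw [Finset.coe_image, Finset.coe_univ, Set.image_univ]
  apply span_eq_top_of_complete ϖ tate_separated t
  intro x
  have hx : ev ϖ W 1 x ∈ Submodule.span 𝒪 (Set.range g) := by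
    rw [hg, hs]
    have := ev_mem_torsionBy 1 x
    rwa [pow_one] at this
  obtain ⟨a, ha⟩ := (Submodule.mem_span_range_iff_exists_fun 𝒪).mp hx
  have h0 : ev ϖ W 1 (x - ∑ i, a i • t i) = 0 := by
    rw [map_sub, map_sum, ← ha]
    simp only [map_smul, ht, sub_self]
  obtain ⟨y, hy⟩ := (ev_eq_zero_iff 1 _).mp h0
  refine ⟨a, y, ?_⟩
  rw [pow_one] at hy
  rw [← hy]
  abel

end Tate

section DVR

variable {𝒪 : Type*} [CommRing 𝒪] [IsDomain 𝒪] [IsDiscreteValuationRing 𝒪]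
  {ϖ : 𝒪} {W : Type*} [AddCommGroup W] [Module 𝒪 W]

/-- Over a discrete valuation ring with uniformiser `ϖ` the Tate module is torsion-free. -/
theorem isTorsionFree_tate (hϖ : Irreducible ϖ) : Module.IsTorsionFree 𝒪 (tate ϖ W) := by
  refine ⟨fun r hr => ?_⟩
  have hr0 : r ≠ 0 := hr.ne_zero
  obtain ⟨n, u, rfl⟩ := IsDiscreteValuationRing.eq_unit_mul_pow_irreducible hr0 hϖ
  intro x y hxy
  have h1 : (u : 𝒪) • (ϖ ^ n • (x - y)) = 0 := by
    rw [← mul_smul, smul_sub]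
    exact sub_eq_zero.mpr hxy
  have h2 : ϖ ^ n • (x - y) = 0 := by
    have := congrArg (fun z => ((u⁻¹ : 𝒪ˣ) : 𝒪) • z) h1
    simpa [← mul_smul] using this
  exact sub_eq_zero.mp (tate_pow_smul_eq_zero n _ h2)

theorem precomplete_span_of_maximalIdeal [IsAdicComplete (maximalIdeal 𝒪) 𝒪]
    (hϖ : Irreducible ϖ) : IsPrecomplete (Ideal.span {ϖ}) 𝒪 := by
  rw [← hϖ.maximalIdeal_eq]
  infer_instance

/-- `T_ϖ W` is finite over a complete DVR. -/
theorem finite_tate_dvr [IsAdicComplete (maximalIdeal 𝒪) 𝒪] (hϖ : Irreducible ϖ)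
    (hdiv : ∀ w : W, ∃ v : W, ϖ • v = w)
    (hfin : (Submodule.torsionBy 𝒪 W ϖ).FG) : Module.Finite 𝒪 (tate ϖ W) := by
  haveI := precomplete_span_of_maximalIdeal (𝒪 := 𝒪) hϖ
  exact finite_tate hdiv hfin

/-- `T_ϖ W` is free over a complete DVR. -/
theorem free_tate [IsAdicComplete (maximalIdeal 𝒪) 𝒪] (hϖ : Irreducible ϖ)
    (hdiv : ∀ w : W, ∃ v : W, ϖ • v = w)
    (hfin : (Submodule.torsionBy 𝒪 W ϖ).FG) : Module.Free 𝒪 (tate ϖ W) := by
  haveI := finite_tate_dvr hϖ hdiv hfin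
  haveI := isTorsionFree_tate (W := W) hϖ
  exact Module.free_of_finite_type_torsion_free'

/-- `ker (ev k) = 𝔪 ^ k • T`. -/
theorem ker_ev_eq_maximalIdeal_pow (hϖ : Irreducible ϖ) (k : ℕ) :
    LinearMap.ker (ev ϖ W k) = ((maximalIdeal 𝒪) ^ k • ⊤ : Submodule 𝒪 (tate ϖ W)) := by
  rw [ker_ev, hϖ.maximalIdeal_eq, Ideal.span_singleton_pow]

/-- `ev 1 x = 0` implies `x ∈ 𝔪 • T`. -/
theorem mem_maximalIdeal_smul_of_ev_one (hϖ : Irreducible ϖ) (x : tate ϖ W)
    (hx : ev ϖ W 1 x = 0) : x ∈ (maximalIdeal 𝒪 • ⊤ : Submodule 𝒪 (tate ϖ W)) := by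
  have := ker_ev_eq_maximalIdeal_pow (W := W) hϖ 1
  rw [pow_one] at this
  rw [← this]
  exact hx

end DVR

end Fermat.Agent.S59.Lim.H2
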