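import Fermat.Agent.S59.Lim.H94_Min
import Fermat.Agent.S59.TWH.H14_OLift

/-!
# S59, package LIM (helper94): freeness of the Tate module over `𝒪[Δ]`, and the projection `π`

From the norm-surjectivity along the tower on `W[ϖ]` (`hstep`), the pull-back `πup` (injective,
with `Δ`-invariant image containing all invariants of `W[ϖ]`):

* `exists_basis_tate` : `T_ϖ W` is free over `𝒪[Δ]` in the `H90.mon`-shape (TOWER over the residue
  field on `W[ϖ]`, then O-LIFT);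
* `π_torsion_onto`    : `π : W[ϖ] → W_M[ϖ]` is onto if `πup ∘ π = nmTot`;
* `map_π_surjective`  : `T_ϖ π` is onto.
-/

set_option autoImplicit false
set_option linter.style.haveILetI false
set_option linter.unusedSectionVars false

noncomputable section

open IsLocalRing

namespace Fermat.Agent.S59.Lim

open Fermat.Agent.S59.TWH

/-! ### Transport of `mon`, `nm`, `nmTot` along ring homomorphisms of endomorphism rings -/

section Transfer

variable {A A' : Type*} [CommRing A] [CommRing A'] {V V' : Type*} [AddCommGroup V] [Module A V]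
  [AddCommGroup V'] [Module A' V'] (Φ : Module.End A V →+* Module.End A' V')

theorem map_mon {r : ℕ} (c : Fin r → Module.End A V) (x : Fin r → ℕ) :
    Φ (H90.mon c x) = H90.mon (fun j => Φ (c j)) x := by
  rw [H90.mon, H90.mon, map_list_prod, List.map_ofFn]
  congr 1
  apply congrArg
  funext j
  exact map_pow Φ (c j) (x j)

theorem map_nm (m : ℕ) (c : Module.End A V) : Φ (H90.nm m c) = H90.nm m (Φ c) := by
  rw [H90.nm, H90.nm, map_sum]
  exact Finset.sum_congr rfl fun j _ => map_pow Φ c j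

theorem map_nmTot (m : ℕ) {r : ℕ} (c : Fin r → Module.End A V) :
    Φ (H90.nmTot m c) = H90.nmTot m (fun j => Φ (c j)) := by
  rw [H90.nmTot, H90.nmTot, map_list_prod, List.map_ofFn]
  congr 1
  apply congrArg
  funext j
  exact map_nm Φ m (c j)

end Transfer

/-! ### Restriction to `W[ϖ]` as a module over `𝒪 ⧸ (ϖ)` -/

section Res

variable {𝒪 : Type*} [CommRing 𝒪] (ϖ : 𝒪) {W : Type*} [AddCommGroup W] [Module 𝒪 W]

/-- The restriction of an endomorphism to `W[ϖ]`, linear over `𝒪 ⧸ (ϖ)`. -/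
def resT : Module.End 𝒪 W →+*
    Module.End (𝒪 ⧸ Ideal.span {ϖ}) (Submodule.torsionBy 𝒪 W ϖ) where
  toFun f :=
    { toFun := fun x => ⟨f x, by
        rw [Submodule.mem_torsionBy_iff, ← map_smul, (Submodule.mem_torsionBy_iff _ _).mp x.2,
          map_zero]⟩
      map_add' := fun x y => Subtype.ext (map_add f _ _)
      map_smul' := fun c x => by
        obtain ⟨a, rfl⟩ := Ideal.Quotient.mk_surjective c
        apply Subtype.ext
        show f (a • (x : W)) = a • f (x : W)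
        rw [map_smul] }
  map_one' := rfl
  map_mul' _ _ := rfl
  map_zero' := rfl
  map_add' _ _ := rfl

@[simp]
theorem coe_resT (f : Module.End 𝒪 W) (x : Submodule.torsionBy 𝒪 W ϖ) :
    ((resT ϖ f x : Submodule.torsionBy 𝒪 W ϖ) : W) = f (x : W) := rfl

theorem resT_mon {r : ℕ} (d : Fin r → Module.End 𝒪 W) (x : Fin r → ℕ)
    (v : Submodule.torsionBy 𝒪 W ϖ) :
    ((H90.mon (fun j => resT ϖ (d j)) x v : Submodule.torsionBy 𝒪 W ϖ) : W)
      = H90.mon d x (v : W) := by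
  rw [← map_mon (resT ϖ) d x]
  rfl

theorem resT_nm (m : ℕ) (c : Module.End 𝒪 W) (v : Submodule.torsionBy 𝒪 W ϖ) :
    ((H90.nm m (resT ϖ c) v : Submodule.torsionBy 𝒪 W ϖ) : W) = H90.nm m c (v : W) := by
  rw [← map_nm (resT ϖ) m c]
  rfl

theorem resT_nmTot (m : ℕ) {r : ℕ} (d : Fin r → Module.End 𝒪 W)
    (v : Submodule.torsionBy 𝒪 W ϖ) :
    ((H90.nmTot m (fun j => resT ϖ (d j)) v : Submodule.torsionBy 𝒪 W ϖ) : W)
      = H90.nmTot m d (v : W) := by
  rw [← map_nmTot (resT ϖ) m d]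
  rfl

theorem mapEnd_mon {r : ℕ} (d : Fin r → Module.End 𝒪 W) (x : Fin r → ℕ) :
    H90.mon (fun j => H2.mapEnd ϖ W (d j)) x = H2.mapEnd ϖ W (H90.mon d x) :=
  (map_mon ((H2.mapEnd ϖ W : Module.End 𝒪 W →ₐ[𝒪] Module.End 𝒪 (H2.tate ϖ W)) :
    Module.End 𝒪 W →+* Module.End 𝒪 (H2.tate ϖ W)) d x).symm

theorem mapEnd_nmTot (m : ℕ) {r : ℕ} (d : Fin r → Module.End 𝒪 W) :
    H90.nmTot m (fun j => H2.mapEnd ϖ W (d j)) = H2.mapEnd ϖ W (H90.nmTot m d) :=
  (map_nmTot ((H2.mapEnd ϖ W : Module.End 𝒪 W →ₐ[𝒪] Module.End 𝒪 (H2.tate ϖ W)) :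
    Module.End 𝒪 W →+* Module.End 𝒪 (H2.tate ϖ W)) m d).symm

end Res

/-! ### Freeness -/

section Main

variable {𝒪 : Type} [CommRing 𝒪] [IsDomain 𝒪] [IsDiscreteValuationRing 𝒪]
  [IsAdicComplete (maximalIdeal 𝒪) 𝒪] {ϖ : 𝒪}
  {W WM : Type} [AddCommGroup W] [Module 𝒪 W] [AddCommGroup WM] [Module 𝒪 WM]

omit [IsAdicComplete (maximalIdeal 𝒪) 𝒪] in
theorem natCast_smul_eq_zero_of_torsion (hϖ : Irreducible ϖ) {p : ℕ}
    (hp : (p : 𝒪) ∈ maximalIdeal 𝒪) (v : W) (hv : ϖ • v = 0) : (p : 𝒪) • v = 0 := by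
  rw [hϖ.maximalIdeal_eq, Ideal.mem_span_singleton'] at hp
  obtain ⟨s, hs⟩ := hp
  rw [← hs, mul_smul, hv, smul_zero]

/-- **Freeness of the Tate module over `𝒪[Δ]`** (TOWER on `W[ϖ]` + O-LIFT). -/
theorem exists_basis_tate (hϖ : Irreducible ϖ) {p : ℕ} [Fact p.Prime]
    (hp : (p : 𝒪) ∈ maximalIdeal 𝒪) (n r : ℕ)
    (hW : IsDiv ϖ W) (hWM : IsDiv ϖ WM)
    (d : Fin r → Module.End 𝒪 W) (d_pow : ∀ j, d j ^ (p ^ n) = 1)
    (d_comm : ∀ i j, Commute (d i) (d j))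
    (hstep : ∀ (j : Fin r) (v : W), ϖ • v = 0 → (∀ i, i ≤ j → d i v = v) →
      ∃ w : W, ϖ • w = 0 ∧ (∀ i, i < j → d i w = w) ∧ H90.nm (p ^ n) (d j) w = v)
    (πup : WM →ₗ[𝒪] W) (πup_inj : Function.Injective πup)
    (d_πup : ∀ (j : Fin r) (y : WM), d j (πup y) = πup y)
    (inv : ∀ v : W, ϖ • v = 0 → (∀ j, d j v = v) → ∃ y : WM, πup y = v) :
    ∃ (rk : ℕ) (b : Fin rk → H2.tate ϖ W),
      Function.Bijective (fun f : Fin rk × (Fin r → Fin (p ^ n)) → 𝒪 =>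
        ∑ x : Fin rk × (Fin r → Fin (p ^ n)),
          f x • H90.mon (fun j => H2.mapEnd ϖ W (d j)) (fun j => (x.2 j : ℕ)) (b x.1)) := by
  classical
  haveI hmax : (Ideal.span {ϖ}).IsMaximal := PrincipalIdealRing.isMaximal_of_irreducible hϖ
  letI : Field (𝒪 ⧸ Ideal.span {ϖ}) := Ideal.Quotient.field _
  haveI := hW.fin
  haveI := hWM.fin
  -- the operators on `W[ϖ]`
  set c : Fin r → Module.End (𝒪 ⧸ Ideal.span {ϖ}) (Submodule.torsionBy 𝒪 W ϖ) :=
    fun j => resT ϖ (d j) with hcdef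
  have hcomm : ∀ i j, Commute (c i) (c j) := fun i j => (d_comm i j).map (resT ϖ)
  have hc : ∀ j, c j ^ (p ^ n) = 1 := fun j => by
    rw [hcdef]
    show resT ϖ (d j) ^ (p ^ n) = 1
    rw [← map_pow, d_pow, map_one]
  have hV : ∀ v : Submodule.torsionBy 𝒪 W ϖ, ∃ m : ℕ, (p ^ m) • v = 0 := by
    intro v
    refine ⟨1, ?_⟩
    apply Subtype.ext
    rw [pow_one]
    show (p : ℕ) • (v : W) = 0
    rw [← Nat.cast_smul_eq_nsmul 𝒪]
    exact natCast_smul_eq_zero_of_torsion hϖ hp _ ((Submodule.mem_torsionBy_iff _ _).mp v.2)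
  have hstep' : ∀ (j : Fin r) (v : Submodule.torsionBy 𝒪 W ϖ), (∀ i, i ≤ j → c i v = v) →
      ∃ w, (∀ i, i < j → c i w = w) ∧ H90.nm (p ^ n) (c j) w = v := by
    intro j v hv
    obtain ⟨w, hw0, hw1, hw2⟩ := hstep j (v : W) ((Submodule.mem_torsionBy_iff _ _).mp v.2)
      (fun i hi => congrArg Subtype.val (hv i hi))
    refine ⟨⟨w, (Submodule.mem_torsionBy_iff _ _).mpr hw0⟩, fun i hi => Subtype.ext (hw1 i hi),
      ?_⟩
    apply Subtype.ext
    rw [hcdef]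
    show ((H90.nm (p ^ n) (resT ϖ (d j)) _ : Submodule.torsionBy 𝒪 W ϖ) : W) = _
    rw [resT_nm]
    exact hw2
  -- the pull-back on the torsion
  let πk : Submodule.torsionBy 𝒪 WM ϖ →ₗ[𝒪 ⧸ Ideal.span {ϖ}] Submodule.torsionBy 𝒪 W ϖ :=
    { toFun := fun y => ⟨πup (y : WM), by
        rw [Submodule.mem_torsionBy_iff, ← map_smul, (Submodule.mem_torsionBy_iff _ _).mp y.2,
          map_zero]⟩
      map_add' := fun x y => Subtype.ext (map_add πup _ _)
      map_smul' := fun a x => by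
        obtain ⟨a, rfl⟩ := Ideal.Quotient.mk_surjective a
        apply Subtype.ext
        show πup (a • (x : WM)) = a • πup (x : WM)
        rw [map_smul] }
  have hπk_inj : Function.Injective πk := by
    intro x y hxy
    apply Subtype.ext
    apply πup_inj
    exact congrArg Subtype.val hxy
  haveI : Module.Finite (𝒪 ⧸ Ideal.span {ϖ}) (Submodule.torsionBy 𝒪 WM ϖ) :=
    Module.Finite.of_finite
  let B := Module.finBasis (𝒪 ⧸ Ideal.span {ϖ}) (Submodule.torsionBy 𝒪 WM ϖ)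
  set e : Fin (Module.finrank (𝒪 ⧸ Ideal.span {ϖ}) (Submodule.torsionBy 𝒪 WM ϖ)) →
      Submodule.torsionBy 𝒪 W ϖ := fun i => πk (B i) with hedef
  have he_fix : ∀ i j, c j (e i) = e i := fun i j => Subtype.ext (d_πup j _)
  have he_li : LinearIndependent (𝒪 ⧸ Ideal.span {ϖ}) e :=
    B.linearIndependent.map' πk (LinearMap.ker_eq_bot.mpr hπk_inj)
  have he_span : ∀ v, (∀ j, c j v = v) →
      v ∈ Submodule.span (𝒪 ⧸ Ideal.span {ϖ}) (Set.range e) := by
    intro v hv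
    obtain ⟨y, hy⟩ := inv (v : W) ((Submodule.mem_torsionBy_iff _ _).mp v.2)
      (fun j => congrArg Subtype.val (hv j))
    have hy0 : ϖ • y = 0 := by
      apply πup_inj
      rw [map_smul, hy, map_zero]
      exact (Submodule.mem_torsionBy_iff _ _).mp v.2
    have hv' : v = πk ⟨y, (Submodule.mem_torsionBy_iff _ _).mpr hy0⟩ := Subtype.ext hy.symm
    rw [hv']
    have h1 : (⟨y, (Submodule.mem_torsionBy_iff _ _).mpr hy0⟩ : Submodule.torsionBy 𝒪 WM ϖ)
        ∈ Submodule.span (𝒪 ⧸ Ideal.span {ϖ}) (Set.range B) := by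
      rw [B.span_eq]
      exact Submodule.mem_top
    have h2 := Submodule.apply_mem_span_image_of_mem_span πk h1
    have h3 : (πk '' Set.range B) = Set.range e := by
      rw [← Set.range_comp]
      rfl
    rw [h3] at h2
    exact h2
  obtain ⟨b₁, -, -, -, hbij⟩ := H90.tower_basis n r hV c hcomm hc hstep' e he_fix he_li he_span
  -- lift the `b₁ i` to the Tate module
  have hlift : ∀ i, ∃ x : H2.tate ϖ W, H2.ev ϖ W 1 x = (b₁ i : W) := fun i =>
    H2.exists_ev_eq hW.div 1 _ (by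
      rw [pow_one]
      exact (Submodule.mem_torsionBy_iff _ _).mp (b₁ i).2)
  choose b hb using hlift
  refine ⟨_, b, ?_⟩
  haveI : Module.Finite 𝒪 (H2.tate ϖ W) := H2.finite_tate_dvr hϖ hW.div hW.fg_torsionBy
  haveI : Module.Free 𝒪 (H2.tate ϖ W) := H2.free_tate hϖ hW.div hW.fg_torsionBy
  let red : H2.tate ϖ W →ₗ[𝒪] Submodule.torsionBy 𝒪 W ϖ :=
    LinearMap.codRestrict (Submodule.torsionBy 𝒪 W ϖ) (H2.ev ϖ W 1) (fun x => by
      rw [Submodule.mem_torsionBy_iff]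
      have := H2.pow_smul_ev 1 x
      rwa [pow_one] at this)
  have hker : ∀ m, red m = 0 → m ∈ (maximalIdeal 𝒪 • ⊤ : Submodule 𝒪 (H2.tate ϖ W)) :=
    fun m hm => H2.mem_maximalIdeal_smul_of_ev_one hϖ m (congrArg Subtype.val hm)
  refine H14.olift (k := 𝒪 ⧸ Ideal.span {ϖ}) Ideal.Quotient.mk_surjective red hker _ ?_
  have hred : ∀ x : Fin (Module.finrank (𝒪 ⧸ Ideal.span {ϖ}) (Submodule.torsionBy 𝒪 WM ϖ)) ×
      (Fin r → Fin (p ^ n)),
      red (H90.mon (fun j => H2.mapEnd ϖ W (d j)) (fun j => (x.2 j : ℕ)) (b x.1))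
        = H90.fam (p ^ n) c b₁ x := by
    intro x
    apply Subtype.ext
    rw [H90.fam, hcdef, resT_mon, mapEnd_mon]
    show H2.ev ϖ W 1 (H2.mapEnd ϖ W (H90.mon d fun j => (x.2 j : ℕ)) (b x.1)) = _
    rw [H2.ev_mapEnd, hb]
  simp only [hred]
  exact hbij

omit [IsDomain 𝒪] [IsDiscreteValuationRing 𝒪] [IsAdicComplete (maximalIdeal 𝒪) 𝒪] in
/-- `π` maps `W[ϖ]` onto `W_M[ϖ]`. -/
theorem π_torsion_onto {p : ℕ} (n r : ℕ)
    (d : Fin r → Module.End 𝒪 W) (d_comm : ∀ i j, Commute (d i) (d j))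
    (hstep : ∀ (j : Fin r) (v : W), ϖ • v = 0 → (∀ i, i ≤ j → d i v = v) →
      ∃ w : W, ϖ • w = 0 ∧ (∀ i, i < j → d i w = w) ∧ H90.nm (p ^ n) (d j) w = v)
    (π : W →ₗ[𝒪] WM) (πup : WM →ₗ[𝒪] W) (πup_inj : Function.Injective πup)
    (πup_π : ∀ x : W, πup (π x) = H90.nmTot (p ^ n) d x)
    (d_πup : ∀ (j : Fin r) (y : WM), d j (πup y) = πup y)
    (y : WM) (hy : ϖ • y = 0) : ∃ w : W, ϖ • w = 0 ∧ π w = y := by
  classical
  set c : Fin r → Module.End (𝒪 ⧸ Ideal.span {ϖ}) (Submodule.torsionBy 𝒪 W ϖ) :=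
    fun j => resT ϖ (d j) with hcdef
  have hcomm : ∀ i j, Commute (c i) (c j) := fun i j => (d_comm i j).map (resT ϖ)
  have hstep' : ∀ (j : Fin r) (v : Submodule.torsionBy 𝒪 W ϖ), (∀ i, i ≤ j → c i v = v) →
      ∃ w, (∀ i, i < j → c i w = w) ∧ H90.nm (p ^ n) (c j) w = v := by
    intro j v hv
    obtain ⟨w, hw0, hw1, hw2⟩ := hstep j (v : W) ((Submodule.mem_torsionBy_iff _ _).mp v.2)
      (fun i hi => congrArg Subtype.val (hv i hi))
    refine ⟨⟨w, (Submodule.mem_torsionBy_iff _ _).mpr hw0⟩, fun i hi => Subtype.ext (hw1 i hi),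
      ?_⟩
    apply Subtype.ext
    rw [hcdef]
    show ((H90.nm (p ^ n) (resT ϖ (d j)) _ : Submodule.torsionBy 𝒪 W ϖ) : W) = _
    rw [resT_nm]
    exact hw2
  have hv0 : πup y ∈ Submodule.torsionBy 𝒪 W ϖ := by
    rw [Submodule.mem_torsionBy_iff, ← map_smul, hy, map_zero]
  obtain ⟨w, hw⟩ := H90.exists_nmTot_eq (p ^ n) r (Submodule.torsionBy 𝒪 W ϖ) c hcomm hstep'
    ⟨πup y, hv0⟩ (fun j => Subtype.ext (d_πup j y))
  refine ⟨(w : W), (Submodule.mem_torsionBy_iff _ _).mp w.2, ?_⟩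
  apply πup_inj
  rw [πup_π]
  have := congrArg Subtype.val hw
  rw [hcdef, resT_nmTot] at this
  exact this

/-- `T_ϖ π` is onto. -/
theorem map_π_surjective (hϖ : Irreducible ϖ) {p : ℕ} (n r : ℕ)
    (hW : IsDiv ϖ W) (hWM : IsDiv ϖ WM)
    (d : Fin r → Module.End 𝒪 W) (d_comm : ∀ i j, Commute (d i) (d j))
    (hstep : ∀ (j : Fin r) (v : W), ϖ • v = 0 → (∀ i, i ≤ j → d i v = v) →
      ∃ w : W, ϖ • w = 0 ∧ (∀ i, i < j → d i w = w) ∧ H90.nm (p ^ n) (d j) w = v)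
    (π : W →ₗ[𝒪] WM) (πup : WM →ₗ[𝒪] W) (πup_inj : Function.Injective πup)
    (πup_π : ∀ x : W, πup (π x) = H90.nmTot (p ^ n) d x)
    (d_πup : ∀ (j : Fin r) (y : WM), d j (πup y) = πup y) :
    Function.Surjective (H2.map ϖ π) := by
  haveI : Module.Finite 𝒪 (H2.tate ϖ WM) := H2.finite_tate_dvr hϖ hWM.div hWM.fg_torsionBy
  exact H2.map_surjective (mem_maximalIdeal_of_irreducible hϖ) hW.div π
    (fun y hy => π_torsion_onto n r d d_comm hstep π πup πup_inj πup_π d_πup y hy)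

omit [IsDomain 𝒪] [IsDiscreteValuationRing 𝒪] [IsAdicComplete (maximalIdeal 𝒪) 𝒪] in
/-- The kernel of `T_ϖ π` is the kernel of the total norm. -/
theorem ker_map_π_eq_ker_nmTot {p : ℕ} (n r : ℕ)
    (d : Fin r → Module.End 𝒪 W)
    (π : W →ₗ[𝒪] WM) (πup : WM →ₗ[𝒪] W) (πup_inj : Function.Injective πup)
    (πup_π : ∀ x : W, πup (π x) = H90.nmTot (p ^ n) d x) :
    LinearMap.ker (H2.map ϖ π)
      = LinearMap.ker (H90.nmTot (p ^ n) (fun j => H2.mapEnd ϖ W (d j))) := by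
  ext x
  rw [LinearMap.mem_ker, LinearMap.mem_ker, mapEnd_nmTot, H2.mapEnd_apply,
    H2.map_apply_eq_zero_iff, H2.map_apply_eq_zero_iff]
  refine forall_congr' fun k => ?_
  rw [← πup_π]
  constructor
  · intro h
    rw [h, map_zero]
  · intro h
    apply πup_inj
    rw [h, map_zero]

end Main

end Fermat.Agent.S59.Lim
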