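import Fermat.Agent.S59.Lim.Defs

/-!
# S59, package LIM (helper94): `HDiv ⟹ HMod`

`toHMod hϖ MD : Asm.HMod 𝒪 N S θ` with `V = H2.tate ϖ MD.W`, `η = mapEnd ∘ MD.η`.

Generic tools:
* `exists_pow_kill_torsion` : an endomorphism which is nilpotent on each element of the finite
  module `W[ϖ]` has a power killing `W[ϖ]`.
* `fg_torsionBy` : `W[ϖ]` is finitely generated.
-/

set_option autoImplicit false
set_option linter.style.haveILetI false

noncomputable section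

open IsLocalRing CuspForm

namespace Fermat.Agent.S59.Lim

open Fermat.Agent.S59.Asm

section Gen

variable {𝒪 : Type*} [CommRing 𝒪] {ϖ : 𝒪} {W : Type*} [AddCommGroup W] [Module 𝒪 W]

theorem IsDiv.fg_torsionBy (h : IsDiv ϖ W) : (Submodule.torsionBy 𝒪 W ϖ).FG := by
  haveI := h.fin
  haveI : Module.Finite 𝒪 (Submodule.torsionBy 𝒪 W ϖ) := Module.Finite.of_finite
  exact Module.Finite.iff_fg.mp inferInstance

/-- A family of elementwise nilpotency exponents on a finite set has a uniform bound. -/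
theorem exists_pow_kill_of_finite {U : Submodule 𝒪 W} [Finite U] (B : Module.End 𝒪 W)
    (hB : ∀ x ∈ U, ∃ m : ℕ, (B ^ m) x = 0) : ∃ m : ℕ, ∀ x ∈ U, (B ^ m) x = 0 := by
  classical
  have h1 : ∀ x : U, ∃ m : ℕ, (B ^ m) (x : W) = 0 := fun x => hB x x.2
  choose f hf using h1
  haveI : Fintype U := Fintype.ofFinite U
  refine ⟨∑ x : U, f x, fun x hx => ?_⟩
  have hle : f ⟨x, hx⟩ ≤ ∑ y : U, f y :=
    Finset.single_le_sum (f := f) (fun _ _ => Nat.zero_le _) (Finset.mem_univ (⟨x, hx⟩ : U))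
  obtain ⟨c, hc⟩ := Nat.exists_eq_add_of_le hle
  rw [hc, add_comm, pow_add, Module.End.mul_apply]
  have := hf ⟨x, hx⟩
  simp only at this
  rw [this, map_zero]

theorem IsDiv.exists_pow_kill_torsion (h : IsDiv ϖ W) (B : Module.End 𝒪 W)
    (hB : ∀ x : W, ϖ • x = 0 → ∃ m : ℕ, (B ^ m) x = 0) :
    ∃ m : ℕ, ∀ x : W, ϖ • x = 0 → (B ^ m) x = 0 := by
  haveI := h.fin
  obtain ⟨m, hm⟩ := exists_pow_kill_of_finite (U := Submodule.torsionBy 𝒪 W ϖ) B
    (fun x hx => hB x ((Submodule.mem_torsionBy_iff _ _).mp hx))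
  exact ⟨m, fun x hx => hm x ((Submodule.mem_torsionBy_iff _ _).mpr hx)⟩

/-- `W[ϖ^k]` is finite for a module with `W[ϖ]` finite. -/
theorem IsDiv.finite_torsionBy_pow (h : IsDiv ϖ W) (k : ℕ) :
    Finite (Submodule.torsionBy 𝒪 W (ϖ ^ k)) := by
  haveI := h.fin
  induction k with
  | zero =>
    have : ∀ x : Submodule.torsionBy 𝒪 W (ϖ ^ 0), x = 0 := by
      rintro ⟨x, hx⟩
      apply Subtype.ext
      have := (Submodule.mem_torsionBy_iff _ _).mp hx
      simpa using this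
    haveI : Subsingleton (Submodule.torsionBy 𝒪 W (ϖ ^ 0)) :=
      ⟨fun a b => by rw [this a, this b]⟩
    infer_instance
  | succ k ih =>
    -- `x ↦ ϖ ^ k • x` maps `W[ϖ^(k+1)]` to `W[ϖ]` with fibres in bijection with `W[ϖ^k]`
    haveI := ih
    let f : Submodule.torsionBy 𝒪 W (ϖ ^ (k + 1)) →ₗ[𝒪] Submodule.torsionBy 𝒪 W ϖ :=
      { toFun := fun x => ⟨ϖ ^ k • (x : W), by
          rw [Submodule.mem_torsionBy_iff, ← mul_smul, ← pow_succ']
          exact (Submodule.mem_torsionBy_iff _ _).mp x.2⟩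
        map_add' := fun x y => Subtype.ext (smul_add _ _ _)
        map_smul' := fun c x => Subtype.ext (smul_comm _ _ _) }
    let g : LinearMap.ker f → Submodule.torsionBy 𝒪 W (ϖ ^ k) := fun x =>
      ⟨((x : Submodule.torsionBy 𝒪 W (ϖ ^ (k + 1))) : W), by
        rw [Submodule.mem_torsionBy_iff]
        have := x.2
        rw [LinearMap.mem_ker] at this
        exact congrArg Subtype.val this⟩
    have hg : Function.Injective g := by
      intro x y hxy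
      apply Subtype.ext
      apply Subtype.ext
      have := congrArg Subtype.val hxy
      exact this
    haveI : Finite (LinearMap.ker f) := Finite.of_injective g hg
    haveI : Finite (LinearMap.range f) := inferInstance
    have e := f.quotKerEquivRange
    haveI : Finite (Submodule.torsionBy 𝒪 W (ϖ ^ (k + 1)) ⧸ LinearMap.ker f) :=
      Finite.of_equiv _ e.symm.toEquiv
    have hc := Submodule.card_eq_card_quotient_mul_card (LinearMap.ker f)
    have h1 : 0 < Nat.card (LinearMap.ker f) := Nat.card_pos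
    have h2 : 0 < Nat.card (Submodule.torsionBy 𝒪 W (ϖ ^ (k + 1)) ⧸ LinearMap.ker f) :=
      Nat.card_pos
    exact Nat.finite_of_card_ne_zero (by rw [hc]; positivity)

theorem IsDiv.nontrivial_tate (h : IsDiv ϖ W) [Nontrivial W] : Nontrivial (H2.tate ϖ W) := by
  obtain ⟨w, hw⟩ := exists_ne (0 : W)
  obtain ⟨k, x, hx⟩ := H2.exists_ev_eq_of_torsion h.div h.tors w
  refine ⟨⟨x, 0, fun h0 => hw ?_⟩⟩
  rw [← hx, h0, map_zero]

/-- the image under `mapEnd` of `f - a • 1`. -/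
theorem mapEnd_sub_smul_one (f : Module.End 𝒪 W) (a : 𝒪) (m : ℕ) :
    (H2.mapEnd ϖ W f - a • (1 : Module.End 𝒪 (H2.tate ϖ W))) ^ m
      = H2.mapEnd ϖ W ((f - a • (1 : Module.End 𝒪 W)) ^ m) := by
  rw [map_pow, map_sub, map_smul, map_one]

end Gen

section HMod

variable {𝒪 : Type} [CommRing 𝒪] [IsDomain 𝒪] [IsDiscreteValuationRing 𝒪]
  [IsAdicComplete (maximalIdeal 𝒪) 𝒪] {ϖ : 𝒪}
  {N : ℕ} [NeZero N] {S : Set ℕ} {θ : CuspForm.heckeAlgebra N 2 S →+* ResidueField 𝒪}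

omit [IsAdicComplete (maximalIdeal 𝒪) 𝒪] in
theorem mem_maximalIdeal_of_irreducible (hϖ : Irreducible ϖ) : ϖ ∈ maximalIdeal 𝒪 :=
  (IsLocalRing.mem_maximalIdeal ϖ).mpr hϖ.not_isUnit

/-- **`HDiv ⟹ HMod`**: the Tate module of a divisible Hecke module. -/
def HDiv.toHMod (hϖ : Irreducible ϖ) (MD : HDiv 𝒪 ϖ N S θ) : HMod 𝒪 N S θ where
  V := H2.tate ϖ MD.W
  instFinite := H2.finite_tate_dvr hϖ MD.isDiv.div MD.isDiv.fg_torsionBy
  instFree := H2.free_tate hϖ MD.isDiv.div MD.isDiv.fg_torsionBy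
  η := ((H2.mapEnd ϖ MD.W : Module.End 𝒪 MD.W →ₐ[𝒪] Module.End 𝒪 (H2.tate ϖ MD.W)) :
    Module.End 𝒪 MD.W →+* Module.End 𝒪 (H2.tate ϖ MD.W)).comp MD.η
  η_local := by
    intro t a hta
    obtain ⟨m, hm⟩ := MD.isDiv.exists_pow_kill_torsion
      (MD.η t - a • (1 : Module.End 𝒪 MD.W)) (MD.η_local t a hta)
    refine ⟨m, fun v => ?_⟩
    have e : ((((H2.mapEnd ϖ MD.W : Module.End 𝒪 MD.W →ₐ[𝒪] Module.End 𝒪 (H2.tate ϖ MD.W)) :
        Module.End 𝒪 MD.W →+* Module.End 𝒪 (H2.tate ϖ MD.W)).comp MD.η) t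
          - a • (1 : Module.End 𝒪 (H2.tate ϖ MD.W))) ^ m
        = H2.mapEnd ϖ MD.W ((MD.η t - a • (1 : Module.End 𝒪 MD.W)) ^ m) :=
      mapEnd_sub_smul_one (MD.η t) a m
    rw [e]
    exact H2.map_mem_maximalIdeal_smul (mem_maximalIdeal_of_irreducible hϖ) _ hm v

@[simp]
theorem HDiv.toHMod_V (hϖ : Irreducible ϖ) (MD : HDiv 𝒪 ϖ N S θ) :
    (MD.toHMod hϖ).V = H2.tate ϖ MD.W := rfl

theorem HDiv.toHMod_η (hϖ : Irreducible ϖ) (MD : HDiv 𝒪 ϖ N S θ)
    (t : CuspForm.heckeAlgebra N 2 S) :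
    (MD.toHMod hϖ).η t = H2.mapEnd ϖ MD.W (MD.η t) := rfl

end HMod

end Fermat.Agent.S59.Lim
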