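import Fermat.Agent.S59.Lim.H2_Theta
import Mathlib.LinearAlgebra.TensorProduct.Pi

/-!
# S59, package LIM (helper94), Layer B: the `θ`-part under Eisenstein-twisted hypotheses

Abstract (pure algebra) forms of the leaves W-DIV, W-HSTEP, W-INV of NEB-GEOM: the `ℤ`-level
statements hold only "up to a power of `t₀`" (`t₀ = T_ℓ - (ℓ + 1)`, with `θ t₀ ≠ 0`), and give
the clean statements on the `θ`-part `W = thetaPart η θ ⊆ 𝒪 ⊗ A`.

* `exists_smul_eq_of_smul_eq_zero` : in `𝒪 ⊗_ℤ K`, `ϖ z = 0 ⟹ z ∈ c₀ (𝒪 ⊗ K)` (`p = ϖ c₀`).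
* `thetaEta_bijective` (W-UNIT) : `t₀` with `θ t₀ ≠ 0` is bijective on the `θ`-part.
* `exists_theta_decomp` : the `θ`-component of an element of `𝒪 ⊗ A`, with transfer of values.
* `isDiv_thetaPart_of_pow` (W-DIV).
* `exists_of_forall_baseChange_eq_zero` : simultaneous kernels and flat base change.
* `theta_lift` : the general lifting lemma (common form of W-HSTEP and W-INV).
-/

set_option autoImplicit false
set_option linter.unusedSectionVars false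
set_option linter.unusedVariables false
set_option linter.style.haveILetI false

open IsLocalRing TensorProduct

noncomputable section

namespace Fermat.Agent.S59.Lim.H94

open Fermat.Agent.S59.Lim Fermat.Agent.S59.Lim.H2

/-! ## A. Torsion in `𝒪 ⊗_ℤ K` -/

section SubLemma

variable {𝒪 : Type} [CommRing 𝒪] {K : Type} [AddCommGroup K]

/-- scalar multiplication on `𝒪 ⊗ K` as an `rTensor` -/
theorem smul_eq_rTensor (c : 𝒪) (z : 𝒪 ⊗[ℤ] K) :
    c • z = ((LinearMap.mulLeft ℤ c).rTensor K) z := by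
  induction z using TensorProduct.induction_on with
  | zero => rw [smul_zero, map_zero]
  | tmul a k => rw [TensorProduct.smul_tmul', LinearMap.rTensor_tmul, LinearMap.mulLeft_apply,
      smul_eq_mul]
  | add x y hx hy => rw [smul_add, hx, hy, map_add]

/-- An injective homomorphism of elementary abelian `p`-groups has an additive left inverse. -/
theorem exists_leftInverse_of_torsion {Q₁ Q₂ : Type} [AddCommGroup Q₁] [AddCommGroup Q₂] (p : ℕ)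
    [Fact p.Prime] (h₁ : ∀ q : Q₁, p • q = 0) (h₂ : ∀ q : Q₂, p • q = 0) (μ : Q₁ →+ Q₂)
    (hμ : Function.Injective μ) : ∃ r : Q₂ →+ Q₁, ∀ q, r (μ q) = q := by
  letI m₁ : Module (ZMod p) Q₁ := AddCommGroup.zmodModule h₁
  letI m₂ : Module (ZMod p) Q₂ := AddCommGroup.zmodModule h₂
  have key : ∃ rZ : Q₂ →ₗ[ZMod p] Q₁, rZ ∘ₗ (AddMonoidHom.toZModLinearMap p μ) = LinearMap.id :=
    LinearMap.exists_leftInverse_of_injective (AddMonoidHom.toZModLinearMap p μ)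
      (LinearMap.ker_eq_bot.mpr hμ)
  obtain ⟨rZ, hrZ⟩ := key
  refine ⟨rZ.toAddMonoidHom, fun q => ?_⟩
  have h3 := LinearMap.congr_fun hrZ q
  exact h3

variable [IsDomain 𝒪]

/-- In `𝒪 ⊗_ℤ K`: if `ϖ z = 0` and `p = ϖ c₀` then `z ∈ c₀ (𝒪 ⊗ K)`. -/
theorem exists_smul_eq_of_smul_eq_zero {p : ℕ} (hp : p.Prime) {ϖ c₀ : 𝒪} (hϖ0 : ϖ ≠ 0)
    (hpc : (p : 𝒪) = ϖ * c₀) (z : 𝒪 ⊗[ℤ] K) (hz : ϖ • z = 0) :
    ∃ z' : 𝒪 ⊗[ℤ] K, c₀ • z' = z := by
  haveI : Fact p.Prime := ⟨hp⟩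
  set I₁ : Ideal 𝒪 := Ideal.span {c₀} with hI₁
  set I₂ : Ideal 𝒪 := Ideal.span {(p : 𝒪)} with hI₂
  -- the maps
  let g₁ : 𝒪 →ₗ[ℤ] (𝒪 ⧸ I₁) := (Submodule.mkQ I₁).restrictScalars ℤ
  let g₂ : 𝒪 →ₗ[ℤ] (𝒪 ⧸ I₂) := (Submodule.mkQ I₂).restrictScalars ℤ
  have hle : I₁ ≤ Submodule.comap (LinearMap.mulLeft 𝒪 ϖ) I₂ := by
    intro x hx
    obtain ⟨y, rfl⟩ := Ideal.mem_span_singleton'.mp hx
    rw [Submodule.mem_comap, LinearMap.mulLeft_apply]
    refine Ideal.mem_span_singleton'.mpr ⟨y, ?_⟩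
    rw [hpc]
    ring
  let μ₀ : (𝒪 ⧸ I₁) →ₗ[𝒪] (𝒪 ⧸ I₂) := Submodule.mapQ I₁ I₂ (LinearMap.mulLeft 𝒪 ϖ) hle
  have hμ₀ : ∀ x : 𝒪, μ₀ (Submodule.Quotient.mk x) = Submodule.Quotient.mk (ϖ * x) := fun x => rfl
  have hinj : Function.Injective μ₀ := by
    rw [← LinearMap.ker_eq_bot, LinearMap.ker_eq_bot']
    intro q hq
    obtain ⟨x, rfl⟩ := Submodule.Quotient.mk_surjective I₁ q
    rw [hμ₀, Submodule.Quotient.mk_eq_zero] at hq
    obtain ⟨y, hy⟩ := Ideal.mem_span_singleton'.mp hq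
    rw [Submodule.Quotient.mk_eq_zero]
    refine Ideal.mem_span_singleton'.mpr ⟨y, ?_⟩
    apply mul_left_cancel₀ hϖ0
    rw [← hy, hpc]
    ring
  -- both quotients are killed by `p`
  have hp₁ : ∀ q : 𝒪 ⧸ I₁, p • q = 0 := by
    intro q
    obtain ⟨x, rfl⟩ := Submodule.Quotient.mk_surjective I₁ q
    rw [← Submodule.Quotient.mk_smul, Submodule.Quotient.mk_eq_zero]
    refine Ideal.mem_span_singleton'.mpr ⟨ϖ * x, ?_⟩
    rw [nsmul_eq_mul, hpc]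
    ring
  have hp₂ : ∀ q : 𝒪 ⧸ I₂, p • q = 0 := by
    intro q
    obtain ⟨x, rfl⟩ := Submodule.Quotient.mk_surjective I₂ q
    rw [← Submodule.Quotient.mk_smul, Submodule.Quotient.mk_eq_zero]
    refine Ideal.mem_span_singleton'.mpr ⟨x, ?_⟩
    rw [nsmul_eq_mul]
    ring
  let μ : (𝒪 ⧸ I₁) →ₗ[ℤ] (𝒪 ⧸ I₂) := μ₀.restrictScalars ℤ
  obtain ⟨r₀, hr₀⟩ := exists_leftInverse_of_torsion p hp₁ hp₂ μ₀.toAddMonoidHom hinj
  let r : (𝒪 ⧸ I₂) →ₗ[ℤ] (𝒪 ⧸ I₁) := r₀.toIntLinearMap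
  have hrμ : r ∘ₗ μ = LinearMap.id := by
    refine LinearMap.ext fun q => ?_
    exact hr₀ q
  have hμg : μ ∘ₗ g₁ = g₂ ∘ₗ LinearMap.mulLeft ℤ ϖ := by
    refine LinearMap.ext fun x => ?_
    rfl
  -- exactness
  have hex : Function.Exact (LinearMap.mulLeft ℤ c₀) g₁ := by
    intro x
    constructor
    · intro hx
      have hx' : (Submodule.Quotient.mk x : 𝒪 ⧸ I₁) = 0 := hx
      rw [Submodule.Quotient.mk_eq_zero] at hx'
      obtain ⟨y, hy⟩ := Ideal.mem_span_singleton'.mp hx'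
      exact ⟨y, by rw [LinearMap.mulLeft_apply, mul_comm, hy]⟩
    · rintro ⟨y, rfl⟩
      show (Submodule.Quotient.mk (c₀ * y) : 𝒪 ⧸ I₁) = 0
      rw [Submodule.Quotient.mk_eq_zero]
      exact Ideal.mem_span_singleton'.mpr ⟨y, mul_comm _ _⟩
  have hsurj : Function.Surjective g₁ := Submodule.Quotient.mk_surjective I₁
  have hexT := rTensor_exact K hex hsurj
  -- the image of `z` in `(𝒪 ⧸ c₀) ⊗ K` vanishes
  have h1 : (μ.rTensor K) ((g₁.rTensor K) z) = 0 := by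
    rw [← LinearMap.comp_apply, ← LinearMap.rTensor_comp, hμg, LinearMap.rTensor_comp,
      LinearMap.comp_apply, ← smul_eq_rTensor, hz, map_zero]
  have h2 : (g₁.rTensor K) z = 0 := by
    have := congrArg (r.rTensor K) h1
    rw [← LinearMap.comp_apply, ← LinearMap.rTensor_comp, hrμ, LinearMap.rTensor_id,
      LinearMap.id_apply, map_zero] at this
    exact this
  obtain ⟨z', hz'⟩ := (hexT z).mp h2
  exact ⟨z', by rw [smul_eq_rTensor, hz']⟩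

end SubLemma

/-! ## B. W-UNIT -/

section Unit

variable {𝒪 : Type*} [CommRing 𝒪] {W : Type*} [AddCommGroup W] [Module 𝒪 W]

/-- an operator which is locally `unit + nilpotent` is injective -/
theorem injective_of_locally_unit_add_nilp (T : Module.End 𝒪 W) (a : 𝒪) (ha : IsUnit a)
    (h : ∀ x : W, ∃ m : ℕ, ((T - a • (1 : Module.End 𝒪 W)) ^ m) x = 0) :
    Function.Injective T := by
  rw [injective_iff_map_eq_zero]
  intro x hx
  obtain ⟨m, hm⟩ := h x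
  have key : ∀ k : ℕ, ((T - a • (1 : Module.End 𝒪 W)) ^ k) x = ((-a) ^ k) • x := by
    intro k
    induction k with
    | zero => rw [pow_zero, pow_zero, one_smul]; rfl
    | succ k ih =>
      rw [pow_succ, Module.End.mul_apply, LinearMap.sub_apply, hx, LinearMap.smul_apply,
        Module.End.one_apply, zero_sub, ← neg_smul, map_smul, ih, smul_smul, pow_succ, mul_comm]
  rw [key] at hm
  have hu : IsUnit ((-a) ^ m) := (ha.neg).pow m
  exact (hu.smul_eq_zero).mp hm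

/-- an operator which is locally `unit + nilpotent` is surjective -/
theorem surjective_of_locally_unit_add_nilp (T : Module.End 𝒪 W) (a : 𝒪) (ha : IsUnit a)
    (h : ∀ x : W, ∃ m : ℕ, ((T - a • (1 : Module.End 𝒪 W)) ^ m) x = 0) :
    Function.Surjective T := by
  intro x
  obtain ⟨m, hm⟩ := h x
  obtain ⟨u, rfl⟩ := ha
  set B : Module.End 𝒪 W := T - (u : 𝒪) • (1 : Module.End 𝒪 W) with hB
  set C : Module.End 𝒪 W := (-(↑u⁻¹ : 𝒪)) • B with hC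
  have hT : T = (u : 𝒪) • ((1 : Module.End 𝒪 W) - C) := by
    rw [hC, smul_sub, smul_smul, mul_neg, Units.mul_inv, neg_smul, one_smul, sub_neg_eq_add, hB]
    abel
  have hCm : (C ^ m) x = 0 := by
    rw [hC, smul_pow, LinearMap.smul_apply, hm, smul_zero]
  refine ⟨((↑u⁻¹ : 𝒪) • ∑ i ∈ Finset.range m, C ^ i) x, ?_⟩
  have h1 : T * ((↑u⁻¹ : 𝒪) • ∑ i ∈ Finset.range m, C ^ i) = 1 - C ^ m := by
    rw [hT, smul_mul_assoc, mul_smul_comm, smul_smul, Units.mul_inv, one_smul, mul_neg_geom_sum]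
  rw [← Module.End.mul_apply, h1, LinearMap.sub_apply, hCm, sub_zero, Module.End.one_apply]

theorem bijective_of_locally_unit_add_nilp (T : Module.End 𝒪 W) (a : 𝒪) (ha : IsUnit a)
    (h : ∀ x : W, ∃ m : ℕ, ((T - a • (1 : Module.End 𝒪 W)) ^ m) x = 0) :
    Function.Bijective T :=
  ⟨injective_of_locally_unit_add_nilp T a ha h, surjective_of_locally_unit_add_nilp T a ha h⟩

end Unit

section UnitTheta

variable {𝒪 : Type} [CommRing 𝒪] [IsLocalRing 𝒪] {𝕋 : Type} [CommRing 𝕋]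
  {A : Type} [AddCommGroup A]

/-- **W-UNIT** -/
theorem thetaEta_bijective (η : 𝕋 →+* Module.End ℤ A) (θ : 𝕋 →+* ResidueField 𝒪) (t₀ : 𝕋)
    (ht₀ : θ t₀ ≠ 0) : Function.Bijective (thetaEta η θ t₀) := by
  obtain ⟨a, ha⟩ := residue_surjective (θ t₀)
  have hau : IsUnit a := by
    by_contra hna
    apply ht₀
    rw [← ha]
    exact (residue_eq_zero_iff a).mpr ((mem_maximalIdeal a).mpr hna)
  exact bijective_of_locally_unit_add_nilp _ a hau (fun x => thetaEta_local t₀ a ha x)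

theorem thetaEta_pow_coe (η : 𝕋 →+* Module.End ℤ A) (θ : 𝕋 →+* ResidueField 𝒪) (t : 𝕋) (M : ℕ)
    (x : ↥(thetaPart η θ)) :
    ((((thetaEta η θ t) ^ M) x : ↥(thetaPart η θ)) : 𝒪 ⊗[ℤ] A) =
      (((η t).baseChange 𝒪) ^ M) x.1 := by
  induction M generalizing x with
  | zero => rfl
  | succ k ih =>
    rw [pow_succ, Module.End.mul_apply, ih, pow_succ, Module.End.mul_apply]
    rfl

theorem thetaEta_pow_bijective (η : 𝕋 →+* Module.End ℤ A) (θ : 𝕋 →+* ResidueField 𝒪) (t₀ : 𝕋)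
    (ht₀ : θ t₀ ≠ 0) (M : ℕ) : Function.Bijective ((thetaEta η θ t₀) ^ M) := by
  rw [Module.End.coe_pow]
  exact (thetaEta_bijective η θ t₀ ht₀).iterate M

/-- (U1) surjectivity of powers of `t₀` on the `θ`-part, in `X` -/
theorem exists_pow_eq_of_mem (η : 𝕋 →+* Module.End ℤ A) (θ : 𝕋 →+* ResidueField 𝒪) (t₀ : 𝕋)
    (ht₀ : θ t₀ ≠ 0) (M : ℕ) {x : 𝒪 ⊗[ℤ] A} (hx : x ∈ thetaPart η θ) :
    ∃ y ∈ thetaPart η θ, (((η t₀).baseChange 𝒪) ^ M) y = x := by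
  obtain ⟨y, hy⟩ := (thetaEta_pow_bijective η θ t₀ ht₀ M).2 ⟨x, hx⟩
  refine ⟨y.1, y.2, ?_⟩
  rw [← thetaEta_pow_coe, hy]

/-- (U2) injectivity of powers of `t₀` on the `θ`-part, in `X` -/
theorem eq_zero_of_pow_eq_zero (η : 𝕋 →+* Module.End ℤ A) (θ : 𝕋 →+* ResidueField 𝒪) (t₀ : 𝕋)
    (ht₀ : θ t₀ ≠ 0) (M : ℕ) {x : 𝒪 ⊗[ℤ] A} (hx : x ∈ thetaPart η θ)
    (h0 : (((η t₀).baseChange 𝒪) ^ M) x = 0) : x = 0 := by
  have h1 : ((thetaEta η θ t₀) ^ M) ⟨x, hx⟩ = 0 := by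
    apply Subtype.ext
    rw [thetaEta_pow_coe]
    exact h0
  have h2 := (thetaEta_pow_bijective η θ t₀ ht₀ M).1 (h1.trans (map_zero _).symm)
  exact congrArg Subtype.val h2

end UnitTheta

/-! ## C. The `θ`-component -/

section Decomp

variable {R : Type*} [CommRing R] {W : Type*} [AddCommGroup W] [Module R W]

theorem exists_prim_stab (I : Ideal R) (hfin : ∀ x : W, Finite (Submodule.span R {x})) (x₀ : W) :
    ∃ x ∈ primPart I W, ∃ x' ∈ stabPart I W, x + x' = x₀ := by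
  have hx₀ : x₀ ∈ primPart I W ⊔ stabPart I W := by
    rw [(H61.codisjoint_prim_stab I hfin).eq_top]
    exact Submodule.mem_top
  obtain ⟨a, ha, b, hb, h⟩ := Submodule.mem_sup.mp hx₀
  exact ⟨a, ha, b, hb, h⟩

theorem map_eq_of_prim_stab {W' : Type*} [AddCommGroup W'] [Module R W'] (I : Ideal R)
    (f : W →ₗ[R] W') {x x' : W} (hx : x ∈ primPart I W) (hx' : x' ∈ stabPart I W)
    (hy : f (x + x') ∈ primPart I W') : f x = f (x + x') := by
  have hfb : f x' ∈ stabPart I W' := H61.map_mem_stabPart I f hx'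
  have hfa : f x ∈ primPart I W' := H61.map_mem_primPart I f hx
  have hfb' : f x' ∈ primPart I W' := by
    have h1 : f x' = f (x + x') - f x := by
      rw [map_add]
      abel
    rw [h1]
    exact sub_mem hy hfa
  have h2 := (Submodule.disjoint_def.mp (H61.disjoint_prim_stab I)) (f x') hfb' hfb
  rw [map_add, h2, add_zero]

end Decomp

section ThetaDecomp

variable {𝒪 : Type} [CommRing 𝒪] [IsLocalRing 𝒪] {𝕋 : Type} [CommRing 𝕋]
  {A : Type} [AddCommGroup A] {B : Type} [AddCommGroup B]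

/-- an `𝒪`-linear map intertwining the Hecke operators is linear over `𝒪 ⊗ 𝕋` -/
theorem opHom_intertwine (ηB : 𝕋 →+* Module.End ℤ B) (η : 𝕋 →+* Module.End ℤ A)
    (F : (𝒪 ⊗[ℤ] B) →ₗ[𝒪] (𝒪 ⊗[ℤ] A))
    (hF : ∀ t x, F ((ηB t).baseChange 𝒪 x) = (η t).baseChange 𝒪 (F x))
    (r : opRing 𝒪 𝕋) (x : 𝒪 ⊗[ℤ] B) :
    F (opHom 𝒪 ηB r x) = opHom 𝒪 η r (F x) := by
  induction r using TensorProduct.induction_on with
  | zero => simp only [map_zero, LinearMap.zero_apply]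
  | tmul a t =>
    rw [opHom_tmul, opHom_tmul, LinearMap.smul_apply, LinearMap.smul_apply, map_smul, hF]
  | add r₁ r₂ h₁ h₂ =>
    rw [map_add, map_add, LinearMap.add_apply, LinearMap.add_apply, map_add, h₁, h₂]

/-- the `θ`-component of an element: every intertwining map with `θ`-primary value at `x₀` takes
the same value at the component. -/
theorem exists_theta_decomp (ηB : 𝕋 →+* Module.End ℤ B) (θ : 𝕋 →+* ResidueField 𝒪)
    (hlfB : letI := opModule 𝒪 ηB; ∀ x : 𝒪 ⊗[ℤ] B, Finite (Submodule.span (opRing 𝒪 𝕋) {x}))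
    (x₀ : 𝒪 ⊗[ℤ] B) :
    ∃ x ∈ thetaPart ηB θ, ∀ (A : Type) [AddCommGroup A] (η : 𝕋 →+* Module.End ℤ A),
      (letI := opModule 𝒪 η; ∀ x : 𝒪 ⊗[ℤ] A, Finite (Submodule.span (opRing 𝒪 𝕋) {x})) →
      ∀ (F : (𝒪 ⊗[ℤ] B) →ₗ[𝒪] (𝒪 ⊗[ℤ] A)),
        (∀ t x, F ((ηB t).baseChange 𝒪 x) = (η t).baseChange 𝒪 (F x)) →
        F x₀ ∈ thetaPart η θ → F x = F x₀ := by
  letI i1 := opModule 𝒪 ηB
  obtain ⟨x, hx, x', hx', hsum⟩ := exists_prim_stab (Ideal.span (thetaGens 𝒪 θ)) hlfB x₀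
  refine ⟨x, (mem_thetaPart_iff_primPart' ηB θ hlfB x).mpr hx, ?_⟩
  intro A _ η hlfA F hF hFx₀
  letI i2 := opModule 𝒪 η
  let FR : (𝒪 ⊗[ℤ] B) →ₗ[opRing 𝒪 𝕋] (𝒪 ⊗[ℤ] A) :=
    { toFun := F
      map_add' := fun x y => map_add _ x y
      map_smul' := fun r x => opHom_intertwine ηB η F hF r x }
  have h1 : FR (x + x') ∈ primPart (Ideal.span (thetaGens 𝒪 θ)) (𝒪 ⊗[ℤ] A) := by
    have : FR (x + x') = F x₀ := by rw [hsum]; rfl
    rw [this]
    exact (mem_thetaPart_iff_primPart' η θ hlfA (F x₀)).mp hFx₀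
  have h2 := map_eq_of_prim_stab (Ideal.span (thetaGens 𝒪 θ)) FR hx hx' h1
  rw [hsum] at h2
  exact h2

end ThetaDecomp

/-! ## D. W-DIV -/

section Div

variable {𝒪 : Type} [CommRing 𝒪] [IsDomain 𝒪] [IsDiscreteValuationRing 𝒪]
  [Finite (ResidueField 𝒪)] {𝕋 : Type} [CommRing 𝕋] {A : Type} [AddCommGroup A]

/-- local finiteness of `𝒪 ⊗ A` over `𝒪 ⊗ 𝕋` under the standing hypotheses -/
theorem lf_of_torsion (η : 𝕋 →+* Module.End ℤ A) {ϖ : 𝒪} (hϖ : Irreducible ϖ) {p : ℕ}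
    (hp : p.Prime) (hpm : (p : 𝒪) ∈ maximalIdeal 𝒪) (hp0 : (p : 𝒪) ≠ 0)
    (htors : ∀ x : A, ∃ k : ℕ, p ^ k • x = 0) (hfin : Finite {x : A // p • x = 0}) :
    letI := opModule 𝒪 η
    ∀ x : 𝒪 ⊗[ℤ] A, Finite (Submodule.span (opRing 𝒪 𝕋) {x}) :=
  finite_span_opModule η (tens_tors hϖ hpm hp0 htors) (tens_fin hϖ hp hpm hp0 hfin)

theorem exists_mul_eq_natCast {ϖ : 𝒪} (hϖ : Irreducible ϖ) {p : ℕ}
    (hpm : (p : 𝒪) ∈ maximalIdeal 𝒪) : ∃ c₀ : 𝒪, (p : 𝒪) = ϖ * c₀ := by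
  rw [Irreducible.maximalIdeal_eq hϖ] at hpm
  obtain ⟨c, hc⟩ := Ideal.mem_span_singleton'.mp hpm
  exact ⟨c, by rw [← hc, mul_comm]⟩

/-- **W-DIV** -/
theorem isDiv_thetaPart_of_pow (η : 𝕋 →+* Module.End ℤ A) (θ : 𝕋 →+* ResidueField 𝒪)
    {ϖ : 𝒪} (hϖ : Irreducible ϖ) {p : ℕ} (hp : p.Prime) (hpm : (p : 𝒪) ∈ maximalIdeal 𝒪)
    (hp0 : (p : 𝒪) ≠ 0) (htors : ∀ x : A, ∃ k : ℕ, p ^ k • x = 0)
    (hfin : Finite {x : A // p • x = 0}) (t₀ : 𝕋) (ht₀ : θ t₀ ≠ 0)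
    (hN : ∃ N : ℕ, ∀ x : A, ∃ y : A, (η t₀ ^ N) x = p • y) :
    IsDiv ϖ ↥(thetaPart η θ) where
  tors := fun x => by
    obtain ⟨k, hk⟩ := tens_tors hϖ hpm hp0 htors x.1
    refine ⟨k, Subtype.ext ?_⟩
    rw [Submodule.coe_smul, hk]
    rfl
  div := fun x => by
    obtain ⟨N, hN⟩ := hN
    obtain ⟨x', hx', hxx'⟩ := exists_pow_eq_of_mem η θ t₀ ht₀ N x.2
    have key : ∀ z : 𝒪 ⊗[ℤ] A, ∃ z' : 𝒪 ⊗[ℤ] A, ((η t₀ ^ N).baseChange 𝒪) z = (p : 𝒪) • z' := by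
      intro z
      induction z using TensorProduct.induction_on with
      | zero => exact ⟨0, by rw [map_zero, smul_zero]⟩
      | tmul c k =>
        obtain ⟨y, hy⟩ := hN k
        exact ⟨c ⊗ₜ[ℤ] y, by rw [LinearMap.baseChange_tmul, hy, natCast_smul_tmul]⟩
      | add z₁ z₂ h₁ h₂ =>
        obtain ⟨y₁, hy₁⟩ := h₁
        obtain ⟨y₂, hy₂⟩ := h₂
        exact ⟨y₁ + y₂, by rw [map_add, hy₁, hy₂, smul_add]⟩
    obtain ⟨z', hz'⟩ := key x'
    obtain ⟨c₀, hc₀⟩ := exists_mul_eq_natCast hϖ hpm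
    have hlf := lf_of_torsion η hϖ hp hpm hp0 htors hfin
    obtain ⟨y, hy, hyF⟩ := exists_theta_decomp η θ hlf (c₀ • z')
    have h1 : ϖ • (c₀ • z') = x.1 := by
      rw [smul_smul, ← hc₀, ← hz', baseChange_pow_eq]
      exact hxx'
    have h2 := hyF A η hlf (ϖ • (LinearMap.id : (𝒪 ⊗[ℤ] A) →ₗ[𝒪] (𝒪 ⊗[ℤ] A)))
      (fun t z => by
        rw [LinearMap.smul_apply, LinearMap.smul_apply, LinearMap.id_apply, LinearMap.id_apply,
          map_smul])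
      (by
        rw [LinearMap.smul_apply, LinearMap.id_apply, h1]
        exact x.2)
    rw [LinearMap.smul_apply, LinearMap.smul_apply, LinearMap.id_apply, LinearMap.id_apply,
      h1] at h2
    exact ⟨⟨y, hy⟩, Subtype.ext h2⟩
  fin := by
    haveI := tens_fin hϖ hp hpm hp0 hfin
    let j : Submodule.torsionBy 𝒪 ↥(thetaPart η θ) ϖ → Submodule.torsionBy 𝒪 (𝒪 ⊗[ℤ] A) ϖ :=
      fun z => ⟨z.1.1, by
        rw [Submodule.mem_torsionBy_iff]
        have := (Submodule.mem_torsionBy_iff _ _).mp z.2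
        have h2 := congrArg Subtype.val this
        rw [Submodule.coe_smul] at h2
        exact h2⟩
    have hj : Function.Injective j := by
      intro z z' h
      have h1 : (j z).1 = (j z').1 := congrArg Subtype.val h
      exact Subtype.ext (Subtype.ext h1)
    exact Finite.of_injective j hj

end Div

/-! ## E. Simultaneous kernels -/

section Ker

variable {𝒪 : Type} [CommRing 𝒪] [Module.Flat ℤ 𝒪] {A : Type} [AddCommGroup A]
  {A' : Type} [AddCommGroup A']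

/-- simultaneous kernels commute with the flat base change `𝒪 ⊗ -` (finite families) -/
theorem exists_of_forall_baseChange_eq_zero {ι : Type} [Finite ι] (f : ι → (A →ₗ[ℤ] A'))
    {v : 𝒪 ⊗[ℤ] A} (hv : ∀ i, (f i).baseChange 𝒪 v = 0) :
    ∃ y : 𝒪 ⊗[ℤ] ↥(LinearMap.ker (LinearMap.pi f)),
      (LinearMap.ker (LinearMap.pi f)).subtype.baseChange 𝒪 y = v := by
  classical
  haveI := Fintype.ofFinite ι
  apply exists_of_baseChange_eq_zero
  have key : ∀ w : 𝒪 ⊗[ℤ] A, TensorProduct.piRight ℤ 𝒪 𝒪 (fun _ : ι => A')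
      ((LinearMap.pi f).baseChange 𝒪 w) = fun i => (f i).baseChange 𝒪 w := by
    intro w
    induction w using TensorProduct.induction_on with
    | zero =>
      funext i
      simp only [map_zero, Pi.zero_apply]
    | tmul c k =>
      rw [LinearMap.baseChange_tmul, TensorProduct.piRight_apply, TensorProduct.piRightHom_tmul]
      funext i
      rw [LinearMap.baseChange_tmul]
      rfl
    | add w₁ w₂ h₁ h₂ =>
      rw [map_add, map_add, h₁, h₂]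
      funext i
      rw [Pi.add_apply, map_add]
  have h1 : TensorProduct.piRight ℤ 𝒪 𝒪 (fun _ : ι => A') ((LinearMap.pi f).baseChange 𝒪 v) = 0 := by
    rw [key]
    funext i
    exact hv i
  exact (LinearEquiv.map_eq_zero_iff _).mp h1

theorem baseChange_subtype_injective (K : Submodule ℤ A) :
    Function.Injective (K.subtype.baseChange 𝒪) := by
  rw [LinearMap.baseChange_eq_ltensor]
  exact Module.Flat.lTensor_preserves_injective_linearMap K.subtype K.subtype_injective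

end Ker

/-! ## F. The lifting lemma -/

section UnitOne

variable {𝒪 : Type} [CommRing 𝒪] [IsLocalRing 𝒪] {𝕋 : Type} [CommRing 𝕋]
  {A : Type} [AddCommGroup A]

theorem exists_apply_eq_of_mem (η : 𝕋 →+* Module.End ℤ A) (θ : 𝕋 →+* ResidueField 𝒪) (s : 𝕋)
    (hs : θ s ≠ 0) {x : 𝒪 ⊗[ℤ] A} (hx : x ∈ thetaPart η θ) :
    ∃ y ∈ thetaPart η θ, ((η s).baseChange 𝒪) y = x := by
  obtain ⟨y, hy, h⟩ := exists_pow_eq_of_mem η θ s hs 1 hx
  exact ⟨y, hy, by rw [pow_one] at h; exact h⟩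

theorem eq_zero_of_apply_eq_zero (η : 𝕋 →+* Module.End ℤ A) (θ : 𝕋 →+* ResidueField 𝒪) (s : 𝕋)
    (hs : θ s ≠ 0) {x : 𝒪 ⊗[ℤ] A} (hx : x ∈ thetaPart η θ)
    (h0 : ((η s).baseChange 𝒪) x = 0) : x = 0 :=
  eq_zero_of_pow_eq_zero η θ s hs 1 hx (by rw [pow_one]; exact h0)

end UnitOne

section Lift

variable {𝒪 : Type} [CommRing 𝒪] [IsDomain 𝒪] [IsDiscreteValuationRing 𝒪]
  [Finite (ResidueField 𝒪)] {𝕋 : Type} [CommRing 𝕋] {A : Type} [AddCommGroup A]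
  {B : Type} [AddCommGroup B]

/-- multiplication by `p` as an endomorphism -/
def pMul (A : Type) [AddCommGroup A] (p : ℕ) : Module.End ℤ A := (p : ℤ) • (1 : Module.End ℤ A)

theorem pMul_apply (p : ℕ) (k : A) : pMul A p k = p • k := by
  rw [pMul, LinearMap.smul_apply, Module.End.one_apply, natCast_zsmul]

theorem pMul_baseChange (p : ℕ) (w : 𝒪 ⊗[ℤ] A) : (pMul A p).baseChange 𝒪 w = (p : 𝒪) • w := by
  induction w using TensorProduct.induction_on with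
  | zero => rw [map_zero, smul_zero]
  | tmul c k => rw [LinearMap.baseChange_tmul, pMul_apply, natCast_smul_tmul]
  | add w₁ w₂ h₁ h₂ => rw [map_add, h₁, h₂, smul_add]

/-- The general lifting lemma (single operator `s`). -/
theorem theta_lift_aux (η : 𝕋 →+* Module.End ℤ A) (ηB : 𝕋 →+* Module.End ℤ B)
    (θ : 𝕋 →+* ResidueField 𝒪)
    {ϖ : 𝒪} (hϖ : Irreducible ϖ) {p : ℕ} (hp : p.Prime) (hpm : (p : 𝒪) ∈ maximalIdeal 𝒪)
    (hp0 : (p : 𝒪) ≠ 0) (htorsA : ∀ x : A, ∃ k : ℕ, p ^ k • x = 0)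
    (hfinA : Finite {x : A // p • x = 0}) (htorsB : ∀ x : B, ∃ k : ℕ, p ^ k • x = 0)
    (hfinB : Finite {x : B // p • x = 0}) (s : 𝕋) (hs : θ s ≠ 0)
    (g : B →ₗ[ℤ] A) (hg : ∀ t, g ∘ₗ ηB t = η t ∘ₗ g)
    {ι : Type} [Finite ι] (f : ι → Module.End ℤ A)
    {ι' : Type} (h : ι' → Module.End ℤ B) (hh : ∀ i t, Commute (ηB t) (h i))
    (hyp : ∀ k : A, p • k = 0 → (∀ i, f i k = 0) →
      ∃ y : B, p • y = 0 ∧ (∀ i, h i y = 0) ∧ g y = η s k)
    {v : 𝒪 ⊗[ℤ] A} (hv : v ∈ thetaPart η θ) (hϖv : ϖ • v = 0)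
    (hfv : ∀ i, (f i).baseChange 𝒪 v = 0) :
    ∃ y ∈ thetaPart ηB θ, ϖ • y = 0 ∧ (∀ i, (h i).baseChange 𝒪 y = 0) ∧
      g.baseChange 𝒪 y = v := by
  classical
  haveI := charZero_of_mem (𝒪 := 𝒪) hp hpm hp0
  haveI := flat_int (𝒪 := 𝒪)
  obtain ⟨c₀, hc₀⟩ := exists_mul_eq_natCast hϖ hpm
  have hpv : (p : 𝒪) • v = 0 := by rw [hc₀, mul_comm, mul_smul, hϖv, smul_zero]
  -- the family
  let f' : Option ι → Module.End ℤ A := fun o => Option.elim o (pMul A p) f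
  have hf'v : ∀ o, (f' o).baseChange 𝒪 v = 0 := by
    intro o
    cases o with
    | none => exact (pMul_baseChange p v).trans hpv
    | some i => exact hfv i
  obtain ⟨vK, hvK⟩ := exists_of_forall_baseChange_eq_zero f' hf'v
  have hK : ∀ k : ↥(LinearMap.ker (LinearMap.pi f')), p • k.1 = 0 ∧ ∀ i, f i k.1 = 0 := by
    intro k
    have hk : LinearMap.pi f' k.1 = 0 := k.2
    refine ⟨?_, fun i => ?_⟩
    · have := congrFun hk none
      rw [← pMul_apply]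
      exact this
    · exact congrFun hk (some i)
  have hϖvK : ϖ • vK = 0 :=
    baseChange_subtype_injective (𝒪 := 𝒪) _ (by rw [map_smul, hvK, hϖv, map_zero])
  obtain ⟨z, hz⟩ := exists_smul_eq_of_smul_eq_zero hp hϖ.ne_zero hc₀ vK hϖvK
  -- transfer
  have key : ∀ z : 𝒪 ⊗[ℤ] ↥(LinearMap.ker (LinearMap.pi f')), ∃ y₀ : 𝒪 ⊗[ℤ] B,
      (p : 𝒪) • y₀ = 0 ∧ (∀ i, (h i).baseChange 𝒪 y₀ = 0) ∧
      g.baseChange 𝒪 y₀ = (η s).baseChange 𝒪
        ((LinearMap.ker (LinearMap.pi f')).subtype.baseChange 𝒪 z) := by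
    intro z
    induction z using TensorProduct.induction_on with
    | zero => exact ⟨0, smul_zero _, fun i => map_zero _, by rw [map_zero, map_zero, map_zero]⟩
    | tmul c k =>
      obtain ⟨y, hy1, hy2, hy3⟩ := hyp k.1 (hK k).1 (hK k).2
      refine ⟨c ⊗ₜ[ℤ] y, ?_, ?_, ?_⟩
      · rw [natCast_smul_tmul, hy1, tmul_zero]
      · intro i
        rw [LinearMap.baseChange_tmul, hy2, tmul_zero]
      · rw [LinearMap.baseChange_tmul, LinearMap.baseChange_tmul, LinearMap.baseChange_tmul, hy3]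
        rfl
    | add z₁ z₂ h₁ h₂ =>
      obtain ⟨y₁, a1, a2, a3⟩ := h₁
      obtain ⟨y₂, b1, b2, b3⟩ := h₂
      refine ⟨y₁ + y₂, by rw [smul_add, a1, b1, add_zero],
        fun i => by rw [map_add, a2, b2, add_zero], ?_⟩
      rw [map_add, a3, b3, map_add, map_add]
  obtain ⟨y₀, hy1, hy2, hy3⟩ := key z
  have hlfA := lf_of_torsion η hϖ hp hpm hp0 htorsA hfinA
  have hlfB := lf_of_torsion ηB hϖ hp hpm hp0 htorsB hfinB
  obtain ⟨yp, hyp_mem, hypF⟩ := exists_theta_decomp ηB θ hlfB (c₀ • y₀)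
  have e1 : ϖ • (c₀ • y₀) = 0 := by rw [smul_smul, ← hc₀, hy1]
  have e2 : ∀ i, (h i).baseChange 𝒪 (c₀ • y₀) = 0 := fun i => by rw [map_smul, hy2, smul_zero]
  have e3 : g.baseChange 𝒪 (c₀ • y₀) = (η s).baseChange 𝒪 v := by
    rw [map_smul, hy3, ← map_smul, ← map_smul, hz, hvK]
  have hEv : (η s).baseChange 𝒪 v ∈ thetaPart η θ :=
    thetaPart_stable (fun t => baseChange_commute 𝒪 ((Commute.all t s).map η)) hv
  have hgI : ∀ t x, g.baseChange 𝒪 ((ηB t).baseChange 𝒪 x) =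
      (η t).baseChange 𝒪 (g.baseChange 𝒪 x) := fun t x =>
    LinearMap.congr_fun (baseChange_comp_eq 𝒪 (hg t)) x
  have hhI : ∀ i t x, (h i).baseChange 𝒪 ((ηB t).baseChange 𝒪 x) =
      (ηB t).baseChange 𝒪 ((h i).baseChange 𝒪 x) := fun i t x =>
    (LinearMap.congr_fun (baseChange_commute 𝒪 (hh i t)).eq x).symm
  have p1 : ϖ • yp = 0 := by
    have h2 := hypF B ηB hlfB (ϖ • (LinearMap.id : (𝒪 ⊗[ℤ] B) →ₗ[𝒪] (𝒪 ⊗[ℤ] B)))
      (fun t z => by
        rw [LinearMap.smul_apply, LinearMap.smul_apply, LinearMap.id_apply, LinearMap.id_apply,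
          map_smul])
      (by
        rw [LinearMap.smul_apply, LinearMap.id_apply, e1]
        exact zero_mem _)
    rw [LinearMap.smul_apply, LinearMap.smul_apply, LinearMap.id_apply, LinearMap.id_apply,
      e1] at h2
    exact h2
  have p2 : ∀ i, (h i).baseChange 𝒪 yp = 0 := by
    intro i
    have h2 := hypF B ηB hlfB ((h i).baseChange 𝒪) (hhI i)
      (by rw [e2 i]; exact zero_mem _)
    rw [e2 i] at h2
    exact h2
  have p3 : g.baseChange 𝒪 yp = (η s).baseChange 𝒪 v := by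
    have h2 := hypF A η hlfA (g.baseChange 𝒪) hgI (by rw [e3]; exact hEv)
    rw [e3] at h2
    exact h2
  -- invert `s`
  obtain ⟨y₂, hy₂, hy₂E⟩ := exists_apply_eq_of_mem ηB θ s hs hyp_mem
  refine ⟨y₂, hy₂, ?_, ?_, ?_⟩
  · apply eq_zero_of_apply_eq_zero ηB θ s hs ((thetaPart ηB θ).smul_mem ϖ hy₂)
    rw [map_smul, hy₂E, p1]
  · intro i
    apply eq_zero_of_apply_eq_zero ηB θ s hs
      (thetaPart_stable (fun t => baseChange_commute 𝒪 (hh i t)) hy₂)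
    rw [← hhI, hy₂E, p2]
  · have hmem : g.baseChange 𝒪 y₂ - v ∈ thetaPart η θ :=
      sub_mem (baseChange_mem_thetaPart g hg hy₂) hv
    have := eq_zero_of_apply_eq_zero η θ s hs hmem
      (by rw [map_sub, ← hgI, hy₂E, p3, sub_self])
    exact sub_eq_zero.mp this

end Lift

/-! ## G. Uniformisation and the final form -/

section Uniform

variable {𝒪 : Type} [CommRing 𝒪] [IsLocalRing 𝒪] {𝕋 : Type} [CommRing 𝕋]
  {A : Type} [AddCommGroup A] {B : Type} [AddCommGroup B]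

/-- uniformisation of the exponent of `t₀` (finiteness of `A[p]`) -/
theorem exists_uniform (η : 𝕋 →+* Module.End ℤ A) (ηB : 𝕋 →+* Module.End ℤ B)
    (θ : 𝕋 →+* ResidueField 𝒪) {p : ℕ} (hfinA : Finite {x : A // p • x = 0})
    (t₀ : 𝕋) (ht₀ : θ t₀ ≠ 0) (g : B →ₗ[ℤ] A) (hg : ∀ t, g ∘ₗ ηB t = η t ∘ₗ g)
    {ι : Type} (f : ι → Module.End ℤ A)
    {ι' : Type} (h : ι' → Module.End ℤ B) (hh : ∀ i t, Commute (ηB t) (h i))
    (hyp : ∀ k : A, p • k = 0 → (∀ i, f i k = 0) →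
      ∃ (y : B) (m : ℕ), p • y = 0 ∧ (∀ i, h i y = 0) ∧ g y = (η t₀ ^ m) k) :
    ∃ s : 𝕋, θ s ≠ 0 ∧ ∀ k : A, p • k = 0 → (∀ i, f i k = 0) →
      ∃ y : B, p • y = 0 ∧ (∀ i, h i y = 0) ∧ g y = η s k := by
  classical
  have hyp' : ∀ x : {x : A // p • x = 0}, ∃ m : ℕ, (∀ i, f i x.1 = 0) →
      ∃ y : B, p • y = 0 ∧ (∀ i, h i y = 0) ∧ g y = (η t₀ ^ m) x.1 := by
    intro x
    by_cases hx : ∀ i, f i x.1 = 0
    · obtain ⟨y, m, h1, h2, h3⟩ := hyp x.1 x.2 hx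
      exact ⟨m, fun _ => ⟨y, h1, h2, h3⟩⟩
    · exact ⟨0, fun h' => absurd h' hx⟩
  choose m hm using hyp'
  obtain ⟨M, hM⟩ := Finite.exists_le m
  refine ⟨t₀ ^ M, ?_, ?_⟩
  · rw [map_pow]
    exact pow_ne_zero M ht₀
  · intro k hk hfk
    obtain ⟨y, h1, h2, h3⟩ := hm ⟨k, hk⟩ hfk
    have hle : m ⟨k, hk⟩ ≤ M := hM _
    refine ⟨ηB (t₀ ^ (M - m ⟨k, hk⟩)) y, ?_, ?_, ?_⟩
    · rw [← map_nsmul, h1, map_zero]
    · intro i
      have hc := LinearMap.congr_fun (hh i (t₀ ^ (M - m ⟨k, hk⟩))).eq y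
      rw [Module.End.mul_apply, Module.End.mul_apply] at hc
      rw [← hc, h2 i, map_zero]
    · have hc := LinearMap.congr_fun (hg (t₀ ^ (M - m ⟨k, hk⟩))) y
      rw [LinearMap.comp_apply, LinearMap.comp_apply] at hc
      rw [hc, h3, ← map_pow, ← Module.End.mul_apply, ← map_mul, ← pow_add,
        Nat.sub_add_cancel hle]

end Uniform

section Main

variable {𝒪 : Type} [CommRing 𝒪] [IsDomain 𝒪] [IsDiscreteValuationRing 𝒪]
  [Finite (ResidueField 𝒪)] {𝕋 : Type} [CommRing 𝕋] {A : Type} [AddCommGroup A]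
  {B : Type} [AddCommGroup B]

/-- The general lifting lemma: a `ℤ`-level lifting statement "up to a power of `t₀`" gives the
clean lifting statement on the `ϖ`-torsion of the `θ`-part. -/
theorem theta_lift (η : 𝕋 →+* Module.End ℤ A) (ηB : 𝕋 →+* Module.End ℤ B)
    (θ : 𝕋 →+* ResidueField 𝒪)
    {ϖ : 𝒪} (hϖ : Irreducible ϖ) {p : ℕ} (hp : p.Prime) (hpm : (p : 𝒪) ∈ maximalIdeal 𝒪)
    (hp0 : (p : 𝒪) ≠ 0) (htorsA : ∀ x : A, ∃ k : ℕ, p ^ k • x = 0)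
    (hfinA : Finite {x : A // p • x = 0}) (htorsB : ∀ x : B, ∃ k : ℕ, p ^ k • x = 0)
    (hfinB : Finite {x : B // p • x = 0}) (t₀ : 𝕋) (ht₀ : θ t₀ ≠ 0)
    (g : B →ₗ[ℤ] A) (hg : ∀ t, g ∘ₗ ηB t = η t ∘ₗ g)
    {ι : Type} [Finite ι] (f : ι → Module.End ℤ A)
    {ι' : Type} (h : ι' → Module.End ℤ B) (hh : ∀ i t, Commute (ηB t) (h i))
    (hyp : ∀ k : A, p • k = 0 → (∀ i, f i k = 0) →
      ∃ (y : B) (m : ℕ), p • y = 0 ∧ (∀ i, h i y = 0) ∧ g y = (η t₀ ^ m) k)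
    {v : 𝒪 ⊗[ℤ] A} (hv : v ∈ thetaPart η θ) (hϖv : ϖ • v = 0)
    (hfv : ∀ i, (f i).baseChange 𝒪 v = 0) :
    ∃ y ∈ thetaPart ηB θ, ϖ • y = 0 ∧ (∀ i, (h i).baseChange 𝒪 y = 0) ∧
      g.baseChange 𝒪 y = v := by
  obtain ⟨s, hs, hyp'⟩ := exists_uniform η ηB θ hfinA t₀ ht₀ g hg f h hh hyp
  exact theta_lift_aux η ηB θ hϖ hp hpm hp0 htorsA hfinA htorsB hfinB s hs g hg f h hh hyp'
    hv hϖv hfv

theorem sub_one_baseChange (d : Module.End ℤ A) (x : 𝒪 ⊗[ℤ] A) :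
    (d - 1).baseChange 𝒪 x = d.baseChange 𝒪 x - x := by
  rw [LinearMap.baseChange_sub, LinearMap.sub_apply, baseChange_one_eq]
  rfl

theorem sum_pow_baseChange (d : Module.End ℤ A) (N : ℕ) (x : 𝒪 ⊗[ℤ] A) :
    (∑ e ∈ Finset.range N, d ^ e).baseChange 𝒪 x =
      ∑ e ∈ Finset.range N, ((d.baseChange 𝒪) ^ e) x := by
  have h1 : (∑ e ∈ Finset.range N, d ^ e).baseChange 𝒪 =
      ∑ e ∈ Finset.range N, (d.baseChange 𝒪) ^ e := by
    have := map_sum (Module.End.baseChangeHom ℤ 𝒪 A) (fun e => d ^ e) (Finset.range N)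
    refine this.trans (Finset.sum_congr rfl fun e _ => ?_)
    exact map_pow (Module.End.baseChangeHom ℤ 𝒪 A) d e
  rw [h1, LinearMap.sum_apply]

end Main

end Fermat.Agent.S59.Lim.H94
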